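import Fermat.Agent.RT.Prod.Pre
import Fermat.Agent.RT.PlanTWE
import Fermat.Agent.RT.PlanK3
import Fermat.Agent.RT.K1.TameGenPlan

/-!
# K-machine, PROD-asm (helper70): the GALOIS-SIDE CONTRACT at level `n`

`TWGal` is what the Hecke side (K5 + K6 + K7 + FLAT, for the Taylor–Wiles set `Q = Q_n`) has to
deliver at level `n`, in matrix form and BEFORE any choice of generators:

* a finite local `O`-algebra `A` with residue field `k` (`S53.IsResAlg`), a representation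
  `ρ : GaloisRepAdic A` of type `twFlat O p Smin (Q ∪ T)` lifting `ρ̄`, a basis `b` of `ρ.V`;
* framings `β_r ∈ 1 + M₂(𝔪_A)` (`r ∈ T`), such that `A` is generated over `O` by the traces of
  `ρ` and the entries of the `β_r`;
* the two actions `π1`, `πχ : A →ₐ[O] M_d(S ⧸ 𝔪 ^ n)` (the specialisations `Δ_T → 1`,
  `Δ_T → ζ`), congruent modulo `λ`, with the scalars `c ∈ E ⊆ S ⧸ 𝔪 ^ n` in their images
  (`E = rttwEvenQ O m h n`, the even part, in the symmetric design `RT/PlanTWE.lean`);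
* the traces of the fixed inertia generators `σ_i` (`LOC-gen`): `π1 (tr ρ(σ_i)) = 2`,
  `πχ (tr ρ(σ_i)) = 2 tχ_i`;
* the base: modulo `𝔞` the action `π1` is through `T0`, and the framed local matrices
  `β⁻¹ ρ(σ_i) β`, `β⁻¹ ρ(φ_i) β` reduce to `Σ⁰_i`, `Φ⁰_i`.

`RT/Prod/Asm.lean` : `rtpa_pre : TWGal + LOC-gen + K3-Alg ⇒ ∃ x, Prod.TWPreE`, and
`rtprod_datumE : TWPreE → TWDatumE`.
-/

set_option autoImplicit false

namespace Fermat.Agent.RT.Prod

open IsLocalRing Fermat.Agent.TW Fermat.Agent.RT Fermat.Agent.RT.K1 ExtCitation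

/-- The Galois group of `ℚ`. -/
abbrev RtpaG : Type := AlgebraicClosure ℚ ≃ₐ[ℚ] AlgebraicClosure ℚ

/-- **LOC-gen at `r`** for a fixed pair `(σ, φ)`: the conclusion of `K1.StmtLocGen`. -/
structure IsLocGenAt (p r : ℕ) [Fact r.Prime] (σ φ : RtpaG) : Prop where
  inertia : σ ∈ (padicPlace r).inertiaSubgroupIn ℚ
  frob : (padicPlace r).IsFrobeniusAt φ r
  univ : ∀ (M : Type) [Monoid M] (h : RtpaG →* M), IsTameP r p h →
    (∀ τ ∈ (padicPlace r).inertiaSubgroupIn ℚ, ∃ m : ℕ, h τ = h σ ^ m) ∧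
    (∀ τ ∈ (padicPlace r).decompositionSubgroup ℚ, ∃ m n : ℕ, h τ = h σ ^ m * h φ ^ n) ∧
    h φ * h σ = h σ ^ r * h φ

theorem exists_isLocGenAt (hloc : StmtLocGen) (p r : ℕ) [Fact r.Prime] [Fact p.Prime]
    (hrp : r ≠ p) : ∃ σ φ : RtpaG, IsLocGenAt p r σ φ := by
  obtain ⟨σ, hσ, φ, hφ, h⟩ := hloc r p hrp
  exact ⟨σ, φ, ⟨hσ, hφ, h⟩⟩

/-- **Tameness from residual triviality** (helper65's convenience lemma, as a `Prop`):
a representation over a finite local ring of residue characteristic `p` which is trivial modulo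
`𝔪` on the inertia group at `padicPlace r` satisfies `IsTameP r p`. -/
def StmtTameOfRes : Prop :=
  ∀ (r p : ℕ) [Fact r.Prime] [Fact p.Prime] (A : Type) [CommRing A] [IsLocalRing A] [Finite A]
    (ρ : GaloisRepAdic A), (p : A) ∈ maximalIdeal A →
    (∀ τ ∈ (padicPlace r).inertiaSubgroupIn ℚ, ∀ v : ρ.V,
      ρ.ρ τ v - v ∈ maximalIdeal A • (⊤ : Submodule A ρ.V)) →
    IsTameP r p ρ.ρ

section Gal

variable {O : Type} [CommRing O] [IsLocalRing O] {ι : Type}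

/-- The framed local matrix `β_r⁻¹ ρ(g) β_r`. -/
noncomputable def rtpaFr {A : Type} [CommRing A] [IsLocalRing A] (ρ : GaloisRepAdic A)
    (b : Module.Basis (Fin 2) A ρ.V) (β βi : ℕ → Matrix (Fin 2) (Fin 2) A) (r : ℕ) (g : RtpaG) :
    Matrix (Fin 2) (Fin 2) A :=
  βi r * LinearMap.toMatrix b b (ρ.ρ g) * β r

/-- **The Galois-side datum at level `n`** (matrix form).
`r i` = the `i`-th trivial prime, `σ i`, `φ i` = the LOC-gen generators at `padicPlace (r i)`,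
`T = Finset.univ.image r`. -/
structure TWGal [Fintype ι] (p : ℕ) (ρbar : ResidualGaloisRep (ResidueField O))
    (Smin Q : Finset ℕ) (r : ι → ℕ) (σ φ : ι → RtpaG) (tχ : ι → O) (lam : O) (m d : ℕ)
    {T0 : Type} [CommRing T0] [Algebra O T0] (j0 : T0 →ₐ[O] Matrix (Fin d) (Fin d) O)
    (Sig0 Phi0 : ι → Matrix (Fin 2) (Fin 2) T0) (n : ℕ)
    (E : Set (RttwS O m ⧸ maximalIdeal (RttwS O m) ^ n))
    {A : Type} [CommRing A] [IsLocalRing A] [Algebra O A]
    (ιA : ResidueField O →+* ResidueField A)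
    (ρ : GaloisRepAdic A) (b : Module.Basis (Fin 2) A ρ.V)
    (β βi : ℕ → Matrix (Fin 2) (Fin 2) A)
    (π1 πχ : A →ₐ[O] Matrix (Fin d) (Fin d) (RttwS O m ⧸ maximalIdeal (RttwS O m) ^ n)) :
    Prop where
  finite : Finite A
  resAlg : Fermat.Agent.S53.IsResAlg O A
  hιA : ∀ x : O, ιA (residue O x) = residue A (algebraMap O A x)
  flat : twFlat O p Smin (Q ∪ Finset.univ.image r) ρ
  res : ρ.residual.IsEquiv (ρbar.baseChangeAlong ιA)
  framing : ∀ ℓ ∈ Finset.univ.image r,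
    β ℓ * βi ℓ = 1 ∧ ∀ a c, (β ℓ - 1) a c ∈ maximalIdeal A
  gen : Algebra.adjoin O ({y | ∃ g, y = LinearMap.trace A ρ.V (ρ.ρ g)} ∪
    {y | ∃ ℓ ∈ Finset.univ.image r, ∃ a c, y = β ℓ a c}) = ⊤
  scal1 : ∀ c ∈ E, ∃ u : A,
    π1 u = algebraMap _ (Matrix (Fin d) (Fin d) (RttwS O m ⧸ maximalIdeal (RttwS O m) ^ n)) c
  scalχ : ∀ c ∈ E, ∃ u : A,
    πχ u = algebraMap _ (Matrix (Fin d) (Fin d) (RttwS O m ⧸ maximalIdeal (RttwS O m) ^ n)) c
  tr1 : ∀ i, π1 (LinearMap.trace A ρ.V (ρ.ρ (σ i))) = 2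
  trχ : ∀ i, πχ (LinearMap.trace A ρ.V (ρ.ρ (σ i))) = algebraMap O _ (2 * tχ i)
  cong : ∀ u : A,
    (π1 u).map (Ideal.Quotient.factor
        (le_sup_right : maximalIdeal (RttwS O m) ^ n ≤
          rttwLam m lam ⊔ maximalIdeal (RttwS O m) ^ n)) =
      (πχ u).map (Ideal.Quotient.factor
        (le_sup_right : maximalIdeal (RttwS O m) ^ n ≤
          rttwLam m lam ⊔ maximalIdeal (RttwS O m) ^ n))
  base_sig : ∀ i a c,
    (π1 (rtpaFr ρ b β βi (r i) (σ i) a c)).map (Ideal.Quotient.factor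
        (le_sup_right : maximalIdeal (RttwS O m) ^ n ≤
          rttwAug O m ⊔ maximalIdeal (RttwS O m) ^ n)) =
      rttwBaseRed m d n (j0 (Sig0 i a c))
  base_phi : ∀ i a c,
    (π1 (rtpaFr ρ b β βi (r i) (φ i) a c)).map (Ideal.Quotient.factor
        (le_sup_right : maximalIdeal (RttwS O m) ^ n ≤
          rttwAug O m ⊔ maximalIdeal (RttwS O m) ^ n)) =
      rttwBaseRed m d n (j0 (Phi0 i a c))
  base_T0 : ∀ u : A, ∃ t0 : T0,
    (π1 u).map (Ideal.Quotient.factor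
        (le_sup_right : maximalIdeal (RttwS O m) ^ n ≤
          rttwAug O m ⊔ maximalIdeal (RttwS O m) ^ n)) =
      rttwBaseRed m d n (j0 t0)

end Gal

end Fermat.Agent.RT.Prod
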