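/-
K-machine, PROD (helper70): THE TOP-LEVEL CONTRACTS of the arithmetic side and the target of the
final assembly.

* `KSetup P N q`    : the SITUATION of the K-machine for `(P, N, q)`: the coefficient ring `O`
  (K1-O2), a primitive `p`-th root of unity `ζ`, the residual representation `ρbar` over
  `k = ResidueField O` with the hypotheses `TWHyp`, `IsTrivSet` of K3 (PROD-hyp), the trivial
  primes `r : ι → ℕ` (= the odd primes of `N`), the LOC-gen generators `σ i`, `φ i` at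
  `padicPlace (r i)`, the square roots `s i` of `r i` with `s i ≡ ρbar(φ i) = ±1`, and the link
  of `ρbar` with the Frey curve (characteristic polynomials of Frobenius).
* `HeckeData Y h`   : what the HECKE side (K5 + K6 + K7 + FLAT + BASE-BRIDGE) delivers over a
  setup `X` for a number `h` of Taylor–Wiles primes: the base (`d`, `T0`, `j0`, `ρ0`, `b0`,
  eigenvalues `a ℓ`) and, for every `n` and every Taylor–Wiles family `qv : Fin h → ℕ` of level
  `n`, a Galois-side datum `TWGal` (`RT/Prod/AsmPlan.lean`) with `m = h + 4 |ι|`,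
  `Σ⁰_i = [ρ0(σ i)]_{b0}`, `Φ⁰_i = [ρ0(φ i)]_{b0}`, `E = rttwEvenQ O m h n`.
  `d`, `T0`, `j0` may depend on `h` (e.g. `d = 2^h d₀`, `j0` diagonal).
* `StmtKSetup`, `StmtHecke` : the two contracts.
* `RT/Prod/Final.lean` : `StmtKSetup → StmtHecke → (K3-Sel) → StmtK8 → RIB.StmtProdE`.
-/
import Fermat.Agent.RT.Prod.AsmPlan
import Fermat.Agent.RT.PlanTWE
import Fermat.Agent.RT.Interp.Plan

set_option autoImplicit false

namespace Fermat.Agent.RT.Prod

open IsLocalRing Fermat.Agent.TW Fermat.Agent.RT Fermat.Agent.RT.K1 ExtCitation Polynomial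
open WeierstrassCurve WeierstrassCurve.Affine WeierstrassCurve.Affine.Point

/-- **The situation of the K-machine** for `(P, N, q)`. -/
structure KSetup (P : FreyPackage) (N q : ℕ) : Type 1 where
  /-- the coefficient ring -/
  O : Type
  [instCommRing : CommRing O]
  [instIsDomain : IsDomain O]
  [instDVR : IsDiscreteValuationRing O]
  [instComplete : IsAdicComplete (maximalIdeal O) O]
  [instFinite : Finite (ResidueField O)]
  [instCharZero : CharZero O]
  lam : O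
  hlam : maximalIdeal O = Ideal.span {lam}
  h2 : IsUnit (2 : O)
  /-- a primitive `p`-th root of unity -/
  ζ : O
  hζ : IsPrimitiveRoot ζ P.p
  /-- the residual representation -/
  ρbar : ResidualGaloisRep (ResidueField O)
  Smin : Finset ℕ
  hSmin : Smin = {2, P.p}
  /-- the trivial primes = the odd primes of `N` -/
  ι : Type
  [instFintype : Fintype ι]
  r : ι → ℕ
  r_inj : Function.Injective r
  hr : ∀ ℓ : ℕ, ℓ ∈ Finset.univ.image r ↔ ℓ.Prime ∧ ℓ ≠ 2 ∧ ℓ ∣ N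
  hyp : TWHyp O P.p ρbar (Smin ∪ Finset.univ.image r) Smin
  hT : IsTrivSet P.p ρbar Smin (Finset.univ.image r)
  /-- the LOC-gen generators -/
  σ : ι → RtpaG
  φ : ι → RtpaG
  hloc : ∀ i, ∀ [Fact (r i).Prime], IsLocGenAt P.p (r i) (σ i) (φ i)
  /-- the square roots of the trivial primes -/
  s : ι → O
  hs2 : ∀ i, s i ^ 2 = (r i : O)
  hs : ∀ i, (ρbar.ρ (φ i) = 1 ∧ s i - 1 ∈ maximalIdeal O) ∨
    (ρbar.ρ (φ i) = -1 ∧ s i + 1 ∈ maximalIdeal O)
  /-- the link with the Frey curve -/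
  W : WeierstrassCurve ℤ
  hW : W.IsIntegralModelOf P.freyCurve
  hbar : ∀ ℓ : ℕ, ℓ.Prime → ℓ ≠ P.p → W.IsGoodPrimeFor ℓ →
    ∀ 𝔄 : ValuationSubring (AlgebraicClosure ℚ), 𝔄.LiesOverPrime ℓ →
      ∀ τ : RtpaG, 𝔄.IsFrobeniusAt τ ℓ →
        LinearMap.charpoly (ρbar.ρ τ) =
          X ^ 2 - C (((W.apOfModel ℓ : ℤ) : ResidueField O)) * X + C ((ℓ : ResidueField O))
  /-- `ρbar` is unipotent on the inertia groups at `2` (the Frey curve is multiplicative at
  `2`; field added by helper97 for HK-RES (R2)) -/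
  hunip2 : ∀ 𝔄 : ValuationSubring (AlgebraicClosure ℚ), 𝔄.LiesOverPrime 2 →
    ∀ s ∈ 𝔄.inertiaSubgroupIn ℚ, LinearMap.charpoly (ρbar.ρ s) = (X - 1) ^ 2

attribute [instance] KSetup.instCommRing KSetup.instIsDomain KSetup.instDVR KSetup.instComplete
  KSetup.instFinite KSetup.instCharZero KSetup.instFintype

namespace KSetup

variable {P : FreyPackage} {N q : ℕ} (Y : KSetup P N q)

/-- `1/2` -/
noncomputable def half : Y.O := ((Y.h2.unit⁻¹ : Y.Oˣ) : Y.O)

/-- `tχ = (ζ + ζ⁻¹)/2` (the same for all trivial primes) -/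
noncomputable def tχ : Y.ι → Y.O := fun _ => Y.half * (Y.ζ + Y.ζ ^ (P.p - 1))

/-- `δ = (ζ − ζ⁻¹)/2` -/
noncomputable def δ : Y.ι → Y.O := fun _ => Y.half * (Y.ζ - Y.ζ ^ (P.p - 1))

/-- the set `T` of trivial primes -/
def T : Finset ℕ := Finset.univ.image Y.r

/-- the number of variables of `S`: `h` Taylor–Wiles variables and `4` framing variables for
every trivial prime -/
def m (h : ℕ) : ℕ := h + 4 * Fintype.card Y.ι

end KSetup

/-- **What the Hecke side delivers** over a setup `Y`, for `h` Taylor–Wiles primes. -/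
structure HeckeData {P : FreyPackage} {N q : ℕ} [NeZero N] (Y : KSetup P N q) (h : ℕ) :
    Type 1 where
  d : ℕ
  hd : 0 < d
  /-- the base Hecke ring -/
  T0 : Type
  [instCommRingT0 : CommRing T0]
  [instIsLocalRingT0 : IsLocalRing T0]
  [instAlgebraT0 : Algebra Y.O T0]
  [instFiniteT0 : Module.Finite Y.O T0]
  j0 : T0 →ₐ[Y.O] Matrix (Fin d) (Fin d) Y.O
  hj0 : Function.Injective j0
  /-- the base representation -/
  ρ0 : GaloisRepAdic T0
  b0 : Module.Basis (Fin 2) T0 ρ0.V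
  hdet0 : ρ0.DetIsCyclotomic P.p
  ι0 : ResidueField Y.O →+* ResidueField T0
  hres0 : ρ0.residual.IsEquiv (Y.ρbar.baseChangeAlong ι0)
  habs0 : ρ0.residual.IsAbsolutelyIrreducible
  /-- the excluded primes and the Hecke eigenvalues -/
  S' : Finset ℕ
  hpS' : P.p ∈ S'
  hNS' : ∀ ℓ : ℕ, ℓ.Prime → ℓ ∣ N → ℓ ∈ S'
  a : Nat.Primes → T0
  hocc : ∀ t ∈ MvPolynomial.supported ℤ (Fermat.Agent.S31.outsideVars (↑S' : Set ℕ)),
    CuspForm.heckeEvalForms N 2 t = 0 → MvPolynomial.aeval a t = 0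
  hcong : ∀ ℓ : Nat.Primes, (ℓ : ℕ) ∉ S' → Y.W.IsGoodPrimeFor ℓ →
    a ℓ - ((Y.W.apOfModel ℓ : ℤ) : T0) ∈ maximalIdeal T0
  hfrob : ∀ ℓ : Nat.Primes, (ℓ : ℕ) ∉ S' →
    ∀ 𝔄 : ValuationSubring (AlgebraicClosure ℚ), 𝔄.LiesOverPrime ℓ →
      ∀ τ : RtpaG, 𝔄.IsFrobeniusAt τ ℓ →
        LinearMap.charpoly (ρ0.ρ τ) = X ^ 2 - C (a ℓ) * X + C (((ℓ : ℕ) : T0))
  /-- the levels -/
  level : ∀ (n : ℕ) (qv : Fin h → ℕ),
    IsTWFamily P.p Y.ρbar (Y.Smin ∪ Finset.univ.image Y.r) n h qv →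
    ∃ (A : Type) (_ : CommRing A) (_ : IsLocalRing A) (_ : Algebra Y.O A)
      (ιA : ResidueField Y.O →+* ResidueField A) (ρ : GaloisRepAdic A)
      (b : Module.Basis (Fin 2) A ρ.V) (β βi : ℕ → Matrix (Fin 2) (Fin 2) A)
      (π1 πχ : A →ₐ[Y.O] Matrix (Fin d) (Fin d)
        (RttwS Y.O (Y.m h) ⧸ maximalIdeal (RttwS Y.O (Y.m h)) ^ n)),
      TWGal P.p Y.ρbar Y.Smin (Finset.univ.image qv) Y.r Y.σ Y.φ Y.tχ Y.lam (Y.m h) d j0
        (fun i => LinearMap.toMatrix b0 b0 (ρ0.ρ (Y.σ i)))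
        (fun i => LinearMap.toMatrix b0 b0 (ρ0.ρ (Y.φ i))) n (rttwEvenQ Y.O (Y.m h) h n)
        ιA ρ b β βi π1 πχ

attribute [instance] HeckeData.instCommRingT0 HeckeData.instIsLocalRingT0
  HeckeData.instAlgebraT0 HeckeData.instFiniteT0

/-- **SETUP** (K1-O2 + PROD-hyp + LOC-gen): in the situation of `RIB.StmtTR` there is a
setup. -/
def StmtKSetup : Prop :=
  ∀ (P : FreyPackage) (N q : ℕ), P.IsConductorLevel N → ¬ P.p ∣ N → q.Prime → q ≠ 2 →
    q ∣ N → GaloisRepIsIrreducible (K := AlgebraicClosure ℚ) ℚ P.freyCurve P.p →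
    P.ModularRepOfLevel N →
    (∀ r : ℕ, r.Prime → r ≠ 2 → r ∣ N → Fermat.Agent.RIB.IsTrivialPrime P r) →
    Nonempty (KSetup P N q)

/-- **HECKE** (K5 + K6 + K7 + FLAT + BASE-BRIDGE): over every setup, for every number `h` of
Taylor–Wiles primes, the Hecke side delivers its data. -/
def StmtHecke : Prop :=
  ∀ (P : FreyPackage) (N q : ℕ) [NeZero N], P.IsConductorLevel N → ¬ P.p ∣ N → q.Prime →
    q ≠ 2 → q ∣ N → GaloisRepIsIrreducible (K := AlgebraicClosure ℚ) ℚ P.freyCurve P.p →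
    P.ModularRepOfLevel N →
    (∀ r : ℕ, r.Prime → r ≠ 2 → r ∣ N → Fermat.Agent.RIB.IsTrivialPrime P r) →
    ∀ (Y : KSetup P N q) (h : ℕ), Nonempty (HeckeData Y h)

end Fermat.Agent.RT.Prod
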