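/-
K-machine, PROD (helper70): the numerics of a setup `KSetup` (`RT/Prod/FinalPlan.lean`):
`tχ² − δ² = 1`, `tχ + δ = ζ`, `δ ≠ 0`, `tχ ≡ 1`, `δ ≡ 0`, `s ≡ ±1`, `r ≡ 1`, `r ≠ 1`.
-/
import Fermat.Agent.RT.Prod.FinalPlan

set_option autoImplicit false
set_option linter.style.haveILetI false
set_option linter.unusedSectionVars false

namespace Fermat.Agent.RT.Prod

open IsLocalRing Fermat.Agent.TW Fermat.Agent.RT Fermat.Agent.RT.K1 ExtCitation Polynomial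
open WeierstrassCurve WeierstrassCurve.Affine WeierstrassCurve.Affine.Point

/-! ### Numerics -/

section Num

variable {O : Type*} [CommRing O] [IsDomain O] [IsLocalRing O]

/-- a `p`-th root of unity is `≡ 1` modulo the maximal ideal of a local ring of residue
characteristic `p` -/
theorem rtpf_zeta_sub_one_mem {p : ℕ} (hp : p.Prime) (hpO : (p : O) ∈ maximalIdeal O) {ζ : O}
    (hζ : ζ ^ p = 1) : ζ - 1 ∈ maximalIdeal O := by
  haveI : Fact p.Prime := ⟨hp⟩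
  have hp0 : ((p : ℕ) : ResidueField O) = 0 := by
    rw [← map_natCast (residue O)]
    exact (residue_eq_zero_iff _).mpr hpO
  haveI : CharP (ResidueField O) p := (CharP.charP_iff_prime_eq_zero hp).mpr hp0
  rw [← residue_eq_zero_iff]
  have h1 : (residue O ζ - 1) ^ p = 0 := by
    rw [sub_pow_char, one_pow, ← map_pow, hζ, map_one, sub_self]
  rw [map_sub, map_one]
  exact (pow_eq_zero_iff hp.ne_zero).mp h1

variable (half ζ : O) (p : ℕ)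

theorem rtpf_num_sq (h2 : 2 * half = 1) (hζ : ζ * ζ ^ (p - 1) = 1) :
    (half * (ζ + ζ ^ (p - 1))) ^ 2 - (half * (ζ - ζ ^ (p - 1))) ^ 2 = 1 := by
  have : (half * (ζ + ζ ^ (p - 1))) ^ 2 - (half * (ζ - ζ ^ (p - 1))) ^ 2 =
      (2 * half) ^ 2 * (ζ * ζ ^ (p - 1)) := by ring
  rw [this, h2, hζ]
  ring

theorem rtpf_num_add (h2 : 2 * half = 1) :
    half * (ζ + ζ ^ (p - 1)) + half * (ζ - ζ ^ (p - 1)) = ζ := by
  have : half * (ζ + ζ ^ (p - 1)) + half * (ζ - ζ ^ (p - 1)) = (2 * half) * ζ := by ring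
  rw [this, h2, one_mul]

theorem rtpf_num_two_delta (h2 : 2 * half = 1) :
    2 * (half * (ζ - ζ ^ (p - 1))) = ζ - ζ ^ (p - 1) := by
  have : 2 * (half * (ζ - ζ ^ (p - 1))) = (2 * half) * (ζ - ζ ^ (p - 1)) := by ring
  rw [this, h2, one_mul]

theorem rtpf_num_delta_ne {p : ℕ} (hp : p.Prime) (hp2 : p ≠ 2) {ζ : O}
    (hζ : IsPrimitiveRoot ζ p) : ζ - ζ ^ (p - 1) ≠ 0 := by
  intro h
  have h1 : ζ = ζ ^ (p - 1) := sub_eq_zero.mp h
  have h2 : ζ ^ 2 = 1 := by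
    have : ζ * ζ ^ (p - 1) = 1 := by
      rw [← pow_succ', Nat.sub_add_cancel hp.one_le, hζ.pow_eq_one]
    rw [← h1] at this
    rw [pow_two, this]
  have h3 := (hζ.pow_eq_one_iff_dvd 2).mp h2
  have h4 := (Nat.prime_dvd_prime_iff_eq hp Nat.prime_two).mp h3
  exact hp2 h4

theorem rtpf_exists_of_mem {lam : O} (hlam : maximalIdeal O = Ideal.span {lam}) {x y : O}
    (h : x - y ∈ maximalIdeal O) : ∃ c, x = y + lam * c := by
  rw [hlam, Ideal.mem_span_singleton'] at h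
  obtain ⟨c, hc⟩ := h
  exact ⟨c, by rw [mul_comm, hc]; ring⟩

end Num

namespace KSetup

variable {P : FreyPackage} {N q : ℕ} (Y : KSetup P N q)

theorem two_mul_half : 2 * Y.half = 1 := by
  have h := Y.h2.unit.mul_inv
  rw [IsUnit.unit_spec] at h
  exact h

theorem zeta_mul : Y.ζ * Y.ζ ^ (P.p - 1) = 1 := by
  rw [← pow_succ', Nat.sub_add_cancel P.pp.one_le, Y.hζ.pow_eq_one]

theorem zeta_sub_one_mem : Y.ζ - 1 ∈ maximalIdeal Y.O :=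
  rtpf_zeta_sub_one_mem P.pp Y.hyp.hp𝒪 Y.hζ.pow_eq_one

theorem zeta_inv_sub_one_mem : Y.ζ ^ (P.p - 1) - 1 ∈ maximalIdeal Y.O :=
  rtpf_zeta_sub_one_mem P.pp Y.hyp.hp𝒪 (by rw [← pow_mul, mul_comm, pow_mul, Y.hζ.pow_eq_one,
    one_pow])

theorem htδ (i : Y.ι) : Y.tχ i ^ 2 - Y.δ i ^ 2 = 1 :=
  rtpf_num_sq Y.half Y.ζ P.p Y.two_mul_half Y.zeta_mul

theorem tχ_add_δ (i : Y.ι) : Y.tχ i + Y.δ i = Y.ζ :=
  rtpf_num_add Y.half Y.ζ P.p Y.two_mul_half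

theorem two_mul_δ_ne (i : Y.ι) : 2 * Y.δ i ≠ 0 := by
  show 2 * (Y.half * (Y.ζ - Y.ζ ^ (P.p - 1))) ≠ 0
  rw [rtpf_num_two_delta Y.half Y.ζ P.p Y.two_mul_half]
  exact rtpf_num_delta_ne P.pp Y.hyp.hp2 Y.hζ

theorem δ_ne (i : Y.ι) : Y.δ i ≠ 0 := fun h => Y.two_mul_δ_ne i (by rw [h, mul_zero])

theorem tχ_sub_one_mem (i : Y.ι) : Y.tχ i - 1 ∈ maximalIdeal Y.O := by
  have e : Y.tχ i - 1 = Y.half * ((Y.ζ - 1) + (Y.ζ ^ (P.p - 1) - 1)) := by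
    show Y.half * (Y.ζ + Y.ζ ^ (P.p - 1)) - 1 = _
    have := Y.two_mul_half
    linear_combination this
  rw [e]
  exact Ideal.mul_mem_left _ _ (Ideal.add_mem _ Y.zeta_sub_one_mem Y.zeta_inv_sub_one_mem)

theorem δ_mem (i : Y.ι) : Y.δ i ∈ maximalIdeal Y.O := by
  have e : Y.δ i = Y.half * ((Y.ζ - 1) - (Y.ζ ^ (P.p - 1) - 1)) := by
    show Y.half * (Y.ζ - Y.ζ ^ (P.p - 1)) = _
    ring
  rw [e]
  exact Ideal.mul_mem_left _ _ (Ideal.sub_mem _ Y.zeta_sub_one_mem Y.zeta_inv_sub_one_mem)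

theorem mem_T (i : Y.ι) : Y.r i ∈ Finset.univ.image Y.r :=
  Finset.mem_image_of_mem Y.r (Finset.mem_univ i)

theorem r_prime (i : Y.ι) : (Y.r i).Prime := (Y.hT (Y.r i) (Y.mem_T i)).1

theorem p_dvd (i : Y.ι) : P.p ∣ Y.r i - 1 := (Y.hT (Y.r i) (Y.mem_T i)).2.2.1

theorem r_ne_p (i : Y.ι) : Y.r i ≠ P.p := by
  intro hi
  have h1 := Y.p_dvd i
  have h2 := (Y.r_prime i).two_le
  rw [hi] at h1 h2
  have h3 := Nat.le_of_dvd (by omega) h1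
  omega

theorem card_T : (Finset.univ.image Y.r).card = Fintype.card Y.ι := by
  rw [Finset.card_image_of_injective _ Y.r_inj, Finset.card_univ]

theorem s_mem (i : Y.ι) : Y.s i - 1 ∈ maximalIdeal Y.O ∨ Y.s i + 1 ∈ maximalIdeal Y.O := by
  rcases Y.hs i with ⟨-, h⟩ | ⟨-, h⟩
  · exact Or.inl h
  · exact Or.inr h

theorem hs1 (i : Y.ι) : ∃ c, Y.s i = 1 + Y.lam * c ∨ Y.s i = -1 + Y.lam * c := by
  rcases Y.s_mem i with h | h
  · obtain ⟨c, hc⟩ := rtpf_exists_of_mem Y.hlam h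
    exact ⟨c, Or.inl hc⟩
  · have h' : Y.s i - (-1) ∈ maximalIdeal Y.O := by rwa [sub_neg_eq_add]
    obtain ⟨c, hc⟩ := rtpf_exists_of_mem Y.hlam h'
    exact ⟨c, Or.inr hc⟩

theorem hqq (i : Y.ι) : ∃ c, (Y.r i : Y.O) = 1 + Y.lam * c := by
  apply rtpf_exists_of_mem Y.hlam
  have e : (Y.r i : Y.O) - 1 = (Y.s i - 1) * (Y.s i + 1) := by
    rw [← Y.hs2 i]
    ring
  rw [e]
  rcases Y.s_mem i with h | h
  · exact Ideal.mul_mem_right _ _ h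
  · exact Ideal.mul_mem_left _ _ h

theorem hqq1 (i : Y.ι) : (Y.r i : Y.O) ≠ 1 := by
  intro h
  have h1 : (Y.r i : Y.O) = ((1 : ℕ) : Y.O) := by rw [h, Nat.cast_one]
  have h2 := Nat.cast_injective h1
  exact (Y.r_prime i).one_lt.ne' h2

end KSetup

end Fermat.Agent.RT.Prod
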