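/-
K-machine, HECKE-PACK (helper70): base change of a `GaloisRepAdic` along a local homomorphism of
finite local rings, in MATRIX form, keeps the type `twFlat` (given the annihilator property
`Rtk7fAnn`, `RT/K7/Flat32.lean`) and the residual representation.

* `rthbRep ψ hψ ρ₀ b₀` : the representation `g ↦ ([ρ₀ g]_{b₀}).map ψ` on `Fin 2 → A`,
  `rthbBasis` its standard basis, `rthb_toMatrix`, `rthb_trace`;
* `rthb_isEquiv` : it is equivalent to `ρ₀.baseChangeAlong ψ hψ`;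
* `rthb_det`, `rthb_unram`, `rthb_unip`, `rthb_flatAt`, `rthb_twFlat`, `rthb_res`.
-/
import Fermat.Agent.RT.K7.Flat32
import Fermat.Agent.TW.Tan
import Fermat.Agent.TW.Plan

set_option autoImplicit false
set_option linter.unusedSectionVars false
set_option linter.unusedVariables false
set_option linter.style.haveILetI false

noncomputable section

namespace Fermat.Agent.RT.Prod

open IsLocalRing Fermat.Agent.TW Fermat.Agent.RT

section base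

variable {A₀ A : Type} [CommRing A₀] [IsLocalRing A₀] [CommRing A] [IsLocalRing A]

/-- the base change in matrix form: `g ↦ ([ρ₀ g]_{b₀}).map ψ` on `Fin 2 → A` -/
abbrev rthbRep (ψ : A₀ →+* A) (hψ : IsLocalHom ψ) (ρ₀ : GaloisRepAdic A₀)
    (b₀ : Module.Basis (Fin 2) A₀ ρ₀.V) : GaloisRepAdic A :=
  S53.ofMatrix (S53.mapRep ψ (S53.matOfBasis ρ₀ b₀)) ((S53.matOfBasis_cont ρ₀ b₀).map ψ hψ)

/-- the standard basis of `rthbRep` -/
abbrev rthbBasis (ψ : A₀ →+* A) (hψ : IsLocalHom ψ) (ρ₀ : GaloisRepAdic A₀)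
    (b₀ : Module.Basis (Fin 2) A₀ ρ₀.V) : Module.Basis (Fin 2) A (rthbRep ψ hψ ρ₀ b₀).V :=
  Pi.basisFun A (Fin 2)

variable (ψ : A₀ →+* A) (hψ : IsLocalHom ψ) (ρ₀ : GaloisRepAdic A₀)
  (b₀ : Module.Basis (Fin 2) A₀ ρ₀.V)

theorem rthbRep_apply (g : S53.Gal) :
    (rthbRep ψ hψ ρ₀ b₀).ρ g =
      Matrix.toLin' ((LinearMap.toMatrix b₀ b₀ (ρ₀.ρ g)).map ψ) := rfl

theorem rthb_toMatrix (g : S53.Gal) :
    LinearMap.toMatrix (rthbBasis ψ hψ ρ₀ b₀) (rthbBasis ψ hψ ρ₀ b₀) ((rthbRep ψ hψ ρ₀ b₀).ρ g) =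
      (LinearMap.toMatrix b₀ b₀ (ρ₀.ρ g)).map ψ := by
  show LinearMap.toMatrix (Pi.basisFun A (Fin 2)) (Pi.basisFun A (Fin 2))
    (Matrix.toLin' ((LinearMap.toMatrix b₀ b₀ (ρ₀.ρ g)).map ψ)) = _
  rw [LinearMap.toMatrix_eq_toMatrix', LinearMap.toMatrix'_toLin']

theorem rthb_trace (g : S53.Gal) :
    LinearMap.trace A (rthbRep ψ hψ ρ₀ b₀).V ((rthbRep ψ hψ ρ₀ b₀).ρ g) =
      ψ (LinearMap.trace A₀ ρ₀.V (ρ₀.ρ g)) := by
  rw [LinearMap.trace_eq_matrix_trace A (rthbBasis ψ hψ ρ₀ b₀), rthb_toMatrix,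
    LinearMap.trace_eq_matrix_trace A₀ b₀, Matrix.trace_fin_two, Matrix.trace_fin_two, map_add]
  rfl

theorem rthb_det_eq (g : S53.Gal) :
    LinearMap.det ((rthbRep ψ hψ ρ₀ b₀).ρ g) = ψ (LinearMap.det (ρ₀.ρ g)) := by
  rw [← LinearMap.det_toMatrix (rthbBasis ψ hψ ρ₀ b₀), rthb_toMatrix,
    ← LinearMap.det_toMatrix b₀, ← RingHom.mapMatrix_apply, ← RingHom.map_det]

theorem rthb_charpoly (g : S53.Gal) :
    LinearMap.charpoly ((rthbRep ψ hψ ρ₀ b₀).ρ g) =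
      (LinearMap.charpoly (ρ₀.ρ g)).map ψ := by
  rw [← LinearMap.charpoly_toMatrix _ (rthbBasis ψ hψ ρ₀ b₀), rthb_toMatrix,
    ← LinearMap.charpoly_toMatrix _ b₀, Matrix.charpoly_map]

/-- `rthbRep` is the base change of `ρ₀`. -/
theorem rthb_isEquiv : (ρ₀.baseChangeAlong ψ hψ).IsEquiv (rthbRep ψ hψ ρ₀ b₀) :=
  ⟨((S53.equivOfBasis ρ₀ b₀).baseChangeAlong ψ hψ).trans
    (S53.ofMatrixBaseChangeEquiv ψ hψ _ _)⟩

theorem rthb_det (p : ℕ) (h : ρ₀.DetIsCyclotomic p) :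
    (rthbRep ψ hψ ρ₀ b₀).DetIsCyclotomic p := by
  haveI := hψ
  refine ⟨?_, fun n σ a ha => ?_⟩
  · have h1 := map_nonunit ψ _ h.1
    rwa [map_natCast] at h1
  · have h1 := h.2 n σ a ha
    rw [rthb_det_eq]
    obtain ⟨c, hc⟩ := Ideal.mem_span_singleton'.1 h1
    refine Ideal.mem_span_singleton'.2 ⟨ψ c, ?_⟩
    rw [← map_natCast ψ (p ^ n), ← map_mul, hc, map_sub, map_natCast]

theorem rthb_unram (q : ℕ) (h : ρ₀.IsUnramifiedAt q) :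
    (rthbRep ψ hψ ρ₀ b₀).IsUnramifiedAt q := by
  intro P hP σ hσ
  rw [rthbRep_apply, h P hP σ hσ]
  have h1 : LinearMap.toMatrix b₀ b₀ (1 : Module.End A₀ ρ₀.V) = 1 := LinearMap.toMatrix_one b₀
  rw [h1, Matrix.map_one _ (map_zero ψ) (map_one ψ), Matrix.toLin'_one]
  rfl

theorem rthb_unip (q : ℕ) (h : ρ₀.IsUnipotentOnInertiaAt q) :
    (rthbRep ψ hψ ρ₀ b₀).IsUnipotentOnInertiaAt q := by
  intro P hP σ hσ
  rw [rthb_charpoly, h P hP σ hσ]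
  simp

theorem rthb_flatAt [Finite A] (p : ℕ) [Fact p.Prime]
    (hann : Rtk7fAnn p (fun g => LinearMap.toMatrix b₀ b₀ (ρ₀.ρ g))) :
    (rthbRep ψ hψ ρ₀ b₀).IsFlatAt p := by
  haveI := hψ
  haveI : IsNoetherianRing A := inferInstance
  haveI : Finite (ResidueField A) := Finite.of_surjective _ (residue_surjective (R := A))
  refine rtk7f_isFlatAt p (rthbRep ψ hψ ρ₀ b₀) (rthbBasis ψ hψ ρ₀ b₀) ?_
  have h1 := rtk7f_ann_map ψ hann
  have h2 : (fun g => LinearMap.toMatrix (rthbBasis ψ hψ ρ₀ b₀) (rthbBasis ψ hψ ρ₀ b₀)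
      ((rthbRep ψ hψ ρ₀ b₀).ρ g)) = fun g => (LinearMap.toMatrix b₀ b₀ (ρ₀.ρ g)).map ψ :=
    funext fun g => rthb_toMatrix ψ hψ ρ₀ b₀ g
  rw [h2]
  exact h1

end base

section alg

variable {O : Type} [CommRing O] [IsLocalRing O]
  {A₀ A : Type} [CommRing A₀] [IsLocalRing A₀] [Algebra O A₀] [CommRing A] [IsLocalRing A]
  [Algebra O A]

/-- **Base change keeps `twFlat`.** -/
theorem rthb_twFlat [Finite A] (ψ : A₀ →ₐ[O] A) (hψ : IsLocalHom (ψ : A₀ →+* A))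
    (ρ₀ : GaloisRepAdic A₀) (b₀ : Module.Basis (Fin 2) A₀ ρ₀.V) (p : ℕ) [Fact p.Prime]
    (Smin Q : Finset ℕ) (h : twFlat O p Smin Q ρ₀)
    (hann : Rtk7fAnn p (fun g => LinearMap.toMatrix b₀ b₀ (ρ₀.ρ g))) :
    twFlat O p Smin Q (rthbRep (ψ : A₀ →+* A) hψ ρ₀ b₀) := by
  obtain ⟨⟨hdet, -, hun⟩, hu⟩ := h
  exact ⟨⟨rthb_det _ hψ ρ₀ b₀ p hdet, rthb_flatAt _ hψ ρ₀ b₀ p hann,
    fun q hq hqS => rthb_unram _ hψ ρ₀ b₀ q (hun q hq hqS)⟩,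
    fun q hq hqp hqp' => rthb_unip _ hψ ρ₀ b₀ q (hu q hq hqp hqp')⟩

/-- **Base change keeps the residual representation.** -/
theorem rthb_res (ρbar : ResidualGaloisRep (ResidueField O))
    (habs : ρbar.IsAbsolutelyIrreducible)
    (ιA₀ : ResidueField O →+* ResidueField A₀)
    (hιA₀ : ∀ x : O, ιA₀ (residue O x) = residue A₀ (algebraMap O A₀ x))
    (ιA : ResidueField O →+* ResidueField A)
    (hιA : ∀ x : O, ιA (residue O x) = residue A (algebraMap O A x))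
    (ψ : A₀ →ₐ[O] A) (hψ : IsLocalHom (ψ : A₀ →+* A))
    (ρ₀ : GaloisRepAdic A₀) (b₀ : Module.Basis (Fin 2) A₀ ρ₀.V)
    (h : ρ₀.residual.IsEquiv (ρbar.baseChangeAlong ιA₀)) :
    (rthbRep (ψ : A₀ →+* A) hψ ρ₀ b₀).residual.IsEquiv (ρbar.baseChangeAlong ιA) := by
  obtain ⟨D⟩ := S53.nonempty_rigidDatum (𝒪 := O) ρbar habs
  obtain ⟨e1⟩ := twtan_residual_baseChange D ιA₀ hιA₀ ιA hιA ψ hψ ρ₀ h
  obtain ⟨e2⟩ := rthb_isEquiv (ψ : A₀ →+* A) hψ ρ₀ b₀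
  exact ⟨e2.residual.symm.trans e1⟩

end alg

end Fermat.Agent.RT.Prod

end
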