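/-
K-machine, HECKE-asm algebra (helper70): the EVEN scalars of `S ⧸ 𝔪 ^ n`.

* `rtha_mk_eq_poly`      : every class in `S ⧸ 𝔪 ^ n` is the class of the truncated polynomial;
* `rtha_even_mem_adjoin` : every class of a series even in the first `h` variables lies in the
  `O`-subalgebra generated by the classes of `w_i ^ 2` (`i < h`) and of `w_j` (`h ≤ j`);
* `rtha_scal`            : hence the clauses `scal1`, `scalχ` of `TWGal` follow from the generators:
  `Y_q ^ 2 = (tr ρ(σ_q)) ^ 2 − 4` (K6) and the framing variables `z`.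
-/
import Fermat.Agent.RT.PlanTWE
import Fermat.Agent.RT.K2c.Local

set_option autoImplicit false
set_option linter.style.haveILetI false
set_option linter.unusedSectionVars false

namespace Fermat.Agent.RT.Prod

open IsLocalRing MvPowerSeries Fermat.Agent.RT Fermat.Agent.RT.K2c

section Even

variable (O : Type*) [CommRing O] [IsLocalRing O] (m h n : ℕ)

/-- the generators of the even part of `S ⧸ 𝔪 ^ n`: the classes of `w_i ^ 2` (`i < h`) and of
`w_j` (`h ≤ j`) -/
def rthaGens : Set (RttwS O m ⧸ maximalIdeal (RttwS O m) ^ n) :=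
  {y | ∃ i : Fin m, (i : ℕ) < h ∧
      y = Ideal.Quotient.mk _ ((X i : RttwS O m) ^ 2)} ∪
    {y | ∃ j : Fin m, h ≤ (j : ℕ) ∧ y = Ideal.Quotient.mk _ (X j : RttwS O m)}

/-- the class of a polynomial -/
noncomputable def rthaPoly :
    MvPolynomial (Fin m) O →ₐ[O] RttwS O m ⧸ maximalIdeal (RttwS O m) ^ n :=
  (Ideal.Quotient.mkₐ O (maximalIdeal (RttwS O m) ^ n)).comp
    (MvPolynomial.coeToMvPowerSeries.algHom (σ := Fin m) (R := O) O)

theorem rthaPoly_X (i : Fin m) :
    rthaPoly O m n (MvPolynomial.X i) = Ideal.Quotient.mk _ (X i : RttwS O m) := by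
  unfold rthaPoly
  rw [AlgHom.comp_apply, MvPolynomial.coeToMvPowerSeries.algHom_apply, MvPolynomial.coe_X]
  simp

/-- **Truncation**: every class in `S ⧸ 𝔪 ^ n` is the class of the truncated polynomial. -/
theorem rtha_mk_eq_poly (f : RttwS O m) :
    Ideal.Quotient.mk (maximalIdeal (RttwS O m) ^ n) f =
      rthaPoly O m n (truncTotal n f) := by
  have h1 : f - ((truncTotal n f : MvPolynomial (Fin m) O) : MvPowerSeries (Fin m) O) ∈
      maximalIdeal (RttwS O m) ^ n := by
    have h2 := rtk2c_tail n (f - ((truncTotal n f : MvPolynomial (Fin m) O) :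
      MvPowerSeries (Fin m) O)) (fun α hα => by
        rw [map_sub, MvPolynomial.coeff_coe, coeff_truncTotal_eq_ite, if_pos hα, sub_self])
    refine Ideal.pow_right_mono ?_ n h2
    rw [rtk2c_maximalIdeal_eq]
    exact le_sup_right
  have h3 := (Ideal.Quotient.eq).mpr h1
  rw [h3]
  unfold rthaPoly
  rw [AlgHom.comp_apply, MvPolynomial.coeToMvPowerSeries.algHom_apply]
  simp

/-- **EVEN**: every class of a series even in the first `h` variables is a polynomial over `O`
in the classes of `w_i ^ 2` (`i < h`) and of `w_j` (`h ≤ j`). -/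
theorem rtha_even_mem_adjoin (c : RttwS O m ⧸ maximalIdeal (RttwS O m) ^ n)
    (hc : c ∈ rttwEvenQ O m h n) : c ∈ Algebra.adjoin O (rthaGens O m h n) := by
  classical
  obtain ⟨f, hf, rfl⟩ := hc
  rw [rtha_mk_eq_poly]
  set P : MvPolynomial (Fin m) O := truncTotal n f with hP
  rw [← MvPolynomial.support_sum_monomial_coeff P, map_sum]
  refine Subalgebra.sum_mem _ fun e he => ?_
  have hne : MvPolynomial.coeff e P ≠ 0 := MvPolynomial.mem_support_iff.mp he
  have hcoe : MvPolynomial.coeff e P = coeff e f ∨ MvPolynomial.coeff e P = 0 := by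
    rw [hP, coeff_truncTotal_eq_ite]
    split_ifs
    · exact Or.inl rfl
    · exact Or.inr rfl
  have hfe : coeff e f ≠ 0 := by
    rcases hcoe with h1 | h1
    · rwa [← h1]
    · exact absurd h1 hne
  have hev := hf e hfe
  rw [MvPolynomial.monomial_eq, map_mul, MvPolynomial.algHom_C]
  refine Subalgebra.mul_mem _ (Subalgebra.algebraMap_mem _ _) ?_
  rw [Finsupp.prod, map_prod]
  refine Subalgebra.prod_mem _ fun i _ => ?_
  rw [map_pow, rthaPoly_X]
  by_cases hi : (i : ℕ) < h
  · obtain ⟨k, hk⟩ := hev i hi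
    rw [hk, ← two_mul, pow_mul, ← map_pow]
    have hmem : Ideal.Quotient.mk (maximalIdeal (RttwS O m) ^ n) ((X i : RttwS O m) ^ 2) ∈
        rthaGens O m h n := Or.inl ⟨i, hi, rfl⟩
    exact Subalgebra.pow_mem _ (Algebra.subset_adjoin hmem) _
  · have hmem : Ideal.Quotient.mk (maximalIdeal (RttwS O m) ^ n) (X i : RttwS O m) ∈
        rthaGens O m h n := Or.inr ⟨i, not_lt.mp hi, rfl⟩
    exact Subalgebra.pow_mem _ (Algebra.subset_adjoin hmem) _

/-- **Scalars from generators**: if the classes of `w_i ^ 2` (`i < h`) and of `w_j` (`h ≤ j`) act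
through `π`, then every even scalar does (the clauses `scal1`, `scalχ` of `TWGal`). -/
theorem rtha_scal {A : Type*} [CommRing A] [Algebra O A] {d : ℕ}
    (π : A →ₐ[O] Matrix (Fin d) (Fin d) (RttwS O m ⧸ maximalIdeal (RttwS O m) ^ n))
    (hgen : ∀ y ∈ rthaGens O m h n, ∃ u : A, π u = algebraMap _ _ y)
    (c : RttwS O m ⧸ maximalIdeal (RttwS O m) ^ n) (hc : c ∈ rttwEvenQ O m h n) :
    ∃ u : A, π u = algebraMap _ _ c := by
  have hle : Algebra.adjoin O (rthaGens O m h n) ≤
      Subalgebra.comap (IsScalarTower.toAlgHom O (RttwS O m ⧸ maximalIdeal (RttwS O m) ^ n)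
        (Matrix (Fin d) (Fin d) (RttwS O m ⧸ maximalIdeal (RttwS O m) ^ n))) π.range := by
    refine Algebra.adjoin_le fun y hy => ?_
    obtain ⟨u, hu⟩ := hgen y hy
    exact ⟨u, hu⟩
  obtain ⟨u, hu⟩ := hle (rtha_even_mem_adjoin O m h n c hc)
  exact ⟨u, hu⟩

end Even

end Fermat.Agent.RT.Prod
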