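/-
K-machine, HECKE-PACK (helper70): THE FRAMING RING `A₀[z_k : k ∈ κ] ⧸ (z) ^ N`.

* `RthaFr A₀ κ N` := `MvPolynomial κ A₀ ⧸ idealOfVars ^ N`, `rthaZ A₀ N k` = the class of `z_k`;
* `rthaAug` : the augmentation `z ↦ 0` (`N ≠ 0`), `rtha_pow_eq_zero` (its kernel is nilpotent),
  `rtha_isUnit_iff`;
* `rtha_instIsLocalRing` : `RthaFr A₀ κ (n + 1)` is local if `A₀` is; `rtha_mem_maximalIdeal_iff`,
  `rthaZ_mem`, `rtha_algebraMap_mem`, `rtha_isLocalHom_algebraMap`;
* `rtha_exists_low`, `rtha_finite` : finite if `A₀` and `κ` are.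
-/
import Fermat.Agent.S53.Defs

set_option autoImplicit false
set_option linter.style.haveILetI false
set_option linter.unusedSectionVars false

namespace Fermat.Agent.RT.Prod

open IsLocalRing MvPolynomial

section Frame

variable (A₀ : Type*) [CommRing A₀] (κ : Type*) (N : ℕ)

/-- **The framing ring** `A₀[z_k : k ∈ κ] ⧸ (z) ^ N`. -/
abbrev RthaFr : Type _ := MvPolynomial κ A₀ ⧸ (idealOfVars κ A₀) ^ N

variable {A₀ κ N}

/-- the framing variables -/
noncomputable def rthaZ (A₀ : Type*) [CommRing A₀] {κ : Type*} (N : ℕ) (k : κ) : RthaFr A₀ κ N :=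
  Ideal.Quotient.mk _ (X k)

theorem rtha_X_mem (k : κ) : (X k : MvPolynomial κ A₀) ∈ idealOfVars κ A₀ :=
  Ideal.subset_span ⟨k, rfl⟩

theorem rtha_idealOfVars_le_ker :
    idealOfVars κ A₀ ≤ RingHom.ker (constantCoeff (σ := κ) (R := A₀)) := by
  rw [idealOfVars, Ideal.span_le]
  rintro _ ⟨k, rfl⟩
  rw [SetLike.mem_coe, RingHom.mem_ker, constantCoeff_X]

theorem rtha_mem_idealOfVars_of_constantCoeff {p : MvPolynomial κ A₀}
    (h : constantCoeff p = 0) : p ∈ idealOfVars κ A₀ := by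
  rw [← pow_one (idealOfVars κ A₀), mem_pow_idealOfVars_iff']
  intro x hx
  have : x = 0 := (Finsupp.degree_eq_zero_iff x).mp (by omega)
  rw [this]
  exact h

/-- the augmentation `z ↦ 0` -/
noncomputable def rthaAug (hN : N ≠ 0) : RthaFr A₀ κ N →ₐ[A₀] A₀ :=
  Ideal.Quotient.liftₐ _ (MvPolynomial.aeval (fun _ : κ => (0 : A₀))) (fun p hp => by
    have h1 : p ∈ idealOfVars κ A₀ := Ideal.pow_le_self hN hp
    have h2 := rtha_idealOfVars_le_ker h1
    rw [RingHom.mem_ker] at h2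
    rw [MvPolynomial.aeval_zero', h2, map_zero])

theorem rthaAug_mk (hN : N ≠ 0) (p : MvPolynomial κ A₀) :
    rthaAug hN (Ideal.Quotient.mk _ p) = constantCoeff p := by
  have h : rthaAug hN (Ideal.Quotient.mk _ p) = MvPolynomial.aeval (fun _ : κ => (0 : A₀)) p :=
    rfl
  rw [h]
  exact MvPolynomial.aeval_zero' p

theorem rthaAug_algebraMap (hN : N ≠ 0) (a : A₀) :
    rthaAug hN (algebraMap A₀ (RthaFr A₀ κ N) a) = a := by
  rw [AlgHom.commutes]
  rfl

theorem rthaAug_Z (hN : N ≠ 0) (k : κ) : rthaAug hN (rthaZ A₀ N k) = 0 := by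
  unfold rthaZ
  rw [rthaAug_mk, constantCoeff_X]

/-- the kernel of the augmentation is nilpotent -/
theorem rtha_pow_eq_zero (hN : N ≠ 0) (x : RthaFr A₀ κ N) (hx : rthaAug hN x = 0) :
    x ^ N = 0 := by
  obtain ⟨p, rfl⟩ := Ideal.Quotient.mk_surjective x
  rw [rthaAug_mk] at hx
  rw [← map_pow, Ideal.Quotient.eq_zero_iff_mem]
  exact Ideal.pow_mem_pow (rtha_mem_idealOfVars_of_constantCoeff hx) N

theorem rthaZ_pow (hN : N ≠ 0) (k : κ) : rthaZ A₀ N k ^ N = 0 :=
  rtha_pow_eq_zero hN _ (rthaAug_Z hN k)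

theorem rtha_isUnit_iff (hN : N ≠ 0) (x : RthaFr A₀ κ N) :
    IsUnit x ↔ IsUnit (rthaAug hN x) := by
  constructor
  · intro h
    exact h.map _
  · intro h
    have h1 : IsUnit (algebraMap A₀ (RthaFr A₀ κ N) (rthaAug hN x)) := h.map _
    have h2 : IsNilpotent (x - algebraMap A₀ (RthaFr A₀ κ N) (rthaAug hN x)) :=
      ⟨N, rtha_pow_eq_zero hN _ (by rw [map_sub, rthaAug_algebraMap, sub_self])⟩
    have h3 := h2.isUnit_add_left_of_commute h1 (Commute.all _ _)
    rwa [add_sub_cancel] at h3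

instance rtha_isLocalHom_aug (hN : N ≠ 0) : IsLocalHom (rthaAug (A₀ := A₀) (κ := κ) hN) :=
  ⟨fun x hx => (rtha_isUnit_iff hN x).mpr hx⟩

/-- the framing ring is local -/
theorem rtha_isLocalRing [IsLocalRing A₀] (hN : N ≠ 0) : IsLocalRing (RthaFr A₀ κ N) :=
  haveI : IsLocalHom (rthaAug (A₀ := A₀) (κ := κ) hN).toRingHom :=
    ⟨fun x hx => (rtha_isUnit_iff hN x).mpr hx⟩
  RingHom.domain_isLocalRing (rthaAug (A₀ := A₀) (κ := κ) hN).toRingHom

instance rtha_instIsLocalRing [IsLocalRing A₀] (n : ℕ) :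
    IsLocalRing (MvPolynomial κ A₀ ⧸ (idealOfVars κ A₀) ^ (n + 1)) :=
  rtha_isLocalRing (A₀ := A₀) (κ := κ) (Nat.succ_ne_zero n)

theorem rtha_mem_maximalIdeal_iff [IsLocalRing A₀] (n : ℕ) (x : RthaFr A₀ κ (n + 1)) :
    x ∈ maximalIdeal (RthaFr A₀ κ (n + 1)) ↔
      rthaAug (Nat.succ_ne_zero n) x ∈ maximalIdeal A₀ := by
  rw [mem_maximalIdeal, mem_maximalIdeal, mem_nonunits_iff, mem_nonunits_iff,
    rtha_isUnit_iff (Nat.succ_ne_zero n)]

theorem rthaZ_mem [IsLocalRing A₀] (n : ℕ) (k : κ) :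
    rthaZ A₀ (n + 1) k ∈ maximalIdeal (RthaFr A₀ κ (n + 1)) := by
  rw [rtha_mem_maximalIdeal_iff, rthaAug_Z]
  exact zero_mem _

theorem rtha_algebraMap_mem [IsLocalRing A₀] (n : ℕ) {a : A₀} (ha : a ∈ maximalIdeal A₀) :
    algebraMap A₀ (RthaFr A₀ κ (n + 1)) a ∈ maximalIdeal (RthaFr A₀ κ (n + 1)) := by
  rw [rtha_mem_maximalIdeal_iff, rthaAug_algebraMap]
  exact ha

theorem rtha_isLocalHom_algebraMap [IsLocalRing A₀] (hN : N ≠ 0) :
    IsLocalHom (algebraMap A₀ (RthaFr A₀ κ N)) := by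
  refine ⟨fun a ha => ?_⟩
  have := (rtha_isUnit_iff hN _).mp ha
  rwa [rthaAug_algebraMap] at this

/-! #### Finiteness -/

/-- every class is the class of a polynomial of degree `< N` -/
theorem rtha_exists_low (x : RthaFr A₀ κ N) :
    ∃ p : MvPolynomial κ A₀, (∀ e ∈ p.support, Finsupp.degree e < N) ∧
      x = Ideal.Quotient.mk _ p := by
  classical
  obtain ⟨p, rfl⟩ := Ideal.Quotient.mk_surjective x
  refine ⟨∑ e ∈ p.support.filter (fun e => Finsupp.degree e < N), monomial e (coeff e p),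
    ?_, ?_⟩
  · intro e he
    have h1 := MvPolynomial.support_sum he
    obtain ⟨e', he', hee'⟩ := Finset.mem_biUnion.mp h1
    have h2 := MvPolynomial.support_monomial_subset hee'
    rw [Finset.mem_singleton] at h2
    rw [h2]
    exact (Finset.mem_filter.mp he').2
  · rw [Ideal.Quotient.eq, mem_pow_idealOfVars_iff']
    intro e he
    rw [coeff_sub, coeff_sum]
    rw [Finset.sum_eq_single e]
    · rw [coeff_monomial, if_pos rfl, sub_self]
    · intro e' _ hne
      rw [coeff_monomial, if_neg hne]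
    · intro hnot
      rw [coeff_monomial, if_pos rfl]
      by_contra h0
      exact hnot (Finset.mem_filter.mpr ⟨MvPolynomial.mem_support_iff.mpr h0, he⟩)

/-- the framing ring of a finite ring is finite -/
theorem rtha_finite [Finite A₀] [Finite κ] : Finite (RthaFr A₀ κ N) := by
  classical
  haveI : Finite {e : κ →₀ ℕ // Finsupp.degree e < N} := by
    refine Finite.of_injective
      (fun e : {e : κ →₀ ℕ // Finsupp.degree e < N} => fun k : κ =>
        (⟨e.1 k, lt_of_le_of_lt (Finsupp.le_degree k e.1) e.2⟩ : Fin N)) ?_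
    intro e e' h
    apply Subtype.ext
    ext k
    exact congrArg Fin.val (congrFun h k)
  let Φ : ({e : κ →₀ ℕ // Finsupp.degree e < N} → A₀) → RthaFr A₀ κ N := fun c =>
    Ideal.Quotient.mk _ (∑ᶠ e, monomial e.1 (c e))
  refine Finite.of_surjective Φ fun x => ?_
  obtain ⟨p, hp, rfl⟩ := rtha_exists_low x
  refine ⟨fun e => coeff e.1 p, ?_⟩
  show Ideal.Quotient.mk _ _ = _
  congr 1
  haveI : Fintype {e : κ →₀ ℕ // Finsupp.degree e < N} := Fintype.ofFinite _
  rw [finsum_eq_sum_of_fintype]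
  ext e
  rw [coeff_sum]
  by_cases he : Finsupp.degree e < N
  · rw [Finset.sum_eq_single (⟨e, he⟩ : {e : κ →₀ ℕ // Finsupp.degree e < N})]
    · rw [coeff_monomial, if_pos rfl]
    · intro e' _ hne
      rw [coeff_monomial, if_neg (fun h => hne (Subtype.ext h))]
    · intro hnot
      exact absurd (Finset.mem_univ _) hnot
  · have h0 : coeff e p = 0 := by
      by_contra h
      exact he (hp e (MvPolynomial.mem_support_iff.mpr h))
    rw [h0]
    refine Finset.sum_eq_zero fun e' _ => ?_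
    rw [coeff_monomial, if_neg]
    intro h
    apply he
    rw [← h]
    exact e'.2

end Frame

end Fermat.Agent.RT.Prod
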