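/-
K-machine, HECKE-PACK (helper70): the framing ring, part 2: `IsResAlg`, generation, the kernel
of the augmentation, the framings `B_i = 1 + Z_i`.
-/
import Fermat.Agent.RT.Prod.HaFrame

set_option autoImplicit false
set_option linter.style.haveILetI false
set_option linter.unusedSectionVars false

namespace Fermat.Agent.RT.Prod

open IsLocalRing MvPolynomial

section Res

variable {O : Type} [CommRing O] [IsLocalRing O] {A₀ : Type} [CommRing A₀] [IsLocalRing A₀]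
  [Algebra O A₀] {κ : Type} (n : ℕ)

theorem rtha_algebraMap_eq (x : O) :
    algebraMap O (RthaFr A₀ κ (n + 1)) x =
      algebraMap A₀ (RthaFr A₀ κ (n + 1)) (algebraMap O A₀ x) :=
  IsScalarTower.algebraMap_apply O A₀ (RthaFr A₀ κ (n + 1)) x

/-- the framing ring is a local `O`-algebra with the same residue field -/
theorem rtha_isResAlg (hA : Fermat.Agent.S53.IsResAlg O A₀) :
    Fermat.Agent.S53.IsResAlg O (RthaFr A₀ κ (n + 1)) := by
  refine ⟨⟨fun x hx => ?_⟩, fun y => ?_⟩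
  · rw [rtha_algebraMap_eq] at hx
    have h1 := (rtha_isLocalHom_algebraMap (A₀ := A₀) (κ := κ) (Nat.succ_ne_zero n)).map_nonunit
      _ hx
    exact hA.isLocalHom.map_nonunit _ h1
  · obtain ⟨x, rfl⟩ := residue_surjective y
    obtain ⟨o, ho⟩ := hA.residue_surjective (residue A₀ (rthaAug (Nat.succ_ne_zero n) x))
    refine ⟨o, ?_⟩
    rw [Function.comp_apply] at ho ⊢
    rw [← sub_eq_zero, ← map_sub, residue_eq_zero_iff] at ho ⊢
    rw [rtha_mem_maximalIdeal_iff, map_sub, rtha_algebraMap_eq, rthaAug_algebraMap]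
    exact ho

end Res

section Gen

variable {O : Type*} [CommRing O] {A₀ : Type*} [CommRing A₀] [Algebra O A₀] {κ : Type*} {N : ℕ}

/-- **Generation**: generators of `A₀` over `O` and the framing variables generate the framing
ring. -/
theorem rtha_adjoin_eq_top (s : Set A₀) (hs : Algebra.adjoin O s = ⊤) :
    Algebra.adjoin O ((algebraMap A₀ (RthaFr A₀ κ N)) '' s ∪ Set.range (rthaZ A₀ N)) = ⊤ := by
  rw [eq_top_iff]
  rintro x -
  obtain ⟨p, rfl⟩ := Ideal.Quotient.mk_surjective x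
  induction p using MvPolynomial.induction_on with
  | C a =>
    have h1 : a ∈ Algebra.adjoin O s := by rw [hs]; exact Algebra.mem_top
    have h2 : (IsScalarTower.toAlgHom O A₀ (RthaFr A₀ κ N)) a ∈
        (Algebra.adjoin O s).map (IsScalarTower.toAlgHom O A₀ (RthaFr A₀ κ N)) :=
      ⟨a, h1, rfl⟩
    rw [AlgHom.map_adjoin] at h2
    exact Algebra.adjoin_mono Set.subset_union_left h2
  | add p q hp hq =>
    rw [map_add]
    exact Subalgebra.add_mem _ hp hq
  | mul_X p k hp =>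
    rw [map_mul]
    exact Subalgebra.mul_mem _ hp (Algebra.subset_adjoin (Or.inr ⟨k, rfl⟩))

/-- the kernel of the augmentation is generated by the framing variables -/
theorem rtha_ker_aug_le (hN : N ≠ 0) (x : RthaFr A₀ κ N) (hx : rthaAug hN x = 0) :
    x ∈ Ideal.span (Set.range (rthaZ A₀ (κ := κ) N)) := by
  obtain ⟨p, rfl⟩ := Ideal.Quotient.mk_surjective x
  rw [rthaAug_mk] at hx
  have h1 := rtha_mem_idealOfVars_of_constantCoeff hx
  have h2 := Ideal.mem_map_of_mem (Ideal.Quotient.mk (idealOfVars κ A₀ ^ N)) h1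
  rw [idealOfVars, Ideal.map_span] at h2
  refine Ideal.span_mono ?_ h2
  rintro _ ⟨_, ⟨k, rfl⟩, rfl⟩
  exact ⟨k, rfl⟩

end Gen

/-! ### The framings `β_i = 1 + Z_i` -/

section Beta

variable {A₀ : Type*} [CommRing A₀] {ι : Type*} (N : ℕ)

/-- `Z_i`, the matrix of the four framing variables of `i` -/
noncomputable def rthaZm (A₀ : Type*) [CommRing A₀] {ι : Type*} (N : ℕ) (i : ι) :
    Matrix (Fin 2) (Fin 2) (RthaFr A₀ (ι × Fin 4) N) :=
  !![rthaZ A₀ N (i, 0), rthaZ A₀ N (i, 1); rthaZ A₀ N (i, 2), rthaZ A₀ N (i, 3)]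

/-- `B_i = 1 + Z_i` -/
noncomputable def rthaB (A₀ : Type*) [CommRing A₀] {ι : Type*} (N : ℕ) (i : ι) :
    Matrix (Fin 2) (Fin 2) (RthaFr A₀ (ι × Fin 4) N) :=
  1 + rthaZm A₀ N i

variable {N}

theorem rthaAug_Zm (hN : N ≠ 0) (i : ι) :
    (rthaAug (A₀ := A₀) (κ := ι × Fin 4) hN).toRingHom.mapMatrix (rthaZm A₀ N i) = 0 := by
  ext a c
  rw [RingHom.mapMatrix_apply, Matrix.map_apply, Matrix.zero_apply]
  unfold rthaZm
  fin_cases a <;> fin_cases c <;> exact rthaAug_Z hN _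

theorem rthaAug_B (hN : N ≠ 0) (i : ι) :
    (rthaAug (A₀ := A₀) (κ := ι × Fin 4) hN).toRingHom.mapMatrix (rthaB A₀ N i) = 1 := by
  unfold rthaB
  rw [map_add, map_one, rthaAug_Zm, add_zero]

theorem rthaB_isUnit_det (hN : N ≠ 0) (i : ι) : IsUnit (rthaB A₀ N i).det := by
  rw [rtha_isUnit_iff hN]
  have h := congrArg Matrix.det (rthaAug_B (A₀ := A₀) hN i)
  rw [Matrix.det_one] at h
  have h2 : (rthaAug (A₀ := A₀) (κ := ι × Fin 4) hN) (rthaB A₀ N i).det =
      ((rthaAug (A₀ := A₀) (κ := ι × Fin 4) hN).toRingHom.mapMatrix (rthaB A₀ N i)).det :=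
    RingHom.map_det _ _
  rw [h2, h]
  exact isUnit_one

theorem rthaB_mul_inv (hN : N ≠ 0) (i : ι) : rthaB A₀ N i * (rthaB A₀ N i)⁻¹ = 1 :=
  Matrix.mul_nonsing_inv _ (rthaB_isUnit_det hN i)

theorem rthaAug_B_inv (hN : N ≠ 0) (i : ι) :
    (rthaAug (A₀ := A₀) (κ := ι × Fin 4) hN).toRingHom.mapMatrix (rthaB A₀ N i)⁻¹ = 1 := by
  have h := congrArg (rthaAug (A₀ := A₀) (κ := ι × Fin 4) hN).toRingHom.mapMatrix
    (rthaB_mul_inv (A₀ := A₀) hN i)
  rw [map_mul, rthaAug_B, one_mul, map_one] at h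
  exact h

theorem rthaB_sub_one_mem [IsLocalRing A₀] (n : ℕ) (i : ι) (a c : Fin 2) :
    (rthaB A₀ (n + 1) i - 1) a c ∈ maximalIdeal (RthaFr A₀ (ι × Fin 4) (n + 1)) := by
  unfold rthaB
  rw [add_sub_cancel_left]
  unfold rthaZm
  fin_cases a <;> fin_cases c <;> exact rthaZ_mem n _

theorem rthaZ_eq_entry (i : ι) (k : Fin 4) : ∃ a c : Fin 2, ∃ e : RthaFr A₀ (ι × Fin 4) N,
    (e = 0 ∨ e = 1) ∧ rthaZ A₀ N (i, k) = rthaB A₀ N i a c - e := by
  unfold rthaB rthaZm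
  fin_cases k
  · exact ⟨0, 0, 1, Or.inr rfl, by simp⟩
  · exact ⟨0, 1, 0, Or.inl rfl, by simp⟩
  · exact ⟨1, 0, 0, Or.inl rfl, by simp⟩
  · exact ⟨1, 1, 1, Or.inr rfl, by simp⟩

end Beta

end Fermat.Agent.RT.Prod
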