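/-
K-machine, PROD / HECKE-asm, piece HA-lift (helper97).

* `rthl_exists_lift` : an algebra homomorphism `φ : A₀ → M` (`M` not necessarily commutative)
  extends to the framing ring `RthaFr A₀ κ N = A₀[z_k] ⧸ (z) ^ N` with `z_k ↦` the scalar `v k`,
  as soon as the monomials of degree `N` in the `v k` vanish.
* `rthl_prod_eq_zero` : a monomial of degree `≥ n` in the variables is `0` in `S ⧸ 𝔪 ^ n`.
-/
import Fermat.Agent.RT.Prod.HaFrame
import Fermat.Agent.RT.PlanTW

set_option autoImplicit false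
set_option linter.unusedSectionVars false
set_option linter.unusedVariables false
set_option linter.style.haveILetI false

noncomputable section

namespace Fermat.Agent.RT.Prod

open IsLocalRing MvPolynomial TensorProduct

section lift

variable {O A₀ R M : Type*} [CommRing O] [CommRing A₀] [Algebra O A₀] [CommRing R]
  [Algebra O R] [Ring M] [Algebra O M] [Algebra R M] [IsScalarTower O R M] {κ : Type*}

/-- the scalar part `O[z] → R → M`, `z_k ↦ v k` -/
def rthlScal (M : Type*) [Ring M] [Algebra O M] [Algebra R M] [IsScalarTower O R M]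
    (v : κ → R) : MvPolynomial κ O →ₐ[O] M :=
  (IsScalarTower.toAlgHom O R M).comp (MvPolynomial.aeval v)

theorem rthlScal_apply (v : κ → R) (f : MvPolynomial κ O) :
    rthlScal M v f = algebraMap R M (MvPolynomial.aeval v f) := rfl

/-- the extension of `φ` to `A₀[z]`, `z_k ↦ v k` -/
def rthlPre (φ : A₀ →ₐ[O] M) (v : κ → R) : MvPolynomial κ A₀ →ₐ[O] M :=
  (Algebra.TensorProduct.lift φ (rthlScal M v) (fun x y => by
      rw [rthlScal_apply]
      exact Algebra.commute_algebraMap_right _ _)).comp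
    ((MvPolynomial.algebraTensorAlgEquiv O A₀).symm.toAlgHom.restrictScalars O)

theorem rthlPre_monomial (φ : A₀ →ₐ[O] M) (v : κ → R) (e : κ →₀ ℕ) (a : A₀) :
    rthlPre φ v (monomial e a) = φ a * algebraMap R M (e.prod fun k i => v k ^ i) := by
  have h : rthlPre φ v (monomial e a) =
      Algebra.TensorProduct.lift φ (rthlScal M v) (fun x y => by
        rw [rthlScal_apply]
        exact Algebra.commute_algebraMap_right _ _)
        ((MvPolynomial.algebraTensorAlgEquiv O A₀).symm (monomial e a)) := rfl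
  rw [h, MvPolynomial.algebraTensorAlgEquiv_symm_monomial, Algebra.TensorProduct.lift_tmul,
    rthlScal_apply, MvPolynomial.aeval_monomial, map_one, one_mul]

theorem rthlPre_C (φ : A₀ →ₐ[O] M) (v : κ → R) (a : A₀) :
    rthlPre φ v (C a) = φ a := by
  have h : (C a : MvPolynomial κ A₀) = monomial 0 a := rfl
  rw [h, rthlPre_monomial, Finsupp.prod_zero_index, map_one, mul_one]

theorem rthlPre_X (φ : A₀ →ₐ[O] M) (v : κ → R) (k : κ) :
    rthlPre φ v (X k) = algebraMap R M (v k) := by
  have h : (X k : MvPolynomial κ A₀) = monomial (Finsupp.single k 1) 1 := rfl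
  rw [h, rthlPre_monomial, map_one, one_mul, Finsupp.prod_single_index (by rw [pow_zero]),
    pow_one]

theorem rthlPre_eq_zero (φ : A₀ →ₐ[O] M) (v : κ → R) {N : ℕ}
    (hv : ∀ e : κ →₀ ℕ, Finsupp.degree e = N → e.prod (fun k i => v k ^ i) = 0)
    (p : MvPolynomial κ A₀) (hp : p ∈ idealOfVars κ A₀ ^ N) : rthlPre φ v p = 0 := by
  have hle : idealOfVars κ A₀ ^ N ≤ RingHom.ker (rthlPre φ v).toRingHom := by
    rw [pow_idealOfVars_eq_span, Ideal.span_le]
    rintro _ ⟨e, he, rfl⟩
    rw [SetLike.mem_coe, RingHom.mem_ker]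
    show rthlPre φ v (monomial e 1) = 0
    rw [rthlPre_monomial, hv e he, map_zero, mul_zero]
  exact (RingHom.mem_ker).1 (hle hp)

/-- **HA-lift.** -/
theorem rthl_exists_lift {N : ℕ} (φ : A₀ →ₐ[O] M) (v : κ → R)
    (hv : ∀ e : κ →₀ ℕ, Finsupp.degree e = N → e.prod (fun k i => v k ^ i) = 0) :
    ∃ π : RthaFr A₀ κ N →ₐ[O] M,
      (∀ a, π (algebraMap A₀ (RthaFr A₀ κ N) a) = φ a) ∧
        (∀ k, π (rthaZ A₀ N k) = algebraMap R M (v k)) := by
  refine ⟨Ideal.Quotient.liftₐ (idealOfVars κ A₀ ^ N) (rthlPre φ v)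
    (rthlPre_eq_zero φ v hv), fun a => ?_, fun k => ?_⟩
  · have h : algebraMap A₀ (RthaFr A₀ κ N) a = Ideal.Quotient.mk _ (C a) := rfl
    rw [h]
    exact (Ideal.Quotient.lift_mk _ _ _).trans (rthlPre_C φ v a)
  · unfold rthaZ
    exact (Ideal.Quotient.lift_mk _ _ _).trans (rthlPre_X φ v k)

end lift

/-! ### monomials of high degree vanish in `S ⧸ 𝔪 ^ n` -/

section prod

variable (O : Type*) [CommRing O] [IsLocalRing O]

theorem rthl_X_mem (m : ℕ) (i : Fin m) :
    (MvPowerSeries.X i : RttwS O m) ∈ maximalIdeal (RttwS O m) := by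
  rw [mem_maximalIdeal, mem_nonunits_iff, MvPowerSeries.isUnit_iff_constantCoeff,
    MvPowerSeries.constantCoeff_X]
  exact not_isUnit_zero

omit [IsLocalRing O] in
/-- a monomial of degree `d` in elements of an ideal `I` lies in `I ^ d` -/
theorem rthl_prod_mem_pow {B : Type*} [CommRing B] (I : Ideal B) {κ : Type*} (x : κ → B)
    (hx : ∀ k, x k ∈ I) (e : κ →₀ ℕ) :
    e.prod (fun k i => x k ^ i) ∈ I ^ Finsupp.degree e := by
  classical
  have key : ∀ s : Finset κ, (∏ k ∈ s, x k ^ e k) ∈ I ^ (∑ k ∈ s, e k) := by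
    intro s
    induction s using Finset.induction_on with
    | empty => simp
    | insert a s ha ih =>
      rw [Finset.prod_insert ha, Finset.sum_insert ha, pow_add]
      exact Ideal.mul_mem_mul (Ideal.pow_mem_pow (hx a) _) ih
  exact key e.support

/-- **A monomial of degree `≥ n` in the variables is `0` in `S ⧸ 𝔪 ^ n`.** -/
theorem rthl_prod_eq_zero (m n : ℕ) {κ : Type*} (ev : κ → Fin m) (e : κ →₀ ℕ)
    (he : n ≤ Finsupp.degree e) :
    e.prod (fun k i => (Ideal.Quotient.mk (maximalIdeal (RttwS O m) ^ n)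
      (MvPowerSeries.X (ev k))) ^ i) = 0 := by
  set π := Ideal.Quotient.mk (maximalIdeal (RttwS O m) ^ n) with hπ
  set J := (maximalIdeal (RttwS O m)).map π with hJ
  have hJn : J ^ n = ⊥ := by
    rw [hJ, ← Ideal.map_pow]
    exact Ideal.map_quotient_self _
  have h1 := rthl_prod_mem_pow J (fun k => π (MvPowerSeries.X (ev k)))
    (fun k => Ideal.mem_map_of_mem π (rthl_X_mem O m (ev k))) e
  have h2 : J ^ Finsupp.degree e ≤ ⊥ := (Ideal.pow_le_pow_right he).trans hJn.le
  exact (Ideal.mem_bot).1 (h2 h1)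

/-- the hypothesis of `rthl_exists_lift` for `N = n` (or any `N ≥ n`) and the variables of
`S ⧸ 𝔪 ^ n` -/
theorem rthl_prod_eq_zero' (m n N : ℕ) (hN : n ≤ N) {κ : Type*} (ev : κ → Fin m) :
    ∀ e : κ →₀ ℕ, Finsupp.degree e = N →
      e.prod (fun k i => (Ideal.Quotient.mk (maximalIdeal (RttwS O m) ^ n)
        (MvPowerSeries.X (ev k))) ^ i) = 0 :=
  fun e he => rthl_prod_eq_zero O m n ev e (he ▸ hN)

end prod

end Fermat.Agent.RT.Prod

end
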