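/-
K-machine, HECKE-PACK (helper70): from the Galois side over the Hecke ring `A₀` (`RT.HkOut`,
`RT/Hecke/Plan.lean`) to the contract `Prod.TWGal` of PROD-asm, by FRAMING:
`A = A₀[z_{i,k}] ⧸ (z) ^ (n + 1)`, `β_{r_i} = 1 + Z_i`, `z_{i,k} ↦ w_{ev (i,k)}`.

* `rthaBeta`, `rthaBeta_apply` : the framings as a function of the prime;
* `rtha_kills` : the lift kills the kernel of the augmentation modulo `𝔞`;
* `rtha_ringHom_ext` : ring homomorphisms out of the framing ring;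
* `rtha_pack` : `HkOut ⇒ ∃ A …, TWGal`.
-/
import Fermat.Agent.RT.Prod.HaFrameB
import Fermat.Agent.RT.Prod.HaEven
import Fermat.Agent.RT.Prod.HaLift
import Fermat.Agent.RT.Prod.HaBase
import Fermat.Agent.RT.Prod.AsmPlan
import Fermat.Agent.RT.Hecke.Plan

set_option autoImplicit false
set_option linter.style.haveILetI false
set_option linter.unusedSectionVars false
set_option linter.unusedVariables false

namespace Fermat.Agent.RT.Prod

open IsLocalRing Fermat.Agent.TW Fermat.Agent.RT Fermat.Agent.RT.K1 ExtCitation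

section Pack

variable {O : Type} [CommRing O] [IsLocalRing O] {ι : Type} [Fintype ι]

/-- the framings as a function of the prime -/
noncomputable def rthaBeta (A₀ : Type) [CommRing A₀] (N : ℕ) (r : ι → ℕ) (ℓ : ℕ) :
    Matrix (Fin 2) (Fin 2) (RthaFr A₀ (ι × Fin 4) N) :=
  open Classical in if h : ∃ i, r i = ℓ then rthaB A₀ N h.choose else 1

theorem rthaBeta_apply (A₀ : Type) [CommRing A₀] (N : ℕ) {r : ι → ℕ}
    (hr : Function.Injective r) (i : ι) : rthaBeta A₀ N r (r i) = rthaB A₀ N i := by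
  unfold rthaBeta
  have h : ∃ j, r j = r i := ⟨i, rfl⟩
  rw [dif_pos h]
  congr 1
  exact hr h.choose_spec

/-- reduction of a scalar matrix -/
theorem rtha_scalar_map {R R' : Type*} [CommRing R] [CommRing R'] (f : R →+* R') (d : ℕ)
    (c : R) : (algebraMap R (Matrix (Fin d) (Fin d) R) c).map f =
      algebraMap R' (Matrix (Fin d) (Fin d) R') (f c) := by
  ext a b
  rw [Matrix.map_apply, Matrix.algebraMap_matrix_apply, Matrix.algebraMap_matrix_apply]
  split_ifs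
  · rfl
  · exact map_zero f

variable {A₀ : Type} [CommRing A₀] [IsLocalRing A₀] [Algebra O A₀]

/-- `π` kills the kernel of the augmentation modulo `𝔞`, if it maps the framing variables to
scalars in `𝔞`. -/
theorem rtha_kills {m d n : ℕ} {κ : Type}
    (π : RthaFr A₀ κ (n + 1) →ₐ[O] Matrix (Fin d) (Fin d)
      (RttwS O m ⧸ maximalIdeal (RttwS O m) ^ n))
    (ev : κ → Fin m)
    (hπZ : ∀ k, π (rthaZ A₀ (n + 1) k) = algebraMap _ _
      (Ideal.Quotient.mk (maximalIdeal (RttwS O m) ^ n) (MvPowerSeries.X (ev k))))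
    (x : RthaFr A₀ κ (n + 1)) (hx : rthaAug (Nat.succ_ne_zero n) x = 0) :
    (π x).map (Ideal.Quotient.factor
        (le_sup_right : maximalIdeal (RttwS O m) ^ n ≤
          rttwAug O m ⊔ maximalIdeal (RttwS O m) ^ n)) = 0 := by
  have hx' := rtha_ker_aug_le (Nat.succ_ne_zero n) x hx
  let F : RthaFr A₀ κ (n + 1) →+* Matrix (Fin d) (Fin d)
      (RttwS O m ⧸ (rttwAug O m ⊔ maximalIdeal (RttwS O m) ^ n)) :=
    (RingHom.mapMatrix (Ideal.Quotient.factor
        (le_sup_right : maximalIdeal (RttwS O m) ^ n ≤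
          rttwAug O m ⊔ maximalIdeal (RttwS O m) ^ n))).comp π.toRingHom
  have hle : Ideal.span (Set.range (rthaZ A₀ (κ := κ) (n + 1))) ≤ RingHom.ker F := by
    rw [Ideal.span_le]
    rintro _ ⟨k, rfl⟩
    rw [SetLike.mem_coe, RingHom.mem_ker]
    have hF : F (rthaZ A₀ (n + 1) k) = (π (rthaZ A₀ (n + 1) k)).map (Ideal.Quotient.factor
        (le_sup_right : maximalIdeal (RttwS O m) ^ n ≤
          rttwAug O m ⊔ maximalIdeal (RttwS O m) ^ n)) := rfl
    rw [hF, hπZ, rtha_scalar_map, Ideal.Quotient.factor_mk]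
    have h0 : Ideal.Quotient.mk (rttwAug O m ⊔ maximalIdeal (RttwS O m) ^ n)
        (MvPowerSeries.X (ev k)) = 0 := by
      rw [Ideal.Quotient.eq_zero_iff_mem]
      refine Ideal.mem_sup_left ?_
      unfold rttwAug
      rw [RingHom.mem_ker, MvPowerSeries.constantCoeff_X]
    rw [h0, map_zero]
  have hfin : F x = 0 := (RingHom.mem_ker).mp (hle hx')
  exact hfin

/-- the same, as an equality of the reductions of `π x` and `π (ψ (aug x))` -/
theorem rtha_kills' {m d n : ℕ} {κ : Type}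
    (π : RthaFr A₀ κ (n + 1) →ₐ[O] Matrix (Fin d) (Fin d)
      (RttwS O m ⧸ maximalIdeal (RttwS O m) ^ n))
    (ev : κ → Fin m)
    (hπZ : ∀ k, π (rthaZ A₀ (n + 1) k) = algebraMap _ _
      (Ideal.Quotient.mk (maximalIdeal (RttwS O m) ^ n) (MvPowerSeries.X (ev k))))
    (x : RthaFr A₀ κ (n + 1)) (a : A₀) (hx : rthaAug (Nat.succ_ne_zero n) x = a) :
    (π x).map (Ideal.Quotient.factor
        (le_sup_right : maximalIdeal (RttwS O m) ^ n ≤
          rttwAug O m ⊔ maximalIdeal (RttwS O m) ^ n)) =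
      (π (algebraMap A₀ (RthaFr A₀ κ (n + 1)) a)).map (Ideal.Quotient.factor
        (le_sup_right : maximalIdeal (RttwS O m) ^ n ≤
          rttwAug O m ⊔ maximalIdeal (RttwS O m) ^ n)) := by
  have h0 : rthaAug (Nat.succ_ne_zero n) (x - algebraMap A₀ (RthaFr A₀ κ (n + 1)) a) = 0 := by
    rw [map_sub, rthaAug_algebraMap, hx, sub_self]
  have h1 := rtha_kills π ev hπZ _ h0
  rw [map_sub] at h1
  have h2 : ∀ X Y : Matrix (Fin d) (Fin d) (RttwS O m ⧸ maximalIdeal (RttwS O m) ^ n),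
      (X - Y).map (Ideal.Quotient.factor
        (le_sup_right : maximalIdeal (RttwS O m) ^ n ≤
          rttwAug O m ⊔ maximalIdeal (RttwS O m) ^ n)) =
      X.map (Ideal.Quotient.factor
        (le_sup_right : maximalIdeal (RttwS O m) ^ n ≤
          rttwAug O m ⊔ maximalIdeal (RttwS O m) ^ n)) -
      Y.map (Ideal.Quotient.factor
        (le_sup_right : maximalIdeal (RttwS O m) ^ n ≤
          rttwAug O m ⊔ maximalIdeal (RttwS O m) ^ n)) := fun X Y =>
    Matrix.map_sub (f := Ideal.Quotient.factor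
        (le_sup_right : maximalIdeal (RttwS O m) ^ n ≤
          rttwAug O m ⊔ maximalIdeal (RttwS O m) ^ n)) (fun _ _ => map_sub _ _ _) X Y
  rw [h2] at h1
  exact sub_eq_zero.mp h1

omit [IsLocalRing A₀] in
/-- ring homomorphisms out of the framing ring are determined by `A₀` and the variables -/
theorem rtha_ringHom_ext {κ : Type} {N : ℕ} {R' : Type*} [Semiring R']
    (F G : RthaFr A₀ κ N →+* R')
    (h1 : ∀ a, F (algebraMap A₀ (RthaFr A₀ κ N) a) = G (algebraMap A₀ (RthaFr A₀ κ N) a))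
    (h2 : ∀ k, F (rthaZ A₀ N k) = G (rthaZ A₀ N k)) (x : RthaFr A₀ κ N) : F x = G x := by
  obtain ⟨p, rfl⟩ := Ideal.Quotient.mk_surjective x
  induction p using MvPolynomial.induction_on with
  | C a => exact h1 a
  | add p q hp hq => rw [map_add, map_add, map_add, hp, hq]
  | mul_X p k hp =>
    rw [map_mul, map_mul, map_mul, hp]
    congr 1
    exact h2 k

/-- **HECKE-PACK.**  The Galois side over the Hecke ring `A₀` gives the contract `TWGal` over
the framing ring `A₀[z] ⧸ (z) ^ (n + 1)`. -/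
theorem rtha_pack (p : ℕ) [Fact p.Prime] (lam : O) (ρbar : ResidualGaloisRep (ResidueField O))
    (habs : ρbar.IsAbsolutelyIrreducible)
    (Smin Q : Finset ℕ) (r : ι → ℕ) (hr : Function.Injective r) (σ φ : ι → RtpaG) (tχ : ι → O)
    (m h d n : ℕ) (ev : ι × Fin 4 → Fin m) (hev : ∀ j : Fin m, h ≤ (j : ℕ) → ∃ x, ev x = j)
    {T0 : Type} [CommRing T0] [Algebra O T0] (j0 : T0 →ₐ[O] Matrix (Fin d) (Fin d) O)
    (Sig0 Phi0 : ι → Matrix (Fin 2) (Fin 2) T0)
    (ιA₀ : ResidueField O →+* ResidueField A₀)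
    (ρ₀ : GaloisRepAdic A₀) (b₀ : Module.Basis (Fin 2) A₀ ρ₀.V)
    (φ1 φχ : A₀ →ₐ[O] Matrix (Fin d) (Fin d) (RthkSn O m n))
    (H : HkOut p lam ρbar Smin (Q ∪ Finset.univ.image r) σ φ tχ m h d n j0 Sig0 Phi0 ιA₀ ρ₀ b₀
      φ1 φχ) :
    ∃ (A : Type) (_ : CommRing A) (_ : IsLocalRing A) (_ : Algebra O A)
      (ιA : ResidueField O →+* ResidueField A) (ρ : GaloisRepAdic A)
      (b : Module.Basis (Fin 2) A ρ.V) (β βi : ℕ → Matrix (Fin 2) (Fin 2) A)
      (π1 πχ : A →ₐ[O] Matrix (Fin d) (Fin d) (RttwS O m ⧸ maximalIdeal (RttwS O m) ^ n)),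
      TWGal p ρbar Smin Q r σ φ tχ lam m d j0 Sig0 Phi0 n (rttwEvenQ O m h n) ιA ρ b β βi
        π1 πχ := by
  classical
  haveI := H.finite
  have hN : n + 1 ≠ 0 := Nat.succ_ne_zero n
  have hψ : IsLocalHom ((IsScalarTower.toAlgHom O A₀ (RthaFr A₀ (ι × Fin 4) (n + 1)) :
      A₀ →ₐ[O] RthaFr A₀ (ι × Fin 4) (n + 1)) : A₀ →+* RthaFr A₀ (ι × Fin 4) (n + 1)) :=
    rtha_isLocalHom_algebraMap hN
  haveI hfinA : Finite (RthaFr A₀ (ι × Fin 4) (n + 1)) := rtha_finite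
  have hres : Fermat.Agent.S53.IsResAlg O (RthaFr A₀ (ι × Fin 4) (n + 1)) :=
    rtha_isResAlg n H.resAlg
  haveI : IsLocalHom (algebraMap O (RthaFr A₀ (ι × Fin 4) (n + 1))) := hres.isLocalHom
  have hιA : ∀ x : O, ResidueField.map (algebraMap O (RthaFr A₀ (ι × Fin 4) (n + 1)))
      (residue O x) = residue _ (algebraMap O (RthaFr A₀ (ι × Fin 4) (n + 1)) x) :=
    fun x => rfl
  have hv := rthl_prod_eq_zero' O m n (n + 1) (Nat.le_succ n) ev
  obtain ⟨π1, hπ1a, hπ1Z⟩ := rthl_exists_lift (N := n + 1) φ1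
    (fun k : ι × Fin 4 => Ideal.Quotient.mk (maximalIdeal (RttwS O m) ^ n)
      (MvPowerSeries.X (ev k))) hv
  obtain ⟨πχ, hπχa, hπχZ⟩ := rthl_exists_lift (N := n + 1) φχ
    (fun k : ι × Fin 4 => Ideal.Quotient.mk (maximalIdeal (RttwS O m) ^ n)
      (MvPowerSeries.X (ev k))) hv
  -- traces
  have htr : ∀ g : RtpaG, LinearMap.trace (RthaFr A₀ (ι × Fin 4) (n + 1))
      (rthbRep _ hψ ρ₀ b₀).V ((rthbRep _ hψ ρ₀ b₀).ρ g) =
        algebraMap A₀ (RthaFr A₀ (ι × Fin 4) (n + 1)) (LinearMap.trace A₀ ρ₀.V (ρ₀.ρ g)) :=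
    fun g => rthb_trace _ hψ ρ₀ b₀ g
  -- scalars
  have hscal : ∀ (π : RthaFr A₀ (ι × Fin 4) (n + 1) →ₐ[O] Matrix (Fin d) (Fin d)
      (RttwS O m ⧸ maximalIdeal (RttwS O m) ^ n))
      (φ' : A₀ →ₐ[O] Matrix (Fin d) (Fin d) (RthkSn O m n)),
      (∀ a, π (algebraMap A₀ (RthaFr A₀ (ι × Fin 4) (n + 1)) a) = φ' a) →
      (∀ k, π (rthaZ A₀ (n + 1) k) = algebraMap (RthkSn O m n) _
        (Ideal.Quotient.mk (maximalIdeal (RttwS O m) ^ n) (MvPowerSeries.X (ev k)))) →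
      (∀ j : Fin m, (j : ℕ) < h → ∃ a : A₀,
        φ' a = algebraMap (RthkSn O m n) (Matrix (Fin d) (Fin d) (RthkSn O m n))
          (Ideal.Quotient.mk _ (MvPowerSeries.X j) ^ 2)) →
      ∀ c ∈ rttwEvenQ O m h n, ∃ u : RthaFr A₀ (ι × Fin 4) (n + 1),
        π u = algebraMap _ (Matrix (Fin d) (Fin d)
          (RttwS O m ⧸ maximalIdeal (RttwS O m) ^ n)) c := by
    intro π φ' hπa hπZ hY c hc
    refine rtha_scal O m h n π ?_ c hc
    rintro y (⟨i, hi, rfl⟩ | ⟨j, hj, rfl⟩)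
    · obtain ⟨a, ha⟩ := hY i hi
      refine ⟨algebraMap A₀ _ a, ?_⟩
      rw [hπa, ha]
      congr 1
    · obtain ⟨x, rfl⟩ := hev j hj
      exact ⟨rthaZ A₀ (n + 1) x, hπZ x⟩
  -- the base
  have hbase : ∀ (i : ι) (g : RtpaG) (a c : Fin 2),
      (π1 (rtpaFr (rthbRep _ hψ ρ₀ b₀) (rthbBasis _ hψ ρ₀ b₀) (rthaBeta A₀ (n + 1) r)
        (fun ℓ => (rthaBeta A₀ (n + 1) r ℓ)⁻¹) (r i) g a c)).map (Ideal.Quotient.factor
        (le_sup_right : maximalIdeal (RttwS O m) ^ n ≤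
          rttwAug O m ⊔ maximalIdeal (RttwS O m) ^ n)) =
      (φ1 (LinearMap.toMatrix b₀ b₀ (ρ₀.ρ g) a c)).map (Ideal.Quotient.factor
        (le_sup_right : maximalIdeal (RttwS O m) ^ n ≤
          rttwAug O m ⊔ maximalIdeal (RttwS O m) ^ n)) := by
    intro i g a c
    rw [← hπ1a]
    refine rtha_kills' π1 ev hπ1Z _ _ ?_
    have h1 : (rthaAug (A₀ := A₀) (κ := ι × Fin 4) hN).toRingHom.mapMatrix
        (rtpaFr (rthbRep _ hψ ρ₀ b₀) (rthbBasis _ hψ ρ₀ b₀) (rthaBeta A₀ (n + 1) r)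
          (fun ℓ => (rthaBeta A₀ (n + 1) r ℓ)⁻¹) (r i) g) =
        LinearMap.toMatrix b₀ b₀ (ρ₀.ρ g) := by
      unfold rtpaFr
      rw [map_mul, map_mul, rthb_toMatrix]
      simp only []
      rw [rthaBeta_apply A₀ (n + 1) hr i, rthaAug_B_inv, rthaAug_B, one_mul, mul_one]
      ext a' c'
      rw [RingHom.mapMatrix_apply, Matrix.map_apply, Matrix.map_apply]
      exact rthaAug_algebraMap hN _
    have h2 := congrFun (congrFun h1 a) c
    rwa [RingHom.mapMatrix_apply, Matrix.map_apply] at h2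
  refine ⟨RthaFr A₀ (ι × Fin 4) (n + 1), inferInstance, inferInstance, inferInstance,
    ResidueField.map (algebraMap O (RthaFr A₀ (ι × Fin 4) (n + 1))),
    rthbRep _ hψ ρ₀ b₀, rthbBasis _ hψ ρ₀ b₀, rthaBeta A₀ (n + 1) r,
    fun ℓ => (rthaBeta A₀ (n + 1) r ℓ)⁻¹, π1, πχ, ?_⟩
  refine
    { finite := hfinA
      resAlg := hres
      hιA := hιA
      flat := rthb_twFlat _ hψ ρ₀ b₀ p Smin _ H.flat H.ann
      res := rthb_res ρbar habs ιA₀ H.hιA _ hιA _ hψ ρ₀ b₀ H.res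
      framing := ?_
      gen := ?_
      scal1 := hscal π1 φ1 hπ1a hπ1Z H.scalY1
      scalχ := hscal πχ φχ hπχa hπχZ H.scalYχ
      tr1 := fun i => by rw [htr, hπ1a]; exact H.tr1 i
      trχ := fun i => by rw [htr, hπχa]; exact H.trχ i
      cong := ?_
      base_sig := fun i a c => (hbase i (σ i) a c).trans (H.base_sig i a c)
      base_phi := fun i a c => (hbase i (φ i) a c).trans (H.base_phi i a c)
      base_T0 := ?_ }
  · intro ℓ hℓ
    obtain ⟨i, -, rfl⟩ := Finset.mem_image.mp hℓ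
    show rthaBeta A₀ (n + 1) r (r i) * (rthaBeta A₀ (n + 1) r (r i))⁻¹ = 1 ∧
      ∀ a c, (rthaBeta A₀ (n + 1) r (r i) - 1) a c ∈ maximalIdeal _
    rw [rthaBeta_apply A₀ (n + 1) hr i]
    exact ⟨rthaB_mul_inv hN i, fun a c => rthaB_sub_one_mem n i a c⟩
  · rw [eq_top_iff, ← rtha_adjoin_eq_top (O := O) (A₀ := A₀) (κ := ι × Fin 4) (N := n + 1) _
      H.gen]
    refine Algebra.adjoin_le ?_
    rintro y (⟨t, ⟨g, rfl⟩, rfl⟩ | ⟨⟨i, k⟩, rfl⟩)
    · exact Algebra.subset_adjoin (Or.inl ⟨g, (htr g).symm⟩)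
    · obtain ⟨a, c, e, he, hZ⟩ := rthaZ_eq_entry (A₀ := A₀) (N := n + 1) i k
      rw [hZ]
      refine Subalgebra.sub_mem _ (Algebra.subset_adjoin (Or.inr ⟨r i,
        Finset.mem_image_of_mem r (Finset.mem_univ i), a, c, ?_⟩)) ?_
      · rw [rthaBeta_apply A₀ (n + 1) hr i]
      · rcases he with rfl | rfl
        · exact zero_mem _
        · exact one_mem _
  · intro u
    have hc := rtha_ringHom_ext
      ((RingHom.mapMatrix (Ideal.Quotient.factor
        (le_sup_right : maximalIdeal (RttwS O m) ^ n ≤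
          rttwLam m lam ⊔ maximalIdeal (RttwS O m) ^ n))).comp π1.toRingHom)
      ((RingHom.mapMatrix (Ideal.Quotient.factor
        (le_sup_right : maximalIdeal (RttwS O m) ^ n ≤
          rttwLam m lam ⊔ maximalIdeal (RttwS O m) ^ n))).comp πχ.toRingHom)
      (fun a => by
        have := H.cong a
        rw [← hπ1a, ← hπχa] at this
        exact this)
      (fun k => by
        have h1 := hπ1Z k
        have h2 := hπχZ k
        show (π1 (rthaZ A₀ (n + 1) k)).map _ = (πχ (rthaZ A₀ (n + 1) k)).map _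
        rw [h1, h2]) u
    exact hc
  · intro u
    obtain ⟨t0, ht0⟩ := H.base_T0 (rthaAug hN u)
    refine ⟨t0, ?_⟩
    rw [rtha_kills' π1 ev hπ1Z u _ rfl, hπ1a]
    exact ht0

/-- the standard numbering of the framing variables: `(i, k) ↦ h + 4 i + k` -/
noncomputable def rthaEv (ι : Type) [Fintype ι] (h : ℕ) (x : ι × Fin 4) :
    Fin (h + 4 * Fintype.card ι) :=
  ⟨h + (4 * (Fintype.equivFin ι x.1 : ℕ) + (x.2 : ℕ)), by
    have h1 := (Fintype.equivFin ι x.1).isLt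
    have h2 := x.2.isLt
    omega⟩

theorem rthaEv_surj (h : ℕ) (j : Fin (h + 4 * Fintype.card ι)) (hj : h ≤ (j : ℕ)) :
    ∃ x, rthaEv ι h x = j := by
  have hj2 := j.isLt
  have hq : ((j : ℕ) - h) / 4 < Fintype.card ι := by omega
  refine ⟨((Fintype.equivFin ι).symm ⟨((j : ℕ) - h) / 4, hq⟩,
    ⟨((j : ℕ) - h) % 4, Nat.mod_lt _ (by norm_num)⟩), ?_⟩
  apply Fin.ext
  simp only [rthaEv, Equiv.apply_symm_apply]
  omega

/-- **HECKE-PACK**, with `m = h + 4 |ι|` (the `Y.m h` of `KSetup`). -/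
theorem rtha_pack_std (p : ℕ) [Fact p.Prime] (lam : O)
    (ρbar : ResidualGaloisRep (ResidueField O)) (habs : ρbar.IsAbsolutelyIrreducible)
    (Smin Q : Finset ℕ) (r : ι → ℕ) (hr : Function.Injective r) (σ φ : ι → RtpaG) (tχ : ι → O)
    (h d n : ℕ)
    {T0 : Type} [CommRing T0] [Algebra O T0] (j0 : T0 →ₐ[O] Matrix (Fin d) (Fin d) O)
    (Sig0 Phi0 : ι → Matrix (Fin 2) (Fin 2) T0)
    (ιA₀ : ResidueField O →+* ResidueField A₀)
    (ρ₀ : GaloisRepAdic A₀) (b₀ : Module.Basis (Fin 2) A₀ ρ₀.V)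
    (φ1 φχ : A₀ →ₐ[O] Matrix (Fin d) (Fin d) (RthkSn O (h + 4 * Fintype.card ι) n))
    (H : HkOut p lam ρbar Smin (Q ∪ Finset.univ.image r) σ φ tχ (h + 4 * Fintype.card ι) h d n
      j0 Sig0 Phi0 ιA₀ ρ₀ b₀ φ1 φχ) :
    ∃ (A : Type) (_ : CommRing A) (_ : IsLocalRing A) (_ : Algebra O A)
      (ιA : ResidueField O →+* ResidueField A) (ρ : GaloisRepAdic A)
      (b : Module.Basis (Fin 2) A ρ.V) (β βi : ℕ → Matrix (Fin 2) (Fin 2) A)
      (π1 πχ : A →ₐ[O] Matrix (Fin d) (Fin d)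
        (RttwS O (h + 4 * Fintype.card ι) ⧸
          maximalIdeal (RttwS O (h + 4 * Fintype.card ι)) ^ n)),
      TWGal p ρbar Smin Q r σ φ tχ lam (h + 4 * Fintype.card ι) d j0 Sig0 Phi0 n
        (rttwEvenQ O (h + 4 * Fintype.card ι) h n) ιA ρ b β βi π1 πχ :=
  rtha_pack p lam ρbar habs Smin Q r hr σ φ tχ (h + 4 * Fintype.card ι) h d n (rthaEv ι h)
    (rthaEv_surj h) j0 Sig0 Phi0 ιA₀ ρ₀ b₀ φ1 φχ H

end Pack

end Fermat.Agent.RT.Prod
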