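import Mathlib

/-!
# K-machine, PROD-asm, algebraic part: the relations at the trivial primes

`Σ`, `Φ` are `2 × 2` matrices over a commutative ring `T` with `Φ Σ = Σ ^ r Φ`
(`Φ` the image of a Frobenius lift, `Σ` the image of a generator of the tame inertia, `r` the
prime).

* `rtprod_unip_pow` : `tr Σ = 2`, `det Σ = 1` ⇒ `Σ ^ r = 1 + r (Σ − 1)`;
* `rtprod_rel1`     : then `Φ (Σ − 1) = r (Σ − 1) Φ`;
* `rtprod_chi_pow`  : `tr Σ = ζ + ζ⁻¹`, `det Σ = 1`, `ζ ^ p = 1`, `ζ ≠ ζ⁻¹` ⇒ `Σ ^ p = 1`;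
* `rtprod_relchi`   : then `Φ Σ = Σ Φ` when `p ∣ r − 1`;
* `rtprod_one_add_pow_sub_one_mem` : `(1 + a) ^ (p ^ n) − 1 ∈ I ^ (n + 1)` for `a, p ∈ I`.
-/

set_option autoImplicit false

namespace Fermat.Agent.RT.Prod

section Unip

variable {T : Type*} [CommRing T]

/-- Cayley–Hamilton for `2 × 2` matrices. -/
theorem rtprod_cayley_hamilton (S : Matrix (Fin 2) (Fin 2) T) :
    S * S = S.trace • S - S.det • (1 : Matrix (Fin 2) (Fin 2) T) := by
  ext i j
  fin_cases i <;> fin_cases j <;>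
    simp [Matrix.mul_apply, Fin.sum_univ_two, Matrix.trace_fin_two, Matrix.det_fin_two] <;> ring

/-- `tr Σ = 2`, `det Σ = 1` ⇒ `(Σ − 1)² = 0`. -/
theorem rtprod_unip_sq (S : Matrix (Fin 2) (Fin 2) T) (htr : S.trace = 2) (hdet : S.det = 1) :
    (S - 1) * (S - 1) = 0 := by
  have h := rtprod_cayley_hamilton S
  rw [htr, hdet, one_smul] at h
  have : (S - 1) * (S - 1) = S * S - (2 : T) • S + 1 := by
    rw [two_smul]; noncomm_ring
  rw [this, h]
  abel

/-- `tr Σ = 2`, `det Σ = 1` ⇒ `Σ ^ r = 1 + r (Σ − 1)`. -/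
theorem rtprod_unip_pow (S : Matrix (Fin 2) (Fin 2) T) (htr : S.trace = 2) (hdet : S.det = 1)
    (r : ℕ) : S ^ r = 1 + (r : T) • (S - 1) := by
  have hN := rtprod_unip_sq S htr hdet
  induction r with
  | zero => simp
  | succ k ih =>
    rw [pow_succ, ih]
    have e : (1 + (k : T) • (S - 1)) * S = (1 + (k : T) • (S - 1)) * (1 + (S - 1)) := by
      congr 1; abel
    rw [e, add_mul, one_mul, smul_mul_assoc, mul_add, mul_one, hN, add_zero, Nat.cast_succ,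
      add_smul, one_smul]
    abel

/-- **The unipotent relation**: `Φ Σ = Σ ^ r Φ`, `tr Σ = 2`, `det Σ = 1` ⇒
`Φ (Σ − 1) = r (Σ − 1) Φ`. -/
theorem rtprod_rel1 (S Φ : Matrix (Fin 2) (Fin 2) T) (htr : S.trace = 2) (hdet : S.det = 1)
    (r : ℕ) (h : Φ * S = S ^ r * Φ) :
    Φ * (S - 1) = (r : T) • ((S - 1) * Φ) := by
  rw [rtprod_unip_pow S htr hdet r, add_mul, one_mul, smul_mul_assoc] at h
  rw [mul_sub, mul_one, h]
  abel

end Unip

section Chi

open Polynomial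

variable {O : Type*} [CommRing O] [IsDomain O]

/-- `(X − ζ)(X − ζ')` divides `X ^ p − 1` when `ζ ≠ ζ'` are roots. -/
theorem rtprod_quad_dvd (z z' : O) (p : ℕ) (hz : z ^ p = 1) (hz' : z' ^ p = 1) (hne : z ≠ z') :
    (X - C z) * (X - C z') ∣ (X ^ p - 1 : O[X]) := by
  have h1 : (X - C z) ∣ (X ^ p - 1 : O[X]) := by
    rw [dvd_iff_isRoot]
    simp [hz]
  obtain ⟨g, hg⟩ := h1
  have h2 : (X - C z') ∣ g := by
    rw [dvd_iff_isRoot]
    have : (X ^ p - 1 : O[X]).eval z' = 0 := by simp [hz']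
    rw [hg, eval_mul] at this
    rcases mul_eq_zero.mp this with h | h
    · exfalso
      simp only [eval_sub, eval_X, eval_C] at h
      exact hne (sub_eq_zero.mp h).symm
    · exact h
  obtain ⟨g', hg'⟩ := h2
  exact ⟨g', by rw [hg, hg', mul_assoc]⟩

variable {T : Type*} [CommRing T] [Algebra O T]

/-- `tr Σ = ζ + ζ'`, `det Σ = 1 = ζ ζ'`, `ζ ^ p = 1`, `ζ ≠ ζ'` ⇒ `Σ ^ p = 1`. -/
theorem rtprod_chi_pow (z z' : O) (p : ℕ) (hz : z ^ p = 1) (hzz : z * z' = 1) (hne : z ≠ z')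
    (S : Matrix (Fin 2) (Fin 2) T) (htr : S.trace = algebraMap O T (z + z'))
    (hdet : S.det = 1) : S ^ p = 1 := by
  have hz' : z' ^ p = 1 := by
    have : (z * z') ^ p = 1 := by rw [hzz, one_pow]
    rwa [mul_pow, hz, one_mul] at this
  obtain ⟨g, hg⟩ := rtprod_quad_dvd z z' p hz hz' hne
  have hq : aeval S ((X - C z) * (X - C z') : O[X]) = 0 := by
    have e : ((X - C z) * (X - C z') : O[X]) = X ^ 2 - C (z + z') * X + C (z * z') := by
      rw [map_add, map_mul]; ring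
    rw [e, hzz]
    generalize z + z' = w at htr
    rw [map_add, map_sub, map_mul, map_pow, aeval_X, aeval_C, aeval_C, map_one]
    have h := rtprod_cayley_hamilton S
    rw [htr, hdet, one_smul] at h
    rw [pow_two, h, Algebra.algebraMap_eq_smul_one (A := Matrix (Fin 2) (Fin 2) T) w,
      smul_mul_assoc, one_mul, algebraMap_smul]
    abel
  have := congrArg (aeval S) hg
  rw [map_mul, hq, zero_mul, map_sub, map_pow, aeval_X, map_one, sub_eq_zero] at this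
  exact this

/-- **The relation of type `χ`**: `Φ Σ = Σ ^ r Φ`, `Σ ^ p = 1`, `p ∣ r − 1` ⇒ `Φ Σ = Σ Φ`. -/
theorem rtprod_relchi_of_pow {R : Type*} [Monoid R] (S Φ : R) (p r : ℕ) (hS : S ^ p = 1)
    (hr : p ∣ r - 1) (hr1 : 1 ≤ r) (h : Φ * S = S ^ r * Φ) : Φ * S = S * Φ := by
  obtain ⟨k, hk⟩ := hr
  have e : r = p * k + 1 := by omega
  rw [h, e, pow_succ, pow_mul, hS, one_pow, one_mul]

/-- **The relation of type `χ`.** -/
theorem rtprod_relchi (z z' : O) (p r : ℕ) (hz : z ^ p = 1) (hzz : z * z' = 1) (hne : z ≠ z')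
    (hr : p ∣ r - 1) (hr1 : 1 ≤ r)
    (S Φ : Matrix (Fin 2) (Fin 2) T) (htr : S.trace = algebraMap O T (z + z'))
    (hdet : S.det = 1) (h : Φ * S = S ^ r * Φ) : Φ * S = S * Φ :=
  rtprod_relchi_of_pow S Φ p r (rtprod_chi_pow z z' p hz hzz hne S htr hdet) hr hr1 h

end Chi

section Pow

variable {R : Type*} [CommRing R]

/-- `x ≡ 1 mod I ^ k` (`k ≥ 1`), `p ∈ I` ⇒ `x ^ p ≡ 1 mod I ^ (k + 1)`. -/
theorem rtprod_pow_sub_one_mem (I : Ideal R) (p : ℕ) (hp : (p : R) ∈ I) {k : ℕ} (hk : 1 ≤ k)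
    {x : R} (hx : x - 1 ∈ I ^ k) : x ^ p - 1 ∈ I ^ (k + 1) := by
  -- `x ^ p − 1 = (x − 1) (1 + x + ⋯ + x ^ (p − 1))` and the second factor is `≡ p mod I`
  have hI : x - 1 ∈ I := Ideal.pow_le_self (by omega) hx
  have hgeom : x ^ p - 1 = (x - 1) * ∑ i ∈ Finset.range p, x ^ i := by
    rw [mul_comm, geom_sum_mul]
  have hsum : (∑ i ∈ Finset.range p, x ^ i) ∈ I := by
    have h1 : ∀ i : ℕ, x ^ i - 1 ∈ I := by
      intro i
      have : x ^ i - 1 = (x - 1) * ∑ j ∈ Finset.range i, x ^ j := by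
        rw [mul_comm, geom_sum_mul]
      rw [this]
      exact Ideal.mul_mem_right _ _ hI
    have e : (∑ i ∈ Finset.range p, x ^ i) = (∑ i ∈ Finset.range p, (x ^ i - 1)) + (p : R) := by
      rw [Finset.sum_sub_distrib]
      simp
    rw [e]
    exact Ideal.add_mem _ (Ideal.sum_mem _ fun i _ => h1 i) hp
  rw [hgeom, pow_succ]
  exact Ideal.mul_mem_mul hx hsum

/-- `(1 + a) ^ (p ^ n) − 1 ∈ I ^ (n + 1)` for `a, p ∈ I`. -/
theorem rtprod_one_add_pow_sub_one_mem (I : Ideal R) (p : ℕ) (hp : (p : R) ∈ I) {a : R}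
    (ha : a ∈ I) (n : ℕ) : (1 + a) ^ (p ^ n) - 1 ∈ I ^ (n + 1) := by
  induction n with
  | zero => simpa using ha
  | succ k ih =>
    rw [show p ^ (k + 1) = p ^ k * p from pow_succ p k, pow_mul]
    exact rtprod_pow_sub_one_mem I p hp (by omega) ih

end Pow

end Fermat.Agent.RT.Prod
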