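/-
K-machine, PROD / HECKE-asm, piece HA-unit (helper97).

* `rthu_exists_unit` : **the Taylor–Wiles unit.**  In `Sn = O[[w_1, …, w_m]] ⧸ 𝔪 ^ n`
  (`O` local, `2` a unit, `p ∈ 𝔪_O`) there are `u, v` with `u v = 1`, `u − v = w_i`,
  `u = 1 + w_i (…)`, `u ^ (p ^ n) = 1`, `(u + v)² = w_i² + 4`
  (`u = w/2 + √(1 + w²/4)`, by Hensel for the nilpotent ideal `(w_i)`).
* `rthu_absIrr_of_isEquiv` : absolute irreducibility passes to every residual representation
  equivalent to a base change.
-/
import Fermat.Agent.RT.PlanTW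
import Fermat.Agent.RT.Prod.Rel
import Fermat.Agent.RT.Interp.AbsIrr
import Fermat.Agent.S53.BurnsideRep

set_option autoImplicit false
set_option linter.unusedSectionVars false
set_option linter.unusedVariables false
set_option linter.style.haveILetI false

noncomputable section

namespace Fermat.Agent.RT.Prod

open IsLocalRing

/-! ### Hensel for a nilpotent ideal -/

section nilp

variable {B : Type*} [CommRing B]

/-- a ring is complete for every nilpotent ideal -/
theorem rthu_isAdicComplete_of_pow_eq_bot (I : Ideal B) (n : ℕ) (hI : I ^ n = ⊥) :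
    IsAdicComplete I B := by
  have hbot : ∀ k, n ≤ k → (I ^ k • ⊤ : Submodule B B) = ⊥ := by
    intro k hk
    rw [smul_eq_mul, Ideal.mul_top]
    exact le_bot_iff.1 ((Ideal.pow_le_pow_right hk).trans hI.le)
  refine { toIsHausdorff := ⟨fun x hx => ?_⟩, toIsPrecomplete := ⟨fun f hf => ?_⟩ }
  · have h1 := hx n
    rw [hbot n le_rfl, SModEq.bot] at h1
    exact h1
  · refine ⟨f n, fun k => ?_⟩
    rcases le_total k n with hk | hk
    · exact hf hk
    · have h1 := hf hk
      rw [hbot n le_rfl, SModEq.bot] at h1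
      rw [h1]

/-- the quadratic equation `u² − w u − 1 = 0` has a solution `u ≡ 1 mod w`, for `w` nilpotent
and `2` a unit -/
theorem rthu_exists_root (w : B) (n : ℕ) (hw : w ^ n = 0) (h2 : IsUnit (2 : B)) :
    ∃ u b : B, u * (u - w) = 1 ∧ u = 1 + w * b := by
  open Polynomial in
  classical
  have hI : (Ideal.span {w} : Ideal B) ^ n = ⊥ := by
    rw [Ideal.span_singleton_pow, hw, Ideal.span_singleton_eq_bot]
  haveI : IsAdicComplete (Ideal.span {w} : Ideal B) B :=
    rthu_isAdicComplete_of_pow_eq_bot _ n hI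
  have hwI : w ∈ (Ideal.span {w} : Ideal B) := Ideal.mem_span_singleton_self w
  by_cases hB : Nontrivial B
  · have hdeg : (C w * X + 1 : B[X]).degree < ((2 : ℕ) : WithBot ℕ) := by
      have h1 : (C w * X + 1 : B[X]).degree ≤ 1 := by
        have : (C w * X + 1 : B[X]) = C w * X + C 1 := by rw [map_one]
        rw [this]
        exact degree_linear_le
      exact lt_of_le_of_lt h1 (by norm_num)
    have hmonic : (X ^ 2 - (C w * X + 1) : B[X]).Monic := monic_X_pow_sub hdeg
    have hH := HenselianRing.is_henselian (R := B) (I := Ideal.span {w})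
      (X ^ 2 - (C w * X + 1)) hmonic 1
      (by
        simp only [eval_sub, eval_pow, eval_X, eval_add, eval_mul, eval_C, eval_one, one_pow,
          mul_one]
        have : (1 : B) - (w + 1) = -w := by ring
        rw [this]
        exact (Ideal.neg_mem_iff _).2 hwI)
      (by
        have hd : (derivative (X ^ 2 - (C w * X + 1) : B[X])).eval 1 = 2 - w := by
          simp only [derivative_sub, derivative_X_pow, derivative_add, derivative_mul,
            derivative_C, derivative_X, derivative_one, zero_mul, zero_add, mul_one, add_zero,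
            eval_sub, eval_mul, eval_pow, eval_X, eval_C, Nat.cast_ofNat, one_pow]
        rw [hd, map_sub, Ideal.Quotient.eq_zero_iff_mem.2 hwI, sub_zero]
        exact h2.map _)
    obtain ⟨u, hu, hu1⟩ := hH
    rw [Ideal.mem_span_singleton] at hu1
    obtain ⟨b, hb⟩ := hu1
    refine ⟨u, b, ?_, ?_⟩
    · rw [IsRoot.def] at hu
      simp only [eval_sub, eval_pow, eval_X, eval_add, eval_mul, eval_C, eval_one] at hu
      have : u * (u - w) = (u ^ 2 - (w * u + 1)) + 1 := by ring
      rw [this, hu, zero_add]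
    · rw [← hb]
      ring
  · haveI : Subsingleton B := not_nontrivial_iff_subsingleton.1 hB
    exact ⟨1, 0, Subsingleton.elim _ _, Subsingleton.elim _ _⟩

end nilp

/-! ### The Taylor–Wiles unit -/

section unit

variable {O : Type*} [CommRing O] [IsLocalRing O]

theorem rthu_X_mem (m : ℕ) (i : Fin m) :
    (MvPowerSeries.X i : RttwS O m) ∈ maximalIdeal (RttwS O m) := by
  rw [mem_maximalIdeal, mem_nonunits_iff, MvPowerSeries.isUnit_iff_constantCoeff,
    MvPowerSeries.constantCoeff_X]
  exact not_isUnit_zero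

theorem rthu_natCast_mem (m : ℕ) {p : ℕ} (hp : (p : O) ∈ maximalIdeal O) :
    ((p : ℕ) : RttwS O m) ∈ maximalIdeal (RttwS O m) := by
  rw [mem_maximalIdeal, mem_nonunits_iff, MvPowerSeries.isUnit_iff_constantCoeff, map_natCast]
  exact hp

/-- **The Taylor–Wiles unit** `u = w/2 + √(1 + w²/4)` in `S ⧸ 𝔪 ^ n`. -/
theorem rthu_exists_unit (h2 : IsUnit (2 : O)) (p : ℕ) (hp : (p : O) ∈ maximalIdeal O)
    (m n : ℕ) (i : Fin m) :
    ∃ u v : RttwS O m ⧸ maximalIdeal (RttwS O m) ^ n,
      u * v = 1 ∧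
      u - v = Ideal.Quotient.mk (maximalIdeal (RttwS O m) ^ n) (MvPowerSeries.X i) ∧
      (∃ f : RttwS O m, MvPowerSeries.constantCoeff f = 1 ∧
        u = Ideal.Quotient.mk (maximalIdeal (RttwS O m) ^ n) f) ∧
      u ^ p ^ n = 1 ∧
      (u + v) ^ 2 =
        Ideal.Quotient.mk (maximalIdeal (RttwS O m) ^ n) (MvPowerSeries.X i) ^ 2 + 4 := by
  set π := Ideal.Quotient.mk (maximalIdeal (RttwS O m) ^ n) with hπ
  set w := π (MvPowerSeries.X i) with hw
  have hwn : w ^ n = 0 := by
    rw [hw, ← map_pow]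
    exact Ideal.Quotient.eq_zero_iff_mem.2 (Ideal.pow_mem_pow (rthu_X_mem m i) n)
  have h2' : IsUnit (2 : RttwS O m ⧸ maximalIdeal (RttwS O m) ^ n) := by
    have h3 : IsUnit (π (MvPowerSeries.C (2 : O))) := (h2.map MvPowerSeries.C).map π
    have h4 : π (MvPowerSeries.C (2 : O)) = 2 := by
      rw [map_ofNat, map_ofNat]
    rwa [h4] at h3
  obtain ⟨u, b, hu, hub⟩ := rthu_exists_root w n hwn h2'
  obtain ⟨g, hg⟩ := Ideal.Quotient.mk_surjective b
  refine ⟨u, u - w, hu, by ring, ⟨1 + MvPowerSeries.X i * g, ?_, ?_⟩, ?_, ?_⟩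
  · rw [map_add, map_one, map_mul, MvPowerSeries.constantCoeff_X, zero_mul, add_zero]
  · rw [map_add, map_one, map_mul, hg, hub]
  · -- `u ^ (p ^ n) = 1`
    set J := (maximalIdeal (RttwS O m)).map π with hJ
    have hJn : J ^ n = ⊥ := by
      rw [hJ, ← Ideal.map_pow]
      exact Ideal.map_quotient_self _
    have hpJ : ((p : ℕ) : RttwS O m ⧸ maximalIdeal (RttwS O m) ^ n) ∈ J := by
      have := Ideal.mem_map_of_mem π (rthu_natCast_mem (O := O) m hp)
      rwa [map_natCast] at this
    have haJ : w * b ∈ J :=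
      Ideal.mul_mem_right _ _ (Ideal.mem_map_of_mem π (rthu_X_mem m i))
    have h5 := rtprod_one_add_pow_sub_one_mem J p hpJ haJ n
    have h6 : J ^ (n + 1) ≤ ⊥ := (Ideal.pow_le_pow_right (Nat.le_succ n)).trans hJn.le
    have h7 := h6 h5
    rw [Ideal.mem_bot, sub_eq_zero] at h7
    rw [hub]
    exact h7
  · have : (u + (u - w)) ^ 2 = w ^ 2 + 4 * (u * (u - w)) := by ring
    rw [this, hu, mul_one]

end unit

/-! ### Transport of absolute irreducibility -/

section absIrr

open Module TensorProduct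

/-- Burnside, matrix form: the matrices of an absolutely irreducible residual representation
span all `2 × 2` matrices. -/
theorem rthu_span_toMatrix {k : Type} [Field k] (ρbar : ResidualGaloisRep k)
    (habs : ρbar.IsAbsolutelyIrreducible) (b : Basis (Fin 2) k ρbar.V) :
    Submodule.span k (Set.range fun g : AlgebraicClosure ℚ ≃ₐ[ℚ] AlgebraicClosure ℚ =>
      LinearMap.toMatrix b b (ρbar.ρ g)) = ⊤ := by
  have h := Fermat.Agent.S53.Burnside.span_range_eq_top ρbar habs
  have h1 : (Set.range fun g : AlgebraicClosure ℚ ≃ₐ[ℚ] AlgebraicClosure ℚ =>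
      LinearMap.toMatrix b b (ρbar.ρ g)) =
      ((LinearMap.toMatrix b b : Module.End k ρbar.V ≃ₗ[k] Matrix (Fin 2) (Fin 2) k) :
        Module.End k ρbar.V →ₗ[k] Matrix (Fin 2) (Fin 2) k) '' (Set.range ρbar.ρ) := by
    ext M
    constructor
    · rintro ⟨g, rfl⟩
      exact ⟨ρbar.ρ g, ⟨g, rfl⟩, rfl⟩
    · rintro ⟨_, ⟨g, rfl⟩, rfl⟩
      exact ⟨g, rfl⟩
  rw [h1, Submodule.span_image, h, Submodule.map_top, LinearEquiv.range]

/-- **Absolute irreducibility passes to every residual representation equivalent to a base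
change.** -/
theorem rthu_absIrr_of_isEquiv {k K : Type} [Field k] [Field K] (ι : k →+* K)
    (ρbar : ResidualGaloisRep k) (ρ' : ResidualGaloisRep K)
    (h : ρ'.IsEquiv (ρbar.baseChangeAlong ι)) (habs : ρbar.IsAbsolutelyIrreducible) :
    ρ'.IsAbsolutelyIrreducible := by
  classical
  obtain ⟨e⟩ := h
  letI : Algebra k K := ι.toAlgebra
  let b : Basis (Fin 2) k ρbar.V := Module.finBasisOfFinrankEq k ρbar.V ρbar.finrank_eq
  have hspan := rthu_span_toMatrix ρbar habs b
  let bK : Basis (Fin 2) K (K ⊗[k] ρbar.V) := Algebra.TensorProduct.basis K b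
  let e' : ρ'.V ≃ₗ[K] (K ⊗[k] ρbar.V) := e.toLinearEquiv
  have he' : ∀ (g : AlgebraicClosure ℚ ≃ₐ[ℚ] AlgebraicClosure ℚ) (x : ρ'.V),
      e' (ρ'.ρ g x) = (ρbar.ρ g).baseChange K (e' x) := fun g x => e.map_apply g x
  let b' : Basis (Fin 2) K ρ'.V := bK.map e'.symm
  let c : Basis (Fin 2) (AlgebraicClosure K) (AlgebraicClosure K ⊗[K] ρ'.V) :=
    Algebra.TensorProduct.basis (AlgebraicClosure K) b'
  let ψ : k →+* AlgebraicClosure K :=
    (algebraMap K (AlgebraicClosure K)).comp (algebraMap k K)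
  intro W hW
  refine Fermat.Agent.RT.Interp.rtint_irr_of_span ψ
    (fun g => LinearMap.toMatrix b b (ρbar.ρ g)) hspan c W ?_
  intro g x hx
  have hmat : LinearMap.toMatrix b' b' (ρ'.ρ g) =
      LinearMap.toMatrix bK bK ((ρbar.ρ g).baseChange K) := by
    ext i j
    rw [LinearMap.toMatrix_apply, LinearMap.toMatrix_apply]
    simp only [b', Basis.map_apply, Basis.map_repr, LinearEquiv.symm_symm,
      LinearEquiv.trans_apply]
    rw [he', LinearEquiv.apply_symm_apply]
  have key : Matrix.toLin c c ((LinearMap.toMatrix b b (ρbar.ρ g)).map ψ) =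
      (ρ'.ρ g).baseChange (AlgebraicClosure K) := by
    apply (LinearMap.toMatrix c c).injective
    rw [LinearMap.toMatrix_toLin, LinearMap.toMatrix_baseChange, hmat,
      LinearMap.toMatrix_baseChange]
    ext i j
    simp [ψ]
  rw [key]
  exact hW g x hx

end absIrr

end Fermat.Agent.RT.Prod

end
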