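import Fermat.Agent.RT.Prod.Datum
import Fermat.Agent.RT.PlanTWE

/-!
# K-machine, PROD-asm, algebraic core, EVEN form: `TWPreE → TWDatumE`

`RT/Prod/Pre.lean`, `RT/Prod/Datum.lean` (helper97) with the scalars restricted to a set `E`
(symmetric design, `RT/PlanTWE.lean`): `TWPreE`, `rtprod_sideE`, `rtprod_datumE`.
The proofs are helper97's, verbatim.   (helper70)
-/

set_option autoImplicit false
set_option linter.style.haveILetI false

namespace Fermat.Agent.RT.Prod

open MvPowerSeries IsLocalRing Fermat.Agent.RT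

section Pre

variable {O : Type*} [CommRing O] [IsLocalRing O] {ι τ : Type*}

/-- **The algebraic datum at level `n`, scalars in `E`**: one ring `A`, two actions
(`TWPre` with `gen1`, `genχ` only for `c ∈ E`).
`r i` is the `i`-th trivial prime, `s i` the chosen square root of its image in `O`,
`tχ i = (ζ_i + ζ_i⁻¹)/2`. -/
structure TWPreE (r : ι → ℕ) (s tχ : ι → O) (lam : O) (m d : ℕ)
    {T0 : Type*} [CommRing T0] [Algebra O T0] (j0 : T0 →ₐ[O] Matrix (Fin d) (Fin d) O)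
    (Sig0 Phi0 : ι → Matrix (Fin 2) (Fin 2) T0) (n : ℕ)
    (E : Set (RttwS O m ⧸ maximalIdeal (RttwS O m) ^ n))
    {A : Type*} [CommRing A] [Algebra O A]
    (π1 πχ : A →ₐ[O] Matrix (Fin d) (Fin d) (RttwS O m ⧸ maximalIdeal (RttwS O m) ^ n))
    (Sig Phi : ι → Matrix (Fin 2) (Fin 2) A) (x : τ → A) : Prop where
  tr1 : ∀ i, π1 (Sig i).trace = 2
  trχ : ∀ i, πχ (Sig i).trace = algebraMap O _ (2 * tχ i)
  det_sig : ∀ i, (Sig i).det = 1
  det_phi : ∀ i, (Phi i).det = algebraMap O A (s i ^ 2)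
  nil_sig : ∀ i a b, IsNilpotent ((Sig i - 1) a b)
  nil_phi : ∀ i a b,
    IsNilpotent ((Phi i - algebraMap O A (s i) • (1 : Matrix (Fin 2) (Fin 2) A)) a b)
  nil_x : ∀ k, IsNilpotent (x k)
  conj : ∀ i, Phi i * Sig i = Sig i ^ r i * Phi i
  gen1 : ∀ c ∈ E,
    ∃ u ∈ Algebra.adjoin O (rttwEntries Sig ∪ rttwEntries Phi ∪ Set.range x),
      π1 u = algebraMap _ (Matrix (Fin d) (Fin d) (RttwS O m ⧸ maximalIdeal (RttwS O m) ^ n)) c
  genχ : ∀ c ∈ E,
    ∃ u ∈ Algebra.adjoin O (rttwEntries Sig ∪ rttwEntries Phi ∪ Set.range x),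
      πχ u = algebraMap _ (Matrix (Fin d) (Fin d) (RttwS O m ⧸ maximalIdeal (RttwS O m) ^ n)) c
  cong : ∀ u : A,
    (π1 u).map (Ideal.Quotient.factor
        (le_sup_right : maximalIdeal (RttwS O m) ^ n ≤
          rttwLam m lam ⊔ maximalIdeal (RttwS O m) ^ n)) =
      (πχ u).map (Ideal.Quotient.factor
        (le_sup_right : maximalIdeal (RttwS O m) ^ n ≤
          rttwLam m lam ⊔ maximalIdeal (RttwS O m) ^ n))
  base_sig : ∀ i a b,
    (π1 (Sig i a b)).map (Ideal.Quotient.factor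
        (le_sup_right : maximalIdeal (RttwS O m) ^ n ≤
          rttwAug O m ⊔ maximalIdeal (RttwS O m) ^ n)) =
      rttwBaseRed m d n (j0 (Sig0 i a b))
  base_phi : ∀ i a b,
    (π1 (Phi i a b)).map (Ideal.Quotient.factor
        (le_sup_right : maximalIdeal (RttwS O m) ^ n ≤
          rttwAug O m ⊔ maximalIdeal (RttwS O m) ^ n)) =
      rttwBaseRed m d n (j0 (Phi0 i a b))
  base_T0 : ∀ u : A, ∃ t0 : T0,
    (π1 u).map (Ideal.Quotient.factor
        (le_sup_right : maximalIdeal (RttwS O m) ^ n ≤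
          rttwAug O m ⊔ maximalIdeal (RttwS O m) ^ n)) =
      rttwBaseRed m d n (j0 t0)


/-- `TWPre` is `TWPreE` for every `E`. -/
theorem TWPre.toE {r : ι → ℕ} {s tχ : ι → O} {lam : O} {m d : ℕ}
    {T0 : Type*} [CommRing T0] [Algebra O T0] {j0 : T0 →ₐ[O] Matrix (Fin d) (Fin d) O}
    {Sig0 Phi0 : ι → Matrix (Fin 2) (Fin 2) T0} {n : ℕ}
    {A : Type*} [CommRing A] [Algebra O A]
    {π1 πχ : A →ₐ[O] Matrix (Fin d) (Fin d) (RttwS O m ⧸ maximalIdeal (RttwS O m) ^ n)}
    {Sig Phi : ι → Matrix (Fin 2) (Fin 2) A} {x : τ → A}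
    (H : TWPre r s tχ lam m d j0 Sig0 Phi0 n π1 πχ Sig Phi x)
    (E : Set (RttwS O m ⧸ maximalIdeal (RttwS O m) ^ n)) :
    TWPreE r s tχ lam m d j0 Sig0 Phi0 n E π1 πχ Sig Phi x where
  tr1 := H.tr1
  trχ := H.trχ
  det_sig := H.det_sig
  det_phi := H.det_phi
  nil_sig := H.nil_sig
  nil_phi := H.nil_phi
  nil_x := H.nil_x
  conj := H.conj
  gen1 := fun c _ => H.gen1 c
  genχ := fun c _ => H.genχ c
  cong := H.cong
  base_sig := H.base_sig
  base_phi := H.base_phi
  base_T0 := H.base_T0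

end Pre

section Side

variable {O : Type*} [CommRing O] {ι τ : Type*} {A : Type*} [CommRing A] [Algebra O A]
  {Sn : Type*} [CommRing Sn] [Algebra O Sn] {d : ℕ}

/-- **One side.** -/
theorem rtprod_sideE (E : Set Sn) (π : A →ₐ[O] Matrix (Fin d) (Fin d) Sn) (t s : ι → O)
    (Sig Phi : ι → Matrix (Fin 2) (Fin 2) A) (x : τ → A)
    (htr : ∀ i, π (Sig i).trace = algebraMap O _ (2 * t i))
    (hdet_sig : ∀ i, (Sig i).det = 1)
    (hdet_phi : ∀ i, (Phi i).det = algebraMap O A (s i ^ 2))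
    (hnil_t : ∀ i, IsNilpotent (algebraMap O (RtprodQ π) (t i) - 1))
    (hnil_sig : ∀ i a b, IsNilpotent ((Sig i - 1) a b))
    (hnil_phi : ∀ i a b,
      IsNilpotent ((Phi i - algebraMap O A (s i) • (1 : Matrix (Fin 2) (Fin 2) A)) a b))
    (hnil_x : ∀ k, IsNilpotent (x k))
    (hgen : ∀ c ∈ E, ∃ u ∈ Algebra.adjoin O (rttwEntries Sig ∪ rttwEntries Phi ∪ Set.range x),
      π u = algebraMap Sn (Matrix (Fin d) (Fin d) Sn) c) :
    TWSideE E t s (rtprodJ π) (rtprodMat π Sig) (rtprodMat π Phi) (rtprodX π x) := by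
  refine ⟨?_, ?_, ?_, ?_, ?_, ?_, ?_⟩
  · intro i
    apply rtprodJ_injective π
    rw [rtprodMat_trace, rtprodJ_mk, htr, AlgHom.commutes]
  · intro i
    rw [rtprodMat_det, hdet_sig, map_one]
  · intro i
    rw [rtprodMat_det, hdet_phi]
    rfl
  · intro i a b
    have h1 : IsNilpotent (Ideal.Quotient.mk (RingHom.ker (π : A →+* Matrix (Fin d) (Fin d) Sn))
        ((Sig i - 1) a b)) := (hnil_sig i a b).map _
    by_cases hab : a = b
    · subst hab
      have e : (rtprodMat π Sig i - algebraMap O (RtprodQ π) (t i) •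
          (1 : Matrix (Fin 2) (Fin 2) (RtprodQ π))) a a =
          Ideal.Quotient.mk _ ((Sig i - 1) a a) - (algebraMap O (RtprodQ π) (t i) - 1) := by
        rw [Matrix.sub_apply, Matrix.smul_apply, Matrix.one_apply_eq, smul_eq_mul, mul_one,
          rtprodMat_apply, Matrix.sub_apply, Matrix.one_apply_eq, map_sub, map_one]
        ring
      rw [e]
      exact (Commute.all _ _).isNilpotent_sub h1 (hnil_t i)
    · have e : (rtprodMat π Sig i - algebraMap O (RtprodQ π) (t i) •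
          (1 : Matrix (Fin 2) (Fin 2) (RtprodQ π))) a b =
          Ideal.Quotient.mk _ ((Sig i - 1) a b) := by
        rw [Matrix.sub_apply, Matrix.smul_apply, Matrix.one_apply_ne hab, smul_zero, sub_zero,
          rtprodMat_apply, Matrix.sub_apply, Matrix.one_apply_ne hab, sub_zero]
      rw [e]
      exact h1
  · intro i a b
    have h1 : IsNilpotent (Ideal.Quotient.mk (RingHom.ker (π : A →+* Matrix (Fin d) (Fin d) Sn))
        ((Phi i - algebraMap O A (s i) • (1 : Matrix (Fin 2) (Fin 2) A)) a b)) :=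
      (hnil_phi i a b).map _
    have e : (rtprodMat π Phi i - algebraMap O (RtprodQ π) (s i) •
        (1 : Matrix (Fin 2) (Fin 2) (RtprodQ π))) a b =
        Ideal.Quotient.mk _
          ((Phi i - algebraMap O A (s i) • (1 : Matrix (Fin 2) (Fin 2) A)) a b) := by
      by_cases hab : a = b
      · subst hab
        rw [Matrix.sub_apply, Matrix.smul_apply, Matrix.one_apply_eq, smul_eq_mul, mul_one,
          rtprodMat_apply, Matrix.sub_apply, Matrix.smul_apply, Matrix.one_apply_eq, smul_eq_mul,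
          mul_one, map_sub]
        rfl
      · rw [Matrix.sub_apply, Matrix.smul_apply, Matrix.one_apply_ne hab, smul_zero, sub_zero,
          rtprodMat_apply, Matrix.sub_apply, Matrix.smul_apply, Matrix.one_apply_ne hab,
          smul_zero, sub_zero]
    rw [e]
    exact h1
  · intro k
    exact (hnil_x k).map _
  · intro c hc
    obtain ⟨u, hu, hπ⟩ := hgen c hc
    exact ⟨Ideal.Quotient.mk _ u, rtprod_mk_mem_adjoin π Sig Phi x hu, by rw [rtprodJ_mk, hπ]⟩

end Side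

section Datum

variable {O : Type*} [CommRing O] [IsDomain O] [IsLocalRing O] {ι τ : Type*}

/-- **PROD-asm, algebraic core.**  `q i = r i` in `O`, `p ∣ r i − 1`,
`ζ_i = tχ i + δ i` a `p`-th root of unity with `ζ_i ≠ ζ_i⁻¹ = tχ i − δ i`, `tχ i ≡ 1 mod λ`. -/
theorem rtprod_datumE (p : ℕ) (r : ι → ℕ) (q s tχ δ : ι → O) (lam : O)
    (hlam : lam ∈ maximalIdeal O)
    (hq : ∀ i, q i = (r i : O)) (hr : ∀ i, p ∣ r i - 1) (hr1 : ∀ i, 1 ≤ r i)
    (htδ : ∀ i, tχ i ^ 2 - δ i ^ 2 = 1) (hζ : ∀ i, (tχ i + δ i) ^ p = 1)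
    (hδ0 : ∀ i, 2 * δ i ≠ 0) (htχ : ∀ i, ∃ c, tχ i = 1 + lam * c)
    (m h d : ℕ) {T0 : Type*} [CommRing T0] [Algebra O T0]
    (j0 : T0 →ₐ[O] Matrix (Fin d) (Fin d) O)
    (Sig0 Phi0 : ι → Matrix (Fin 2) (Fin 2) T0) (n : ℕ)
    {A : Type*} [CommRing A] [Algebra O A]
    (π1 πχ : A →ₐ[O] Matrix (Fin d) (Fin d) (RttwS O m ⧸ maximalIdeal (RttwS O m) ^ n))
    (Sig Phi : ι → Matrix (Fin 2) (Fin 2) A) (x : τ → A)
    (H : TWPreE r s tχ lam m d j0 Sig0 Phi0 n (rttwEvenQ O m h n) π1 πχ Sig Phi x) :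
    TWDatumE q s tχ lam m h d j0 Sig0 Phi0 n
      (rtprodJ π1) (rtprodMat π1 Sig) (rtprodMat π1 Phi) (rtprodX π1 x)
      (rtprodJ πχ) (rtprodMat πχ Sig) (rtprodMat πχ Phi) (rtprodX πχ x) := by
  have hs1 : TWSideE (rttwEvenQ O m h n) (fun _ => (1 : O)) s (rtprodJ π1) (rtprodMat π1 Sig) (rtprodMat π1 Phi)
      (rtprodX π1 x) := by
    refine rtprod_sideE _ π1 _ s Sig Phi x (fun i => ?_) H.det_sig H.det_phi (fun i => ?_)
      H.nil_sig H.nil_phi H.nil_x H.gen1
    · rw [H.tr1, mul_one, map_ofNat]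
    · rw [map_one, sub_self]; exact IsNilpotent.zero
  have hsχ : TWSideE (rttwEvenQ O m h n) tχ s (rtprodJ πχ) (rtprodMat πχ Sig) (rtprodMat πχ Phi)
      (rtprodX πχ x) := by
    refine rtprod_sideE _ πχ _ s Sig Phi x H.trχ H.det_sig H.det_phi (fun i => ?_)
      H.nil_sig H.nil_phi H.nil_x H.genχ
    obtain ⟨c, hc⟩ := htχ i
    have hl : IsNilpotent (algebraMap O (RtprodQ πχ) lam) := by
      refine ⟨n, ?_⟩
      have e0 : rtprodJ πχ (algebraMap O (RtprodQ πχ) lam ^ n) = rtprodJ πχ 0 := by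
        rw [← map_pow, AlgHom.commutes, map_zero]
        exact rtprod_lam_pow_eq_zero hlam m d n
      exact rtprodJ_injective πχ e0
    have e : algebraMap O (RtprodQ πχ) (tχ i) - 1 =
        algebraMap O (RtprodQ πχ) lam * algebraMap O (RtprodQ πχ) c := by
      rw [hc, map_add, map_one, map_mul]; ring
    rw [e]
    exact (Commute.all _ _).isNilpotent_mul_right hl
  refine ⟨hs1, hsχ, ?_, ?_, ?_, ?_, ?_, ?_, ?_, ?_⟩
  · -- rel1
    intro i
    have htr : (rtprodMat π1 Sig i).trace = 2 := by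
      have := hs1.tr_sig i
      rwa [mul_one, map_ofNat] at this
    have hc : rtprodMat π1 Phi i * rtprodMat π1 Sig i =
        rtprodMat π1 Sig i ^ r i * rtprodMat π1 Phi i := by
      rw [rtprodMat_eq, rtprodMat_eq, ← map_mul, H.conj i, map_mul, map_pow]
    have := rtprod_rel1 _ _ htr (hs1.det_sig i) (r i) hc
    rw [this, hq i, map_natCast]
  · -- relχ
    intro i
    have hc : rtprodMat πχ Phi i * rtprodMat πχ Sig i =
        rtprodMat πχ Sig i ^ r i * rtprodMat πχ Phi i := by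
      rw [rtprodMat_eq, rtprodMat_eq, ← map_mul, H.conj i, map_mul, map_pow]
    refine rtprod_relchi (tχ i + δ i) (tχ i - δ i) p (r i) (hζ i) ?_ ?_ (hr i) (hr1 i) _ _ ?_
      (hsχ.det_sig i) hc
    · linear_combination htδ i
    · intro e
      apply hδ0 i
      linear_combination e
    · rw [hsχ.tr_sig i]
      congr 1
      ring
  · intro i a b
    exact H.cong (Sig i a b)
  · intro i a b
    exact H.cong (Phi i a b)
  · intro k
    exact H.cong (x k)
  · intro i a b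
    exact H.base_sig i a b
  · intro i a b
    exact H.base_phi i a b
  · intro u
    obtain ⟨a, rfl⟩ := Ideal.Quotient.mk_surjective u
    exact H.base_T0 a

end Datum

end Fermat.Agent.RT.Prod
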