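/-
K-machine, PROD-asm (helper70): framing and residual lemmas for `rtpa_pre` (RT/Prod/Asm.lean).
-/
import Fermat.Agent.RT.Prod.AsmPlan
import Fermat.Agent.RT.Prod.PreE
import Fermat.Agent.RT.K3.Alg
import Fermat.Agent.RT.K1.TameGenRep
import Fermat.Agent.TW.S.ConjPlaces
import Fermat.Agent.TW.L.FrobExists
import Fermat.Agent.S31.Cyclo

set_option autoImplicit false
set_option linter.style.haveILetI false

namespace Fermat.Agent.RT.Prod

open IsLocalRing Fermat.Agent.TW Fermat.Agent.RT Fermat.Agent.RT.K1 ExtCitation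
open scoped TensorProduct

/-! ### Framing: conjugation by `β` -/

section Framing

variable {A : Type*} [CommRing A] {β βi : Matrix (Fin 2) (Fin 2) A}

theorem rtpa_inv_mul (h : β * βi = 1) : βi * β = 1 :=
  (Matrix.mul_eq_one_comm_of_card_eq (Fin 2) (Fin 2) A rfl).mp h

theorem rtpa_fr_mul (h : β * βi = 1) (M N : Matrix (Fin 2) (Fin 2) A) :
    (βi * M * β) * (βi * N * β) = βi * (M * N) * β := by
  calc (βi * M * β) * (βi * N * β) = βi * M * (β * βi) * N * β := by
        simp only [Matrix.mul_assoc]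
    _ = βi * (M * N) * β := by rw [h, Matrix.mul_one]; simp only [Matrix.mul_assoc]

theorem rtpa_fr_one (h : β * βi = 1) : βi * (1 : Matrix (Fin 2) (Fin 2) A) * β = 1 := by
  rw [Matrix.mul_one, rtpa_inv_mul h]

theorem rtpa_fr_pow (h : β * βi = 1) (M : Matrix (Fin 2) (Fin 2) A) (k : ℕ) :
    (βi * M * β) ^ k = βi * M ^ k * β := by
  induction k with
  | zero => rw [pow_zero, pow_zero, rtpa_fr_one h]
  | succ k ih => rw [pow_succ, ih, rtpa_fr_mul h, pow_succ]

theorem rtpa_fr_det (h : β * βi = 1) (M : Matrix (Fin 2) (Fin 2) A) :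
    (βi * M * β).det = M.det := by
  have h1 : βi.det * β.det = 1 := by rw [← Matrix.det_mul, rtpa_inv_mul h, Matrix.det_one]
  rw [Matrix.det_mul, Matrix.det_mul]
  calc βi.det * M.det * β.det = (βi.det * β.det) * M.det := by ring
    _ = M.det := by rw [h1, one_mul]

theorem rtpa_fr_trace (h : β * βi = 1) (M : Matrix (Fin 2) (Fin 2) A) :
    (βi * M * β).trace = M.trace := by
  rw [Matrix.trace_mul_comm, ← Matrix.mul_assoc, h, Matrix.one_mul]

theorem rtpa_fr_sub_smul (h : β * βi = 1) (M : Matrix (Fin 2) (Fin 2) A) (c : A) :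
    βi * M * β - c • (1 : Matrix (Fin 2) (Fin 2) A) =
      βi * (M - c • (1 : Matrix (Fin 2) (Fin 2) A)) * β := by
  rw [Matrix.mul_sub, Matrix.sub_mul, Matrix.mul_smul, Matrix.smul_mul, rtpa_fr_one h]

/-- conjugation preserves "all entries in the ideal `I`" -/
theorem rtpa_fr_mem (I : Ideal A) (N : Matrix (Fin 2) (Fin 2) A) (hN : ∀ a c, N a c ∈ I)
    (X Y : Matrix (Fin 2) (Fin 2) A) (a c : Fin 2) : (X * N * Y) a c ∈ I := by
  rw [Matrix.mul_apply]
  refine Ideal.sum_mem _ fun k _ => ?_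
  refine Ideal.mul_mem_right _ _ ?_
  rw [Matrix.mul_apply]
  refine Ideal.sum_mem _ fun l _ => ?_
  exact Ideal.mul_mem_left _ _ (hN l k)

end Framing

/-! ### Residual scalars and entries -/

section Res

variable {A : Type} [CommRing A] [IsLocalRing A]

/-- the entries of `ρ(g) − z` are in `𝔪_A` if the residual representation is the scalar `z` -/
theorem rtpa_entries_mem (ρ : GaloisRepAdic A) (b : Module.Basis (Fin 2) A ρ.V) (g : RtpaG)
    (z : ℤ) (h : ρ.residual.ρ g = (z : Module.End (ResidueField A) ρ.residual.V))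
    (a c : Fin 2) :
    (LinearMap.toMatrix b b (ρ.ρ g) - (z : Matrix (Fin 2) (Fin 2) A)) a c ∈ maximalIdeal A := by
  have h1 := rtk3a_residue_mapMatrix ρ b g z h
  have h2 : (residue A).mapMatrix
      (LinearMap.toMatrix b b (ρ.ρ g) - (z : Matrix (Fin 2) (Fin 2) A)) = 0 := by
    rw [map_sub, h1, map_intCast, sub_self]
  have h3 := congrFun (congrFun h2 a) c
  rw [RingHom.mapMatrix_apply, Matrix.map_apply, Matrix.zero_apply] at h3
  exact (residue_eq_zero_iff _).mp h3

omit [IsLocalRing A] in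
/-- `f V ⊆ 𝔪 V` if the entries of the matrix of `f` are in `𝔪`. -/
theorem rtpa_mem_smul_top {V : Type} [AddCommGroup V] [Module A V]
    (b : Module.Basis (Fin 2) A V) (f : V →ₗ[A] V) (I : Ideal A)
    (h : ∀ a c, LinearMap.toMatrix b b f a c ∈ I) (v : V) :
    f v ∈ I • (⊤ : Submodule A V) := by
  have hb : ∀ j, f (b j) ∈ I • (⊤ : Submodule A V) := by
    intro j
    rw [← b.sum_repr (f (b j))]
    refine Submodule.sum_mem _ fun i _ => ?_
    have := h i j
    rw [LinearMap.toMatrix_apply] at this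
    exact Submodule.smul_mem_smul this Submodule.mem_top
  rw [← b.sum_repr v, map_sum]
  refine Submodule.sum_mem _ fun j _ => ?_
  rw [map_smul]
  exact Submodule.smul_mem _ _ (hb j)

/-- residually trivial ⇒ `(ρ(g) − 1) V ⊆ 𝔪 V` -/
theorem rtpa_resTriv (ρ : GaloisRepAdic A) (g : RtpaG)
    (h : ρ.residual.ρ g = 1) (v : ρ.V) :
    ρ.ρ g v - v ∈ maximalIdeal A • (⊤ : Submodule A ρ.V) := by
  obtain ⟨b⟩ : Nonempty (Module.Basis (Fin 2) A ρ.V) :=
    ⟨Module.finBasisOfFinrankEq A ρ.V ρ.finrank_eq⟩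
  have h' : ρ.residual.ρ g = ((1 : ℤ) : Module.End (ResidueField A) ρ.residual.V) := by
    rw [h, Int.cast_one]
  have key := rtpa_mem_smul_top b (ρ.ρ g - 1) (maximalIdeal A) (fun a c => by
    have := rtpa_entries_mem ρ b g 1 h' a c
    rw [Int.cast_one] at this
    have e : LinearMap.toMatrix b b (ρ.ρ g - 1) =
        LinearMap.toMatrix b b (ρ.ρ g) - 1 := by
      rw [map_sub]
      congr 1
      exact LinearMap.toMatrix_one b
    rw [e]
    exact this) v
  simpa using key

/-- base change along a local homomorphism preserves `(ρ(g) − 1) V ⊆ 𝔪 V` -/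
theorem rtpa_resTriv_baseChange {B : Type} [CommRing B] [IsLocalRing B] (q : A →+* B)
    (hq : IsLocalHom q) (ρ : GaloisRepAdic A) (g : RtpaG)
    (h : ∀ v : ρ.V, ρ.ρ g v - v ∈ maximalIdeal A • (⊤ : Submodule A ρ.V))
    (w : (ρ.baseChangeAlong q hq).V) :
    (ρ.baseChangeAlong q hq).ρ g w - w ∈
      maximalIdeal B • (⊤ : Submodule B (ρ.baseChangeAlong q hq).V) := by
  letI : Algebra A B := q.toAlgebra
  have hmap : ∀ a ∈ maximalIdeal A, q a ∈ maximalIdeal B := fun a ha =>
    (haveI := hq; map_nonunit q a ha)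
  have hpure : ∀ (c : B) (v : ρ.V),
      (ρ.ρ g).baseChange B (c ⊗ₜ[A] v) - c ⊗ₜ[A] v ∈
        maximalIdeal B • (⊤ : Submodule B (TensorProduct A B ρ.V)) := by
    intro c v
    rw [LinearMap.baseChange_tmul, ← TensorProduct.tmul_sub]
    refine Submodule.smul_induction_on (p := fun x => c ⊗ₜ[A] x ∈
      maximalIdeal B • (⊤ : Submodule B (TensorProduct A B ρ.V))) (h v) ?_ ?_
    · intro a ha x _
      rw [TensorProduct.tmul_smul, TensorProduct.smul_tmul', Algebra.smul_def, ← smul_eq_mul,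
        ← TensorProduct.smul_tmul']
      exact Submodule.smul_mem_smul (hmap a ha) Submodule.mem_top
    · intro x y hx hy
      rw [TensorProduct.tmul_add]
      exact Submodule.add_mem _ hx hy
  have hall : ∀ w : TensorProduct A B ρ.V, (ρ.ρ g).baseChange B w - w ∈
      maximalIdeal B • (⊤ : Submodule B (TensorProduct A B ρ.V)) := by
    intro w
    induction w using TensorProduct.induction_on with
    | zero => simp
    | tmul c v => exact hpure c v
    | add x y hx hy =>
      rw [map_add, add_sub_add_comm]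
      exact Submodule.add_mem _ hx hy
  exact hall w

end Res

end Fermat.Agent.RT.Prod
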