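/-
K-machine, PROD-asm (helper70): **`rtpa_pre` : `TWGal` + LOC-gen + K3-Alg ⇒ `∃ x, TWPreE`**.

Input: the Galois-side datum `TWGal` of `RT/Prod/AsmPlan.lean` (delivered by the Hecke side at
level `n` for the Taylor–Wiles set `Q`), the LOC-gen generators `σ_i`, `φ_i` at the trivial primes
`r_i` (`IsLocGenAt`), the hypotheses `TWHyp`, `IsTrivSet` of K3 and the tangent bound
`TwTanCard (rtk3Flat …) |k|^g` of K3-Sel.
Output: `x : Fin (g + 4|T|) → A` with `TWPreE` for `Σ_i = β⁻¹ ρ(σ_i) β`, `Φ_i = β⁻¹ ρ(φ_i) β`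
(`rtpaFr`); then `rtprod_datumE` (`RT/Prod/PreE.lean`) gives the `TWDatumE`.

Steps: determinants from `DetIsCyclotomic` (`A` finite: `p^n = 0`), nilpotency from the residual
values (`ρ̄(σ_i) = 1`, `ρ̄(φ_i) = ±1 ≡ s_i`), the relation `Φ Σ = Σ^r Φ` from LOC-gen (tameness:
`K1.rtk1w_isTameP_artinian`), generation from `rtk3a_main_gen` with `Dr r = {σ_i, φ_i}`
(its hypothesis `hDr2`: a deformation to `k[ε]` which is `±1` at `σ_i`, `φ_i` is `±1` on all
decomposition groups over `r_i` — LOC-gen normal form + conjugacy of the places).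
-/
import Fermat.Agent.RT.Prod.AsmFr

set_option autoImplicit false
set_option linter.style.haveILetI false

namespace Fermat.Agent.RT.Prod

open IsLocalRing Fermat.Agent.TW Fermat.Agent.RT Fermat.Agent.RT.K1 ExtCitation
open scoped TensorProduct Pointwise

/-! ### Determinants -/

section Det

variable {A : Type} [CommRing A] [IsLocalRing A] [Finite A]

/-- over a finite local ring the determinant of a representation with cyclotomic determinant is
determined by the action on the `p`-power roots of unity -/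
theorem rtpa_det_eq (p : ℕ) (ρ : GaloisRepAdic A) (hdet : ρ.DetIsCyclotomic p) (g : RtpaG)
    (a : ℕ) (h : ∀ (n : ℕ) (μ : AlgebraicClosure ℚ), μ ^ p ^ n = 1 → g μ = μ ^ a) :
    LinearMap.det (ρ.ρ g) = (a : A) := by
  obtain ⟨n, hn⟩ := rtk3a_exists_pow_eq_bot A
  have h1 := hdet.2 n g a (h n)
  have h2 : ((p ^ n : ℕ) : A) = 0 := by
    have h3 : ((p ^ n : ℕ) : A) ∈ maximalIdeal A ^ n := by
      rw [Nat.cast_pow]
      exact Ideal.pow_mem_pow hdet.1 n
    rw [hn] at h3
    exact h3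
  rw [h2, Ideal.span_singleton_eq_bot.mpr rfl] at h1
  exact sub_eq_zero.mp h1

theorem rtpa_det_inertia (p r : ℕ) [hp : Fact p.Prime] [hr : Fact r.Prime] (hrp : r ≠ p)
    (ρ : GaloisRepAdic A) (hdet : ρ.DetIsCyclotomic p) (g : RtpaG)
    (hg : g ∈ (padicPlace r).inertiaSubgroupIn ℚ) :
    LinearMap.det (ρ.ρ g) = 1 := by
  have := rtpa_det_eq p ρ hdet g 1 (fun n _ hμ => by
    rw [pow_one]
    exact Fermat.Agent.S31.inertia_rootOfUnity (padicPlace r)
      (Fermat.Agent.S31.natCast_pow_not_mem_nonunits (padicPlace r) hp.out hr.out hrp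
        (Fermat.Agent.TW.L.lfrobex_liesOverPrime r) n)
      (pow_ne_zero n hp.out.ne_zero) hg hμ)
  rw [this, Nat.cast_one]

theorem rtpa_det_frob (p r : ℕ) [hp : Fact p.Prime] [hr : Fact r.Prime] (hrp : r ≠ p)
    (ρ : GaloisRepAdic A) (hdet : ρ.DetIsCyclotomic p) (g : RtpaG)
    (hg : (padicPlace r).IsFrobeniusAt g r) :
    LinearMap.det (ρ.ρ g) = (r : A) :=
  rtpa_det_eq p ρ hdet g r (fun n _ hμ =>
    Fermat.Agent.S31.frob_rootOfUnity (padicPlace r)
      (Fermat.Agent.S31.natCast_pow_not_mem_nonunits (padicPlace r) hp.out hr.out hrp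
        (Fermat.Agent.TW.L.lfrobex_liesOverPrime r) n)
      (pow_ne_zero n hp.out.ne_zero) hg hμ)

omit [Finite A] [IsLocalRing A] in
theorem rtpa_fr_det' {V : Type} [AddCommGroup V] [Module A V] (b : Module.Basis (Fin 2) A V)
    {β βi : Matrix (Fin 2) (Fin 2) A} (h : β * βi = 1) (f : V →ₗ[A] V) :
    (βi * LinearMap.toMatrix b b f * β).det = LinearMap.det f := by
  rw [rtpa_fr_det h, LinearMap.det_toMatrix]

omit [Finite A] [IsLocalRing A] in
theorem rtpa_fr_trace' {V : Type} [AddCommGroup V] [Module A V] (b : Module.Basis (Fin 2) A V)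
    {β βi : Matrix (Fin 2) (Fin 2) A} (h : β * βi = 1) (f : V →ₗ[A] V) :
    (βi * LinearMap.toMatrix b b f * β).trace = LinearMap.trace A V f := by
  rw [rtpa_fr_trace h, LinearMap.trace_eq_matrix_trace A b f]

/-- elements of the maximal ideal of a finite local ring are nilpotent -/
theorem rtpa_isNilpotent {x : A} (hx : x ∈ maximalIdeal A) : IsNilpotent x := by
  obtain ⟨n, hn⟩ := rtk3a_exists_pow_eq_bot A
  refine ⟨n, ?_⟩
  have := Ideal.pow_mem_pow hx n
  rw [hn] at this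
  exact this

end Det

/-! ### `±1` on all decomposition groups from the generators -/

section Triv

variable {M : Type} [Ring M]

theorem rtpa_pm_pow {x : M} (h : x = 1 ∨ x = -1) (n : ℕ) : x ^ n = 1 ∨ x ^ n = -1 := by
  rcases h with rfl | rfl
  · left; rw [one_pow]
  · rcases Nat.even_or_odd n with hn | hn
    · left; exact hn.neg_one_pow
    · right; exact hn.neg_one_pow

theorem rtpa_pm_mul {x y : M} (hx : x = 1 ∨ x = -1) (hy : y = 1 ∨ y = -1) :
    x * y = 1 ∨ x * y = -1 := by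
  rcases hx with rfl | rfl <;> rcases hy with rfl | rfl
  · left; rw [one_mul]
  · right; rw [one_mul]
  · right; rw [mul_one]
  · left; rw [neg_mul_neg, one_mul]

/-- conjugation of decomposition groups -/
theorem rtpa_conj_mem_decomp (P : ValuationSubring (AlgebraicClosure ℚ)) (g τ : RtpaG)
    (hτ : τ ∈ (g • P).decompositionSubgroup ℚ) :
    g⁻¹ * τ * g ∈ P.decompositionSubgroup ℚ := by
  have h1 : τ • (g • P) = g • P := hτ
  show (g⁻¹ * τ * g) • P = P
  rw [mul_smul, mul_smul, h1, inv_smul_smul]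

/-- **`±1` on the decomposition group of one place ⇒ `±1` on all of them.** -/
theorem rtpa_trivAt_of_place (h : RtpaG →* M) (r : ℕ) (hr : r.Prime)
    (P0 : ValuationSubring (AlgebraicClosure ℚ)) (hP0 : P0.LiesOverPrime r)
    (h0 : ∀ τ ∈ P0.decompositionSubgroup ℚ, h τ = 1 ∨ h τ = -1)
    (P : ValuationSubring (AlgebraicClosure ℚ)) (hP : P.LiesOverPrime r)
    (τ : RtpaG) (hτ : τ ∈ P.decompositionSubgroup ℚ) : h τ = 1 ∨ h τ = -1 := by
  obtain ⟨g, hg⟩ := Fermat.Agent.TW.S.sconjp_exists_smul_eq r hr P0 P hP0 hP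
  rw [← hg] at hτ
  have h1 := h0 _ (rtpa_conj_mem_decomp P0 g τ hτ)
  have e : h τ = h g * h (g⁻¹ * τ * g) * h g⁻¹ := by
    rw [← map_mul, ← map_mul]
    congr 1
    group
  have e1 : h g * h g⁻¹ = 1 := by rw [← map_mul, mul_inv_cancel, map_one]
  rcases h1 with h1 | h1
  · left
    rw [e, h1, mul_one, e1]
  · right
    rw [e, h1, mul_neg, mul_one, neg_mul, e1]

/-- **`±1` at the two generators ⇒ `±1` on all decomposition groups over `r`.** -/
theorem rtpa_trivAt_of_gen (p r : ℕ) [hr : Fact r.Prime] (σ φ : RtpaG)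
    (hloc : IsLocGenAt p r σ φ) (h : RtpaG →* M) (htame : IsTameP r p h)
    (hσ : h σ = 1 ∨ h σ = -1) (hφ : h φ = 1 ∨ h φ = -1)
    (P : ValuationSubring (AlgebraicClosure ℚ)) (hP : P.LiesOverPrime r)
    (τ : RtpaG) (hτ : τ ∈ P.decompositionSubgroup ℚ) : h τ = 1 ∨ h τ = -1 := by
  refine rtpa_trivAt_of_place h r hr.out (padicPlace r)
    (Fermat.Agent.TW.L.lfrobex_liesOverPrime r) (fun τ' hτ' => ?_) P hP τ hτ
  obtain ⟨m, n, hmn⟩ := (hloc.univ M h htame).2.1 τ' hτ'
  rw [hmn]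
  exact rtpa_pm_mul (rtpa_pm_pow hσ m) (rtpa_pm_pow hφ n)

end Triv

/-! ### Nilpotent entries, the relation -/

section Nil

variable {A : Type} [CommRing A] [IsLocalRing A] [Finite A]

theorem rtpa_nil_entries (ρ : GaloisRepAdic A) (b : Module.Basis (Fin 2) A ρ.V)
    {β βi : Matrix (Fin 2) (Fin 2) A} (hβ : β * βi = 1) (g : RtpaG) (z : ℤ) (c : A)
    (hc : c - (z : A) ∈ maximalIdeal A)
    (h : ρ.residual.ρ g = (z : Module.End (ResidueField A) ρ.residual.V)) (a d : Fin 2) :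
    IsNilpotent ((βi * LinearMap.toMatrix b b (ρ.ρ g) * β -
      c • (1 : Matrix (Fin 2) (Fin 2) A)) a d) := by
  rw [rtpa_fr_sub_smul hβ]
  refine rtpa_isNilpotent (rtpa_fr_mem (maximalIdeal A) _ (fun a' c' => ?_) βi β a d)
  have h1 := rtpa_entries_mem ρ b g z h a' c'
  have e : (LinearMap.toMatrix b b (ρ.ρ g) - c • (1 : Matrix (Fin 2) (Fin 2) A)) a' c' =
      (LinearMap.toMatrix b b (ρ.ρ g) - (z : Matrix (Fin 2) (Fin 2) A)) a' c' -
        (c - (z : A)) * (1 : Matrix (Fin 2) (Fin 2) A) a' c' := by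
    have hz : (z : Matrix (Fin 2) (Fin 2) A) a' c' = (z : A) * (1 : Matrix (Fin 2) (Fin 2) A) a' c' := by
      by_cases hac : a' = c'
      · subst hac
        rw [Matrix.one_apply_eq, mul_one]
        exact Matrix.diagonal_apply_eq _ _
      · rw [Matrix.one_apply_ne hac, mul_zero]
        exact Matrix.diagonal_apply_ne _ hac
    rw [Matrix.sub_apply, Matrix.sub_apply, Matrix.smul_apply, smul_eq_mul, hz]
    ring
  rw [e]
  exact Ideal.sub_mem _ h1 (Ideal.mul_mem_right _ _ hc)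

omit [Finite A] [IsLocalRing A] in
/-- the relation `Φ Σ = Σ^r Φ` in framed matrix form -/
theorem rtpa_conj {V : Type} [AddCommGroup V] [Module A V] (b : Module.Basis (Fin 2) A V)
    {β βi : Matrix (Fin 2) (Fin 2) A} (hβ : β * βi = 1) (f g : V →ₗ[A] V) (r : ℕ)
    (h : g * f = f ^ r * g) :
    (βi * LinearMap.toMatrix b b g * β) * (βi * LinearMap.toMatrix b b f * β) =
      (βi * LinearMap.toMatrix b b f * β) ^ r * (βi * LinearMap.toMatrix b b g * β) := by
  rw [rtpa_fr_pow hβ, rtpa_fr_mul hβ, rtpa_fr_mul hβ, ← LinearMap.toMatrix_mul, h,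
    LinearMap.toMatrix_mul, LinearMap.toMatrix_pow]

end Nil

/-! ### The main theorem -/

section Main

variable {O : Type} [CommRing O] [IsDomain O] [IsDiscreteValuationRing O]
  [IsAdicComplete (maximalIdeal O) O] [Finite (ResidueField O)]
  {ι : Type} [Fintype ι]

/-- **PROD-asm**: the Galois-side datum `TWGal` (Hecke side) + LOC-gen + K3-Alg give the
algebraic datum `TWPreE`: the framed local matrices `Σ_i = β⁻¹ ρ(σ_i) β`, `Φ_i = β⁻¹ ρ(φ_i) β`
and `g + 4|T|` further generators `x` in the maximal ideal. -/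
theorem rtpa_pre (p : ℕ) [Fact p.Prime] (ρbar : ResidualGaloisRep (ResidueField O))
    (S Smin Q : Finset ℕ) (r : ι → ℕ) (σ φ : ι → RtpaG) (s tχ : ι → O) (lam : O) (m d : ℕ)
    {T0 : Type} [CommRing T0] [Algebra O T0] (j0 : T0 →ₐ[O] Matrix (Fin d) (Fin d) O)
    (Sig0 Phi0 : ι → Matrix (Fin 2) (Fin 2) T0) (n : ℕ)
    (E : Set (RttwS O m ⧸ maximalIdeal (RttwS O m) ^ n))
    {A : Type} [CommRing A] [IsLocalRing A] [Algebra O A]
    (ιA : ResidueField O →+* ResidueField A)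
    (ρ : GaloisRepAdic A) (b : Module.Basis (Fin 2) A ρ.V)
    (β βi : ℕ → Matrix (Fin 2) (Fin 2) A)
    (π1 πχ : A →ₐ[O] Matrix (Fin d) (Fin d) (RttwS O m ⧸ maximalIdeal (RttwS O m) ^ n))
    (hyp : TWHyp O p ρbar S Smin) (hT : IsTrivSet p ρbar Smin (Finset.univ.image r))
    (g : ℕ) (hcard : TwTanCard O ρbar (rtk3Flat O p Smin Q (Finset.univ.image r))
      (Nat.card (ResidueField O) ^ g))
    (hloc : ∀ i, ∀ [Fact (r i).Prime], IsLocGenAt p (r i) (σ i) (φ i))
    (hs2 : ∀ i, s i ^ 2 = (r i : O))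
    (hs : ∀ i, (ρbar.ρ (φ i) = 1 ∧ s i - 1 ∈ maximalIdeal O) ∨
      (ρbar.ρ (φ i) = -1 ∧ s i + 1 ∈ maximalIdeal O))
    (H : TWGal p ρbar Smin Q r σ φ tχ lam m d j0 Sig0 Phi0 n E ιA ρ b β βi π1 πχ) :
    ∃ x : Fin (g + 4 * (Finset.univ.image r).card) → A,
      TWPreE r s tχ lam m d j0 Sig0 Phi0 n E π1 πχ
        (fun i => rtpaFr ρ b β βi (r i) (σ i)) (fun i => rtpaFr ρ b β βi (r i) (φ i)) x := by
  classical
  haveI := H.finite
  have hmem : ∀ i, r i ∈ Finset.univ.image r := fun i =>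
    Finset.mem_image_of_mem r (Finset.mem_univ i)
  have hprime : ∀ i, (r i).Prime := fun i => (hT (r i) (hmem i)).1
  haveI hfact : ∀ i, Fact (r i).Prime := fun i => ⟨hprime i⟩
  have hrp : ∀ i, r i ≠ p := by
    intro i hi
    have h1 := (hT (r i) (hmem i)).2.2.1
    have h2 := (hprime i).two_le
    rw [hi] at h1 h2
    have h3 := Nat.le_of_dvd (by omega) h1
    omega
  have hβ : ∀ i, β (r i) * βi (r i) = 1 := fun i => (H.framing (r i) (hmem i)).1
  have hdetc : ρ.DetIsCyclotomic p := H.flat.1.1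
  have hpA : (p : A) ∈ maximalIdeal A := hdetc.1
  have hlocmap : ∀ a ∈ maximalIdeal O, algebraMap O A a ∈ maximalIdeal A := fun a ha =>
    (haveI := H.resAlg.1; map_nonunit (algebraMap O A) a ha)
  -- residual values
  have hunr : ∀ i, ρbar.IsUnramifiedAt (r i) := by
    intro i
    by_contra h
    exact (hT _ (hmem i)).2.1 ((hyp.hmin (r i) (hprime i) (hrp i)).mpr h)
  have hresI : ∀ i, ∀ τ ∈ (padicPlace (r i)).inertiaSubgroupIn ℚ, ρ.residual.ρ τ = 1 := by
    intro i τ hτ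
    have h1 : ρbar.ρ τ = ((1 : ℤ) : Module.End (ResidueField O) ρbar.V) := by
      rw [Int.cast_one]
      exact hunr i (padicPlace (r i)) (Fermat.Agent.TW.L.lfrobex_liesOverPrime (r i)) τ hτ
    have h2 := rtk3a_residual_intCast ιA ρbar ρ.residual H.res τ 1 h1
    rw [h2, Int.cast_one]
  have hσI : ∀ i, σ i ∈ (padicPlace (r i)).inertiaSubgroupIn ℚ := fun i =>
    (hloc i).inertia
  have hresσ : ∀ i, ρ.residual.ρ (σ i) =
      ((1 : ℤ) : Module.End (ResidueField A) ρ.residual.V) := by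
    intro i
    rw [hresI i (σ i) (hσI i), Int.cast_one]
  have hresφ : ∀ i, ∃ z : ℤ, ρ.residual.ρ (φ i) =
      (z : Module.End (ResidueField A) ρ.residual.V) ∧
      algebraMap O A (s i) - (z : A) ∈ maximalIdeal A := by
    intro i
    rcases hs i with ⟨h1, h2⟩ | ⟨h1, h2⟩
    · refine ⟨1, rtk3a_residual_intCast ιA ρbar ρ.residual H.res (φ i) 1 ?_, ?_⟩
      · rw [h1, Int.cast_one]
      · have := hlocmap _ h2
        rwa [map_sub, map_one, ← Int.cast_one (R := A)] at this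
    · refine ⟨-1, rtk3a_residual_intCast ιA ρbar ρ.residual H.res (φ i) (-1) ?_, ?_⟩
      · rw [h1, Int.cast_neg, Int.cast_one]
      · have := hlocmap _ h2
        rw [map_add, map_one] at this
        rw [Int.cast_neg, Int.cast_one, sub_neg_eq_add]
        exact this
  -- tameness of `ρ`
  have htame : ∀ i, IsTameP (r i) p ρ.ρ := by
    intro i
    exact rtk1w_isTameP_artinian (r i) p hpA ρ
      (fun τ hτ v => rtpa_resTriv ρ τ (hresI i τ hτ) v)
  -- K3-Alg
  obtain ⟨x, hx, hadj⟩ := rtk3a_main_gen p ρbar S Smin (Finset.univ.image r) Q hyp hT g hcard A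
    H.resAlg ιA H.hιA ρ H.flat H.res b β βi H.framing
    (fun ℓ => {g | ∃ i, r i = ℓ ∧ (g = σ i ∨ g = φ i)})
    (by
      rintro ℓ - g ⟨i, -, rfl | rfl⟩
      · left
        exact hunr i (padicPlace (r i)) (Fermat.Agent.TW.L.lfrobex_liesOverPrime (r i)) _
          (hσI i)
      · rcases hs i with ⟨h1, -⟩ | ⟨h1, -⟩
        · exact Or.inl h1
        · exact Or.inr h1)
    (by
      intro ℓ hℓ q hq hg P hP τ hτ
      obtain ⟨i, -, rfl⟩ := Finset.mem_image.mp hℓ
      haveI : Finite (DualNumber (ResidueField O)) :=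
        Fermat.Agent.S53.tangent_finite_dualNumber _
      have hpB : (p : DualNumber (ResidueField O)) ∈
          maximalIdeal (DualNumber (ResidueField O)) := by
        have := (haveI := hq; map_nonunit q (p : A) hpA)
        rwa [map_natCast] at this
      have htame' : IsTameP (r i) p (ρ.baseChangeAlong q hq).ρ :=
        rtk1w_isTameP_artinian (r i) p hpB _ (fun τ' hτ' w =>
          rtpa_resTriv_baseChange q hq ρ τ' (rtpa_resTriv ρ τ' (hresI i τ' hτ')) w)
      exact rtpa_trivAt_of_gen p (r i) (σ i) (φ i) (hloc i) _ htame'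
        (hg _ ⟨i, rfl, Or.inl rfl⟩) (hg _ ⟨i, rfl, Or.inr rfl⟩) P hP τ hτ)
    H.gen
  have hsub : rtk3aEntries ρ b (Finset.univ.image r) β βi
      (fun ℓ => {g | ∃ i, r i = ℓ ∧ (g = σ i ∨ g = φ i)}) ⊆
      rttwEntries (fun i => rtpaFr ρ b β βi (r i) (σ i)) ∪
        rttwEntries (fun i => rtpaFr ρ b β βi (r i) (φ i)) := by
    rintro y ⟨ℓ, -, g, ⟨i, rfl, rfl | rfl⟩, a, c, rfl⟩
    · exact Or.inl ⟨i, a, c, rfl⟩
    · exact Or.inr ⟨i, a, c, rfl⟩
  have htop : Algebra.adjoin O (rttwEntries (fun i => rtpaFr ρ b β βi (r i) (σ i)) ∪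
      rttwEntries (fun i => rtpaFr ρ b β βi (r i) (φ i)) ∪ Set.range x) = ⊤ := by
    refine top_le_iff.mp ?_
    rw [← hadj]
    exact Algebra.adjoin_mono (Set.union_subset_union_left _ hsub)
  refine ⟨x, ?_⟩
  refine
    { tr1 := fun i => ?_
      trχ := fun i => ?_
      det_sig := fun i => ?_
      det_phi := fun i => ?_
      nil_sig := fun i a c => ?_
      nil_phi := fun i a c => ?_
      nil_x := fun k => rtpa_isNilpotent (hx k)
      conj := fun i => ?_
      gen1 := fun c hc => ?_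
      genχ := fun c hc => ?_
      cong := H.cong
      base_sig := H.base_sig
      base_phi := H.base_phi
      base_T0 := H.base_T0 }
  · show π1 (βi (r i) * LinearMap.toMatrix b b (ρ.ρ (σ i)) * β (r i)).trace = 2
    rw [rtpa_fr_trace' b (hβ i)]
    exact H.tr1 i
  · show πχ (βi (r i) * LinearMap.toMatrix b b (ρ.ρ (σ i)) * β (r i)).trace = _
    rw [rtpa_fr_trace' b (hβ i)]
    exact H.trχ i
  · show (βi (r i) * LinearMap.toMatrix b b (ρ.ρ (σ i)) * β (r i)).det = 1
    rw [rtpa_fr_det' b (hβ i)]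
    exact rtpa_det_inertia p (r i) (hrp i) ρ hdetc (σ i) (hσI i)
  · show (βi (r i) * LinearMap.toMatrix b b (ρ.ρ (φ i)) * β (r i)).det = _
    rw [rtpa_fr_det' b (hβ i), rtpa_det_frob p (r i) (hrp i) ρ hdetc (φ i) (hloc i).frob, hs2,
      map_natCast]
  · have h1 := rtpa_nil_entries ρ b (hβ i) (σ i) 1 1 (by rw [Int.cast_one, sub_self]; exact zero_mem _)
      (hresσ i) a c
    rw [one_smul] at h1
    exact h1
  · obtain ⟨z, hz1, hz2⟩ := hresφ i
    exact rtpa_nil_entries ρ b (hβ i) (φ i) z _ hz2 hz1 a c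
  · exact rtpa_conj b (hβ i) _ _ (r i) ((hloc i).univ _ ρ.ρ (htame i)).2.2
  · obtain ⟨u, hu⟩ := H.scal1 c hc
    exact ⟨u, by rw [htop]; exact Algebra.mem_top, hu⟩
  · obtain ⟨u, hu⟩ := H.scalχ c hc
    exact ⟨u, by rw [htop]; exact Algebra.mem_top, hu⟩

end Main

end Fermat.Agent.RT.Prod
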