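/-
K-machine, PROD (helper27, sub-lemma of helper70's PROD-asm): PROD-unram.

From "`ρ(σ_r) ≡ 1 mod 𝔓`" (the output of `stmtOutTWE`, for the fixed LOC-gen generator `σ_r` of
the inertia at `padicPlace r`) to the `hunr` input of helper46's adapter `rtint_point_of_quot`
(`RT/Interp/Quot.lean`): for every `n`, the inertia groups at ALL places over `r` act trivially
modulo `𝔓 + 𝔪 ^ n`.

* `rtpuQ ρ I`        : the action of `G_ℚ` on `V ⧸ I V` (a monoid homomorphism to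
                       `Module.End T (V ⧸ I V)`);
* `rtpu_resTriv`     : `ρ.residual.ρ g = 1 ⇒ (ρ g − 1) V ⊆ 𝔪 V`;
* `rtpu_isTameP`     : `rtpuQ ρ I` satisfies `K1.IsTameP r p` when `𝔪 ^ n ≤ I`, `p ∈ 𝔪` and `ρ` is
                       residually trivial on the inertia group at `padicPlace r`;
* `rtpu_hunr`        : **PROD-unram**;
* `rtpu_fourth`, `rtpu_all_entries` : the fourth entry of `Σ − 1` lies in the prime `𝔓` if the
                       other three do and `det Σ = 1`.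
No base change to `T ⧸ (𝔓 + 𝔪 ^ n)` is needed: the quotient MODULE `V ⧸ I V` does the job.
-/
import Fermat.Agent.RT.Prod.AsmPlan
import Fermat.Agent.RT.K1.TameGenRep
import Fermat.Agent.TW.S.ConjPlaces

set_option autoImplicit false
set_option linter.unusedSectionVars false
set_option linter.style.haveILetI false

namespace Fermat.Agent.RT.Prod

open IsLocalRing Fermat.Agent.RT.K1 ExtCitation
open scoped TensorProduct Pointwise

section Quot

variable {A : Type*} [CommRing A] {V : Type*} [AddCommGroup V] [Module A V]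

/-- a linear map preserves `I V` -/
theorem rtpu_map_mem (I : Ideal A) (f : V →ₗ[A] V) {x : V}
    (hx : x ∈ (I • ⊤ : Submodule A V)) : f x ∈ (I • ⊤ : Submodule A V) := by
  induction hx using Submodule.smul_induction_on' with
  | smul a ha w _ =>
    rw [map_smul]
    exact Submodule.smul_mem_smul ha Submodule.mem_top
  | add x _ y _ hx hy =>
    rw [map_add]
    exact Submodule.add_mem _ hx hy

/-- the endomorphism of `V ⧸ I V` induced by an endomorphism of `V` -/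
noncomputable def rtpuQEnd (I : Ideal A) (f : V →ₗ[A] V) :
    Module.End A (V ⧸ (I • ⊤ : Submodule A V)) :=
  (I • ⊤ : Submodule A V).mapQ (I • ⊤) f fun _ hx => rtpu_map_mem I f hx

theorem rtpuQEnd_mk (I : Ideal A) (f : V →ₗ[A] V) (v : V) :
    rtpuQEnd I f (Submodule.Quotient.mk v) = Submodule.Quotient.mk (f v) := rfl

theorem rtpuQEnd_one (I : Ideal A) : rtpuQEnd I (1 : Module.End A V) = 1 := by
  apply LinearMap.ext
  intro x
  obtain ⟨v, rfl⟩ := Submodule.Quotient.mk_surjective _ x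
  rfl

theorem rtpuQEnd_mul (I : Ideal A) (f g : Module.End A V) :
    rtpuQEnd I (f * g) = rtpuQEnd I f * rtpuQEnd I g := by
  apply LinearMap.ext
  intro x
  obtain ⟨v, rfl⟩ := Submodule.Quotient.mk_surjective _ x
  rfl

theorem rtpuQEnd_eq_one_iff (I : Ideal A) (f : Module.End A V) :
    rtpuQEnd I f = 1 ↔ ∀ v : V, f v - v ∈ (I • ⊤ : Submodule A V) := by
  constructor
  · intro h v
    have := LinearMap.congr_fun h (Submodule.Quotient.mk v)
    rw [rtpuQEnd_mk, Module.End.one_apply] at this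
    exact (Submodule.Quotient.eq _).mp this
  · intro h
    apply LinearMap.ext
    intro x
    obtain ⟨v, rfl⟩ := Submodule.Quotient.mk_surjective _ x
    rw [rtpuQEnd_mk, Module.End.one_apply]
    exact (Submodule.Quotient.eq _).mpr (h v)

/-- an endomorphism whose matrix has entries in `I` maps `V` into `I V` -/
theorem rtpu_mem_of_entries {κ : Type*} [Fintype κ] [DecidableEq κ] (b : Module.Basis κ A V)
    (I : Ideal A) (f : Module.End A V) (hf : ∀ a c, LinearMap.toMatrix b b f a c ∈ I) (v : V) :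
    f v ∈ (I • ⊤ : Submodule A V) := by
  rw [← b.sum_repr (f v)]
  refine Submodule.sum_mem _ fun a _ => Submodule.smul_mem_smul ?_ Submodule.mem_top
  rw [← LinearMap.toMatrix_mulVec_repr b b f v, Matrix.mulVec, dotProduct]
  exact Ideal.sum_mem _ fun c _ => Ideal.mul_mem_right _ _ (hf a c)

end Quot

section Rep

variable {T : Type} [CommRing T] [IsLocalRing T]

/-- The action of `G_ℚ` on `V ⧸ I V`. -/
noncomputable def rtpuQ (ρ : GaloisRepAdic T) (I : Ideal T) :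
    RtpaG →* Module.End T (ρ.V ⧸ (I • ⊤ : Submodule T ρ.V)) where
  toFun g := rtpuQEnd I (ρ.ρ g)
  map_one' := by rw [map_one, rtpuQEnd_one]
  map_mul' g g' := by rw [map_mul, rtpuQEnd_mul]

theorem rtpuQ_apply (ρ : GaloisRepAdic T) (I : Ideal T) (g : RtpaG) :
    rtpuQ ρ I g = rtpuQEnd I (ρ.ρ g) := rfl

theorem rtpuQ_eq_one_iff (ρ : GaloisRepAdic T) (I : Ideal T) (g : RtpaG) :
    rtpuQ ρ I g = 1 ↔ ∀ v : ρ.V, ρ.ρ g v - v ∈ (I • ⊤ : Submodule T ρ.V) :=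
  rtpuQEnd_eq_one_iff I (ρ.ρ g)

/-- residual triviality: `ρ.residual.ρ g = 1 ⇒ (ρ g − 1) V ⊆ 𝔪 V` -/
theorem rtpu_resTriv (ρ : GaloisRepAdic T) (g : RtpaG) (h : ρ.residual.ρ g = 1) (v : ρ.V) :
    ρ.ρ g v - v ∈ (maximalIdeal T • ⊤ : Submodule T ρ.V) := by
  have h1 : (ρ.ρ g).baseChange (ResidueField T) ((1 : ResidueField T) ⊗ₜ[T] v) =
      (1 : ResidueField T) ⊗ₜ[T] v := LinearMap.congr_fun h _
  rw [LinearMap.baseChange_tmul] at h1
  have h2 : (1 : T ⧸ maximalIdeal T) ⊗ₜ[T] (ρ.ρ g v - v) = 0 := by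
    rw [TensorProduct.tmul_sub]
    exact sub_eq_zero.mpr h1
  have h3 := congrArg (TensorProduct.quotTensorEquivQuotSMul ρ.V (maximalIdeal T)) h2
  rw [TensorProduct.quotTensorEquivQuotSMul_mk_one_tmul, map_zero] at h3
  exact (Submodule.Quotient.mk_eq_zero _).mp h3

/-- **Tameness of the action on `V ⧸ I V`**, `𝔪 ^ n ≤ I`. -/
theorem rtpu_isTameP (r p : ℕ) [Fact r.Prime] (hpT : (p : T) ∈ maximalIdeal T)
    (ρ : GaloisRepAdic T)
    (hres : ∀ τ ∈ (padicPlace r).inertiaSubgroupIn ℚ, ρ.residual.ρ τ = 1)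
    (I : Ideal T) (n : ℕ) (hI : maximalIdeal T ^ n ≤ I) : IsTameP r p (rtpuQ ρ I) := by
  refine ⟨?_, ?_⟩
  · obtain ⟨L, hL, hLρ⟩ := ρ.isAdicContinuous n
    refine ⟨L, hL, fun g hg => ?_⟩
    rw [rtpuQ_eq_one_iff]
    intro v
    exact Submodule.smul_mono_left hI (hLρ g hg v)
  · intro τ hτ
    refine ⟨n, ?_⟩
    have h1 : ρ.ρ τ - 1 ∈ rtk1wJ (maximalIdeal T) := fun v => rtpu_resTriv ρ τ (hres τ hτ) v
    have h2 := rtk1w_pow_sub_one hpT h1 n
    rw [← map_pow, rtpuQ_eq_one_iff]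
    intro v
    have h3 := h2 v
    rw [map_pow]
    have hle : maximalIdeal T ^ (n + 1) ≤ I :=
      (Ideal.pow_le_pow_right (Nat.le_succ n)).trans hI
    exact Submodule.smul_mono_left hle h3

/-- **PROD-unram.**  If the fixed generator `σ` of the tame inertia at `padicPlace r` acts
trivially modulo `𝔓` (in a basis `b`), then for every `n` the inertia groups at all the places
over `r` act trivially modulo `𝔓 + 𝔪 ^ n`. -/
theorem rtpu_hunr (p r : ℕ) [Fact p.Prime] [Fact r.Prime] (hpT : (p : T) ∈ maximalIdeal T)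
    (σ φ : RtpaG) (hloc : IsLocGenAt p r σ φ)
    (ρ : GaloisRepAdic T) (b : Module.Basis (Fin 2) T ρ.V)
    (hres : ∀ τ ∈ (padicPlace r).inertiaSubgroupIn ℚ, ρ.residual.ρ τ = 1)
    (𝔓 : Ideal T)
    (hσ : ∀ a c, (LinearMap.toMatrix b b (ρ.ρ σ) - 1) a c ∈ 𝔓) :
    ∀ n : ℕ, ∀ 𝔄 : ValuationSubring (AlgebraicClosure ℚ), 𝔄.LiesOverPrime r →
      ∀ τ ∈ 𝔄.inertiaSubgroupIn ℚ, ∀ v : ρ.V,
        ρ.ρ τ v - v ∈ ((𝔓 ⊔ maximalIdeal T ^ n) • ⊤ : Submodule T ρ.V) := by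
  intro n 𝔄 h𝔄 τ hτ
  rw [← rtpuQ_eq_one_iff]
  have htame : IsTameP r p (rtpuQ ρ (𝔓 ⊔ maximalIdeal T ^ n)) :=
    rtpu_isTameP r p hpT ρ hres _ n le_sup_right
  obtain ⟨hpow, -, -⟩ := hloc.univ _ (rtpuQ ρ (𝔓 ⊔ maximalIdeal T ^ n)) htame
  -- `σ` acts trivially
  have hσ1 : rtpuQ ρ (𝔓 ⊔ maximalIdeal T ^ n) σ = 1 := by
    rw [rtpuQ_eq_one_iff]
    intro v
    have h1 : (ρ.ρ σ - 1) v ∈ (𝔓 • ⊤ : Submodule T ρ.V) := by
      refine rtpu_mem_of_entries b 𝔓 (ρ.ρ σ - 1) (fun a c => ?_) v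
      have e : LinearMap.toMatrix b b (ρ.ρ σ - 1) = LinearMap.toMatrix b b (ρ.ρ σ) - 1 := by
        rw [map_sub, LinearMap.toMatrix_one]
      rw [e]
      exact hσ a c
    exact Submodule.smul_mono_left le_sup_left h1
  -- the inertia group at `padicPlace r` acts trivially
  have hI : ∀ τ' ∈ (padicPlace r).inertiaSubgroupIn ℚ,
      rtpuQ ρ (𝔓 ⊔ maximalIdeal T ^ n) τ' = 1 := by
    intro τ' hτ'
    obtain ⟨m, hm⟩ := hpow τ' hτ'
    rw [hm, hσ1, one_pow]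
  -- the other places are conjugate
  obtain ⟨g, hg⟩ := Fermat.Agent.TW.S.sconjp_exists_smul_eq r (Fact.out : r.Prime) 𝔄
    (padicPlace r) h𝔄 (Fermat.Agent.TW.L.lfrobex_liesOverPrime r)
  have h1 : g * τ * g⁻¹ ∈ (g • 𝔄).inertiaSubgroupIn ℚ :=
    Fermat.Agent.PT.B.conj_mem_inertiaSubgroupIn 𝔄 g τ hτ
  rw [hg] at h1
  have h2 := hI _ h1
  rw [map_mul, map_mul] at h2
  have h3 : rtpuQ ρ (𝔓 ⊔ maximalIdeal T ^ n) g⁻¹ * rtpuQ ρ (𝔓 ⊔ maximalIdeal T ^ n) g = 1 := by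
    rw [← map_mul, inv_mul_cancel, map_one]
  have h4 : rtpuQ ρ (𝔓 ⊔ maximalIdeal T ^ n) g * rtpuQ ρ (𝔓 ⊔ maximalIdeal T ^ n) g⁻¹ = 1 := by
    rw [← map_mul, mul_inv_cancel, map_one]
  calc rtpuQ ρ (𝔓 ⊔ maximalIdeal T ^ n) τ
      = (rtpuQ ρ (𝔓 ⊔ maximalIdeal T ^ n) g⁻¹ * rtpuQ ρ (𝔓 ⊔ maximalIdeal T ^ n) g) *
          rtpuQ ρ (𝔓 ⊔ maximalIdeal T ^ n) τ *
          (rtpuQ ρ (𝔓 ⊔ maximalIdeal T ^ n) g⁻¹ * rtpuQ ρ (𝔓 ⊔ maximalIdeal T ^ n) g) := by
        rw [h3, one_mul, mul_one]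
    _ = rtpuQ ρ (𝔓 ⊔ maximalIdeal T ^ n) g⁻¹ *
          (rtpuQ ρ (𝔓 ⊔ maximalIdeal T ^ n) g * rtpuQ ρ (𝔓 ⊔ maximalIdeal T ^ n) τ *
            rtpuQ ρ (𝔓 ⊔ maximalIdeal T ^ n) g⁻¹) * rtpuQ ρ (𝔓 ⊔ maximalIdeal T ^ n) g := by
        simp only [mul_assoc]
    _ = 1 := by rw [h2, mul_one, h3]

end Rep

section Fourth

variable {R : Type*} [CommRing R]

/-- **The fourth entry.**  `det Σ = 1` and three entries of `Σ − 1` in the prime `𝔓` ⇒ the
fourth entry lies in `𝔓`. -/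
theorem rtpu_fourth (𝔓 : Ideal R) [𝔓.IsPrime] (Sig : Matrix (Fin 2) (Fin 2) R)
    (hdet : Sig.det = 1) (h00 : (Sig - 1) 0 0 ∈ 𝔓) (h01 : (Sig - 1) 0 1 ∈ 𝔓)
    (_h10 : (Sig - 1) 1 0 ∈ 𝔓) : (Sig - 1) 1 1 ∈ 𝔓 := by
  rw [Matrix.det_fin_two] at hdet
  simp only [Matrix.sub_apply, Matrix.one_apply_eq, Matrix.one_apply_ne, ne_eq, zero_ne_one,
    not_false_eq_true, sub_zero] at h00 h01 ⊢
  have key : (Sig 1 1 - 1) * Sig 0 0 = Sig 0 1 * Sig 1 0 - (Sig 0 0 - 1) := by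
    linear_combination hdet
  have hmem : (Sig 1 1 - 1) * Sig 0 0 ∈ 𝔓 := by
    rw [key]
    exact Ideal.sub_mem _ (Ideal.mul_mem_right _ _ h01) h00
  rcases Ideal.IsPrime.mem_or_mem inferInstance hmem with h | h
  · exact h
  · exfalso
    apply (inferInstance : 𝔓.IsPrime).ne_top
    rw [Ideal.eq_top_iff_one]
    have : (1 : R) = Sig 0 0 - (Sig 0 0 - 1) := by ring
    rw [this]
    exact Ideal.sub_mem _ h h00

/-- all four entries -/
theorem rtpu_all_entries (𝔓 : Ideal R) [𝔓.IsPrime] (Sig : Matrix (Fin 2) (Fin 2) R)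
    (hdet : Sig.det = 1) (h00 : (Sig - 1) 0 0 ∈ 𝔓) (h01 : (Sig - 1) 0 1 ∈ 𝔓)
    (h10 : (Sig - 1) 1 0 ∈ 𝔓) : ∀ a c, (Sig - 1) a c ∈ 𝔓 := by
  intro a c
  fin_cases a <;> fin_cases c
  · exact h00
  · exact h01
  · exact h10
  · exact rtpu_fourth 𝔓 Sig hdet h00 h01 h10

end Fourth

end Fermat.Agent.RT.Prod
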