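/-
K-machine, PROD (helper70): THE FINAL ASSEMBLY of the arithmetic side.

    stmtProdE_of        : StmtKSetup → StmtHecke → (∀ O, StmtK3Sel O) → StmtK8 → RIB.StmtProdE
    stmtTR_of_contracts : StmtKSetup → StmtHecke → (∀ O, StmtK3Sel O) → StmtK8 → RIB.StmtTR
    stmtProdE_ofE, stmtTR_of_contractsE : the same with `StmtK8E` (K8 restricted to `5 ≤ q`)

(`StmtKSetup`, `StmtHecke`: `RT/Prod/FinalPlan.lean`; `StmtK3Sel`: `RT/PlanK3.lean`, proved in
`RT/K3/Done.lean`; `StmtK8`: `RT/Interp/Plan.lean`.)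

* `HeckeData.level_datum` : `D.level` (the Galois-side datum `TWGal`) + `rtpa_pre` (LOC-gen,
  K3-Alg) + `rtprod_datumE` ⇒ the `TWDatumE` of level `n`;
* `HeckeData.interp`      : a prime `𝔓` of `T0` with `λ ∉ 𝔓`, `Σ⁰ ≡ 1 mod 𝔓` ⇒ `Lowered P N q`
  (`rtpu_hunr` of helper27, `rtint_point_of_quot` and `rtint_lowered` of helper46);
* `HeckeData.isUnit_cayley` + `rtpf_exists_cayley` : the Cayley parameters `Ψ⁰_i`;
* `rtpf_prodDataE`        : the `RIB.ProdDataE`.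
-/
import Fermat.Agent.RT.Prod.FinalNum
import Fermat.Agent.RT.Prod.Asm
import Fermat.Agent.RT.Prod.Unram
import Fermat.Agent.RT.Interp.Quot
import Fermat.Agent.RIB.TRE

set_option autoImplicit false
set_option linter.style.haveILetI false
set_option linter.unusedSectionVars false

namespace Fermat.Agent.RT.Prod

open IsLocalRing Fermat.Agent.TW Fermat.Agent.RT Fermat.Agent.RT.K1 ExtCitation Polynomial
open WeierstrassCurve WeierstrassCurve.Affine WeierstrassCurve.Affine.Point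

/-! ### Generalities over a Noetherian local ring -/

section Noeth

variable {A : Type} [CommRing A] [IsLocalRing A] [IsNoetherianRing A]

/-- the determinant of a representation with cyclotomic determinant over a Noetherian local
ring is determined by the action on the `p`-power roots of unity -/
theorem rtpf_det_eq (p : ℕ) (ρ : GaloisRepAdic A) (hdet : ρ.DetIsCyclotomic p) (g : RtpaG)
    (a : ℕ) (h : ∀ (n : ℕ) (μ : AlgebraicClosure ℚ), μ ^ p ^ n = 1 → g μ = μ ^ a) :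
    LinearMap.det (ρ.ρ g) = (a : A) := by
  have hmem : ∀ n, LinearMap.det (ρ.ρ g) - (a : A) ∈ maximalIdeal A ^ n := by
    intro n
    have h1 := hdet.2 n g a (h n)
    have h2 : Ideal.span {((p ^ n : ℕ) : A)} ≤ maximalIdeal A ^ n := by
      rw [Ideal.span_singleton_le_iff_mem, Nat.cast_pow]
      exact Ideal.pow_mem_pow hdet.1 n
    exact h2 h1
  have h3 : LinearMap.det (ρ.ρ g) - (a : A) ∈ ⨅ n, maximalIdeal A ^ n :=
    (Ideal.mem_iInf).mpr hmem
  rw [Ideal.iInf_pow_eq_bot_of_isLocalRing _ (Ideal.IsMaximal.ne_top inferInstance)] at h3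
  exact sub_eq_zero.mp h3

theorem rtpf_det_inertia (p r : ℕ) [hp : Fact p.Prime] [hr : Fact r.Prime] (hrp : r ≠ p)
    (ρ : GaloisRepAdic A) (hdet : ρ.DetIsCyclotomic p) (g : RtpaG)
    (hg : g ∈ (padicPlace r).inertiaSubgroupIn ℚ) :
    LinearMap.det (ρ.ρ g) = 1 := by
  have := rtpf_det_eq p ρ hdet g 1 (fun n _ hμ => by
    rw [pow_one]
    exact Fermat.Agent.S31.inertia_rootOfUnity (padicPlace r)
      (Fermat.Agent.S31.natCast_pow_not_mem_nonunits (padicPlace r) hp.out hr.out hrp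
        (Fermat.Agent.TW.L.lfrobex_liesOverPrime r) n)
      (pow_ne_zero n hp.out.ne_zero) hg hμ)
  rw [this, Nat.cast_one]

end Noeth

section Cayley

variable {T : Type*} [CommRing T]

theorem rtpf_exists_cayley (s : T) (Phi : Matrix (Fin 2) (Fin 2) T)
    (hu : IsUnit (2 * s + Phi.trace)) : ∃ Psi, IsCayleyParam s Phi Psi := by
  obtain ⟨u, hu⟩ := hu
  refine ⟨(↑u⁻¹ : T) • (2 • Phi - Phi.trace • (1 : Matrix (Fin 2) (Fin 2) T)), ?_⟩
  unfold IsCayleyParam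
  rw [← hu, smul_smul, Units.mul_inv, one_smul]

end Cayley

/-! ### The base -/

section Base

variable {P : FreyPackage} {N q : ℕ}

instance KSetup.instFactR (Y : KSetup P N q) (i : Y.ι) : Fact (Y.r i).Prime := ⟨Y.r_prime i⟩

theorem rtpf_fact_p (P : FreyPackage) : Fact P.p.Prime := ⟨P.pp⟩

theorem KSetup.unram (Y : KSetup P N q) (i : Y.ι) : Y.ρbar.IsUnramifiedAt (Y.r i) := by
  by_contra h
  exact (Y.hT _ (Y.mem_T i)).2.1 ((Y.hyp.hmin (Y.r i) (Y.r_prime i) (Y.r_ne_p i)).mpr h)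

theorem KSetup.resφ (Y : KSetup P N q) (i : Y.ι) : ∃ z : ℤ, (z = 1 ∨ z = -1) ∧
    Y.ρbar.ρ (Y.φ i) = (z : Module.End (ResidueField Y.O) Y.ρbar.V) ∧
    Y.s i - (z : Y.O) ∈ maximalIdeal Y.O := by
  rcases Y.hs i with ⟨h1, h2⟩ | ⟨h1, h2⟩
  · exact ⟨1, Or.inl rfl, by rw [h1, Int.cast_one], by rwa [Int.cast_one]⟩
  · exact ⟨-1, Or.inr rfl, by rw [h1, Int.cast_neg, Int.cast_one],
      by rwa [Int.cast_neg, Int.cast_one, sub_neg_eq_add]⟩

variable [NeZero N] {Y : KSetup P N q} {h : ℕ} (D : HeckeData Y h)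

namespace HeckeData

instance instNoethT0 : IsNoetherianRing D.T0 := IsNoetherianRing.of_finite Y.O D.T0

theorem algebraMap_injective : Function.Injective (algebraMap Y.O D.T0) := by
  intro x y hxy
  have h1 := congrArg D.j0 hxy
  rw [AlgHom.commutes, AlgHom.commutes] at h1
  have h2 := congrFun (congrFun h1 ⟨0, D.hd⟩) ⟨0, D.hd⟩
  rw [Matrix.algebraMap_matrix_apply, Matrix.algebraMap_matrix_apply, if_pos rfl, if_pos rfl]
    at h2
  exact h2

theorem map_mem {x : Y.O} (hx : x ∈ maximalIdeal Y.O) :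
    algebraMap Y.O D.T0 x ∈ maximalIdeal D.T0 := by
  haveI : FaithfulSMul Y.O D.T0 :=
    (faithfulSMul_iff_algebraMap_injective Y.O D.T0).mpr D.algebraMap_injective
  haveI : Algebra.IsIntegral Y.O D.T0 := inferInstance
  exact map_nonunit (algebraMap Y.O D.T0) x hx

theorem resI (i : Y.ι) : ∀ τ ∈ (padicPlace (Y.r i)).inertiaSubgroupIn ℚ,
    D.ρ0.residual.ρ τ = 1 := by
  intro τ hτ
  have h1 : Y.ρbar.ρ τ = ((1 : ℤ) : Module.End (ResidueField Y.O) Y.ρbar.V) := by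
    rw [Int.cast_one]
    exact Y.unram i (padicPlace (Y.r i)) (Fermat.Agent.TW.L.lfrobex_liesOverPrime (Y.r i)) τ hτ
  have h2 := rtk3a_residual_intCast D.ι0 Y.ρbar D.ρ0.residual D.hres0 τ 1 h1
  rw [h2, Int.cast_one]

/-- `Σ⁰_i` -/
noncomputable def Sig0 (i : Y.ι) : Matrix (Fin 2) (Fin 2) D.T0 :=
  LinearMap.toMatrix D.b0 D.b0 (D.ρ0.ρ (Y.σ i))

/-- `Φ⁰_i` -/
noncomputable def Phi0 (i : Y.ι) : Matrix (Fin 2) (Fin 2) D.T0 :=
  LinearMap.toMatrix D.b0 D.b0 (D.ρ0.ρ (Y.φ i))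

theorem det_Sig0 (i : Y.ι) : (D.Sig0 i).det = 1 := by
  haveI := rtpf_fact_p P
  unfold Sig0
  rw [LinearMap.det_toMatrix]
  exact rtpf_det_inertia P.p (Y.r i) (Y.r_ne_p i) D.ρ0 D.hdet0 (Y.σ i) (Y.hloc i).inertia

theorem isUnit_two : IsUnit (2 : D.T0) := by
  have := Y.h2.map (algebraMap Y.O D.T0)
  rwa [map_ofNat] at this

theorem isUnit_cayley (i : Y.ι) :
    IsUnit (2 * algebraMap Y.O D.T0 (Y.s i) + (D.Phi0 i).trace) := by
  obtain ⟨z, hz, hz1, hz2⟩ := Y.resφ i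
  have h1 := rtk3a_residual_intCast D.ι0 Y.ρbar D.ρ0.residual D.hres0 (Y.φ i) z hz1
  have h00 := rtpa_entries_mem D.ρ0 D.b0 (Y.φ i) z h1 0 0
  have h11 := rtpa_entries_mem D.ρ0 D.b0 (Y.φ i) z h1 1 1
  have hzd : ∀ a : Fin 2, (z : Matrix (Fin 2) (Fin 2) D.T0) a a = (z : D.T0) := fun a =>
    Matrix.diagonal_apply_eq _ _
  rw [Matrix.sub_apply, hzd] at h00 h11
  have hs := D.map_mem hz2
  rw [map_sub, map_intCast] at hs
  have hmem : 2 * algebraMap Y.O D.T0 (Y.s i) + (D.Phi0 i).trace - 4 * (z : D.T0) ∈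
      maximalIdeal D.T0 := by
    have e : 2 * algebraMap Y.O D.T0 (Y.s i) + (D.Phi0 i).trace - 4 * (z : D.T0) =
        2 * (algebraMap Y.O D.T0 (Y.s i) - (z : D.T0)) +
          ((LinearMap.toMatrix D.b0 D.b0 (D.ρ0.ρ (Y.φ i)) 0 0 - (z : D.T0)) +
           (LinearMap.toMatrix D.b0 D.b0 (D.ρ0.ρ (Y.φ i)) 1 1 - (z : D.T0))) := by
      rw [Matrix.trace_fin_two]
      unfold Phi0
      ring
    rw [e]
    exact Ideal.add_mem _ (Ideal.mul_mem_left _ _ hs) (Ideal.add_mem _ h00 h11)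
  have h4 : IsUnit (4 * (z : D.T0)) := by
    have h2 := D.isUnit_two
    have e4 : (4 : D.T0) = 2 * 2 := by norm_num
    rcases hz with rfl | rfl
    · rw [Int.cast_one, mul_one, e4]
      exact h2.mul h2
    · rw [Int.cast_neg, Int.cast_one, mul_neg, mul_one, e4]
      exact (h2.mul h2).neg
  by_contra hnu
  have hm : 2 * algebraMap Y.O D.T0 (Y.s i) + (D.Phi0 i).trace ∈ maximalIdeal D.T0 :=
    (mem_maximalIdeal _).mpr hnu
  have : 4 * (z : D.T0) ∈ maximalIdeal D.T0 := by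
    have := Ideal.sub_mem _ hm hmem
    rwa [sub_sub_cancel] at this
  exact (mem_maximalIdeal _).mp this h4

/-- **INTERP for the base**: a prime `𝔓` of `T0` with `λ ∉ 𝔓` and `Σ⁰_i ≡ 1 mod 𝔓` gives
`Lowered P N q`. -/
theorem interp (hK8 : Fermat.Agent.RT.Interp.StmtK8E) (hsq : Squarefree N) (hpN : ¬ P.p ∣ N)
    (hq : q.Prime) (hq2 : q ≠ 2) (hq5 : 5 ≤ q) (hqN : q ∣ N)
    (𝔓 : Ideal D.T0) (h𝔓 : 𝔓.IsPrime) (hl : algebraMap Y.O D.T0 Y.lam ∉ 𝔓)
    (hS : ∀ i, (D.Sig0 i - 1) 0 0 ∈ 𝔓 ∧ (D.Sig0 i - 1) 0 1 ∈ 𝔓 ∧ (D.Sig0 i - 1) 1 0 ∈ 𝔓) :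
    Fermat.Agent.RIB.Lowered P N q := by
  haveI := rtpf_fact_p P
  obtain ⟨i0, -, hi0⟩ := Finset.mem_image.mp ((Y.hr q).mpr ⟨hq, hq2, hqN⟩)
  have hchar : ∀ n : ℕ, n ≠ 0 → (n : D.T0) ∉ 𝔓 := fun n hn =>
    Fermat.Agent.RT.Interp.rtint_natCast_not_mem Y.lam Y.hlam 𝔓 hl n hn
  have hall := rtpu_all_entries 𝔓 (D.Sig0 i0) (D.det_Sig0 i0) (hS i0).1 (hS i0).2.1 (hS i0).2.2
  have hunr := rtpu_hunr P.p (Y.r i0) D.hdet0.1 (Y.σ i0) (Y.φ i0) (Y.hloc i0) D.ρ0 D.b0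
    (D.resI i0) 𝔓 hall
  rw [hi0] at hunr
  obtain ⟨pt⟩ := Fermat.Agent.RT.Interp.rtint_point_of_quot P N q Y.W Y.hW D.S' D.hpS' D.hNS'
    𝔓 h𝔓 hchar D.hdet0.1 D.a (fun t ht h0 => by rw [D.hocc t ht h0]; exact zero_mem _)
    D.hcong D.ρ0 D.hfrob D.habs0 hunr
  exact Fermat.Agent.RT.Interp.rtint_loweredE hK8 P hsq hq (fun h => hpN (h ▸ hqN)) hq2 hq5 pt

/-- **The level data**: a Taylor–Wiles family with the tangent bound of K3-Sel gives a
`TWDatumE`. -/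
theorem level_datum (n : ℕ) (qv : Fin h → ℕ)
    (hfam : IsTWFamily P.p Y.ρbar (Y.Smin ∪ Finset.univ.image Y.r) n h qv) (g : ℕ)
    (hcard : TwTanCard Y.O Y.ρbar
      (rtk3Flat Y.O P.p Y.Smin (Finset.univ.image qv) (Finset.univ.image Y.r))
      (Nat.card (ResidueField Y.O) ^ g)) :
    ∃ (T1 : Type) (_ : CommRing T1) (_ : Algebra Y.O T1)
      (j1 : T1 →ₐ[Y.O] Matrix (Fin D.d) (Fin D.d)
        (RttwS Y.O (Y.m h) ⧸ maximalIdeal (RttwS Y.O (Y.m h)) ^ n))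
      (Sig1 Phi1 : Y.ι → Matrix (Fin 2) (Fin 2) T1)
      (x1 : Fin (g + 4 * (Finset.univ.image Y.r).card) → T1)
      (Tχ : Type) (_ : CommRing Tχ) (_ : Algebra Y.O Tχ)
      (jχ : Tχ →ₐ[Y.O] Matrix (Fin D.d) (Fin D.d)
        (RttwS Y.O (Y.m h) ⧸ maximalIdeal (RttwS Y.O (Y.m h)) ^ n))
      (Sigχ Phiχ : Y.ι → Matrix (Fin 2) (Fin 2) Tχ)
      (xχ : Fin (g + 4 * (Finset.univ.image Y.r).card) → Tχ),
      TWDatumE (fun i => (Y.r i : Y.O)) Y.s Y.tχ Y.lam (Y.m h) h D.d D.j0 D.Sig0 D.Phi0 n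
        j1 Sig1 Phi1 x1 jχ Sigχ Phiχ xχ := by
  haveI := rtpf_fact_p P
  obtain ⟨A, iA1, iA2, iA3, ιA, ρ, b, β, βi, π1, πχ, H⟩ := D.level n qv hfam
  obtain ⟨x, hx⟩ := rtpa_pre P.p Y.ρbar (Y.Smin ∪ Finset.univ.image Y.r) Y.Smin
    (Finset.univ.image qv) Y.r Y.σ Y.φ Y.s Y.tχ Y.lam (Y.m h) D.d D.j0 _ _ n _ ιA ρ b β βi π1 πχ
    Y.hyp Y.hT g hcard (fun i => Y.hloc i) Y.hs2 Y.hs H
  have hlam : Y.lam ∈ maximalIdeal Y.O := by
    rw [Y.hlam]
    exact Ideal.mem_span_singleton_self _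
  have key := rtprod_datumE P.p Y.r (fun i => (Y.r i : Y.O)) Y.s Y.tχ Y.δ Y.lam hlam
    (fun _ => rfl) Y.p_dvd (fun i => (Y.r_prime i).one_le) Y.htδ
    (fun i => by rw [Y.tχ_add_δ i, Y.hζ.pow_eq_one]) Y.two_mul_δ_ne
    (fun i => rtpf_exists_of_mem Y.hlam (Y.tχ_sub_one_mem i)) (Y.m h) h D.d D.j0 _ _ n π1 πχ
    _ _ x hx
  exact ⟨RtprodQ π1, inferInstance, inferInstance, rtprodJ π1, _, _, _,
    RtprodQ πχ, inferInstance, inferInstance, rtprodJ πχ, _, _, _, key⟩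

end HeckeData

end Base

/-! ### The final assembly -/

section Final

open Fermat.Agent.RIB

/-- **PROD**: the product of the arithmetic side from a setup, the Hecke data, K3-Sel and
K8. -/
theorem rtpf_prodDataE (hK8 : Fermat.Agent.RT.Interp.StmtK8E) {P : FreyPackage} {N q : ℕ}
    [NeZero N] (hsq : Squarefree N) (hpN : ¬ P.p ∣ N) (hq : q.Prime) (hq2 : q ≠ 2)
    (hq5 : 5 ≤ q) (hqN : q ∣ N) (Y : KSetup P N q) (h : ℕ) (hh : 3 * (Finset.univ.image Y.r).card ≤ h)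
    (hsel : ∀ n : ℕ, ∃ qv : Fin h → ℕ,
      IsTWFamily P.p Y.ρbar (Y.Smin ∪ Finset.univ.image Y.r) n h qv ∧
      TwTanCard Y.O Y.ρbar
        (rtk3Flat Y.O P.p Y.Smin (Finset.univ.image qv) (Finset.univ.image Y.r))
        (Nat.card (ResidueField Y.O) ^ (h - 3 * (Finset.univ.image Y.r).card)))
    (D : HeckeData Y h) : Nonempty (ProdDataE P N q) := by
  classical
  have hPsi : ∀ i, ∃ Psi, IsCayleyParam (algebraMap Y.O D.T0 (Y.s i)) (D.Phi0 i) Psi :=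
    fun i => rtpf_exists_cayley _ _ (D.isUnit_cayley i)
  choose Psi0 hPsi0 using hPsi
  exact ⟨
    { O := Y.O
      lam := Y.lam
      hlam := Y.hlam
      h2 := Y.h2
      ι := Y.ι
      τ := Fin (h - 3 * (Finset.univ.image Y.r).card + 4 * (Finset.univ.image Y.r).card)
      qq := fun i => (Y.r i : Y.O)
      s := Y.s
      tχ := Y.tχ
      δ := Y.δ
      hs := Y.hs2
      hs1 := Y.hs1
      hqq := Y.hqq
      hqq1 := Y.hqq1
      htδ := Y.htδ
      htχ := fun i => rtpf_exists_of_mem Y.hlam (Y.tχ_sub_one_mem i)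
      hδ := fun i => by
        have := rtpf_exists_of_mem Y.hlam (x := Y.δ i) (y := 0) (by rw [sub_zero]; exact Y.δ_mem i)
        simpa using this
      hδ0 := Y.δ_ne
      m := Y.m h
      h := h
      d := D.d
      hm := by
        rw [Fintype.card_fin, Y.card_T] at *
        show _ ≤ h + 4 * Fintype.card Y.ι
        omega
      hd := D.hd
      T0 := D.T0
      j0 := D.j0
      hj0 := D.hj0
      Sig0 := D.Sig0
      Phi0 := D.Phi0
      Psi0 := Psi0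
      hPsi0 := hPsi0
      level := fun n => by
        obtain ⟨qv, hfam, hcard⟩ := hsel n
        exact D.level_datum n qv hfam _ hcard
      interp := fun 𝔓 h𝔓 hl hS => D.interp hK8 hsq hpN hq hq2 hq5 hqN 𝔓 h𝔓 hl hS }⟩

/-- **`StmtProdE` from the two contracts** (`StmtKSetup`, `StmtHecke`), K3-Sel and K8 in the
restricted form `StmtK8E` (`5 ≤ q`; the prime `q` is trivial, hence `q ≡ 1 mod p`). -/
theorem stmtProdE_ofE (hsetup : StmtKSetup) (hhecke : StmtHecke)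
    (hsel : ∀ (O : Type) [CommRing O] [IsDomain O] [IsDiscreteValuationRing O]
      [IsAdicComplete (maximalIdeal O) O] [Finite (ResidueField O)], StmtK3Sel O)
    (hK8 : Fermat.Agent.RT.Interp.StmtK8E) : StmtProdE := by
  intro P N q hcond hpN hq hq2 hqN hirr hmod hall
  haveI : NeZero N := ⟨hcond.pos.ne'⟩
  haveI := rtpf_fact_p P
  obtain ⟨Y⟩ := hsetup P N q hcond hpN hq hq2 hqN hirr hmod hall
  obtain ⟨h, hh, hQ⟩ := hsel Y.O P.p Y.ρbar (Y.Smin ∪ Finset.univ.image Y.r) Y.Smin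
    (Finset.univ.image Y.r) Y.hyp Y.hT Finset.subset_union_right
  obtain ⟨D⟩ := hhecke P N q hcond hpN hq hq2 hqN hirr hmod hall Y h
  exact rtpf_prodDataE hK8 hcond.squarefree hpN hq hq2
    (Fermat.Agent.RT.Interp.rtint_five_le_of_trivial (hall q hq hq2 hqN)) hqN Y h hh hQ D

/-- **`StmtProdE` from the two contracts** (`StmtKSetup`, `StmtHecke`), K3-Sel and K8. -/
theorem stmtProdE_of (hsetup : StmtKSetup) (hhecke : StmtHecke)
    (hsel : ∀ (O : Type) [CommRing O] [IsDomain O] [IsDiscreteValuationRing O]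
      [IsAdicComplete (maximalIdeal O) O] [Finite (ResidueField O)], StmtK3Sel O)
    (hK8 : Fermat.Agent.RT.Interp.StmtK8) : StmtProdE :=
  stmtProdE_ofE hsetup hhecke hsel (Fermat.Agent.RT.Interp.stmtK8E_of_stmtK8 hK8)

/-- **`StmtTR` from the two contracts**, K3-Sel and K8 (restricted form). -/
theorem stmtTR_of_contractsE (hsetup : StmtKSetup) (hhecke : StmtHecke)
    (hsel : ∀ (O : Type) [CommRing O] [IsDomain O] [IsDiscreteValuationRing O]
      [IsAdicComplete (maximalIdeal O) O] [Finite (ResidueField O)], StmtK3Sel O)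
    (hK8 : Fermat.Agent.RT.Interp.StmtK8E) : StmtTR :=
  stmtTR_of_prodE (stmtProdE_ofE hsetup hhecke hsel hK8)

/-- **`StmtTR` from the two contracts**, K3-Sel and K8. -/
theorem stmtTR_of_contracts (hsetup : StmtKSetup) (hhecke : StmtHecke)
    (hsel : ∀ (O : Type) [CommRing O] [IsDomain O] [IsDiscreteValuationRing O]
      [IsAdicComplete (maximalIdeal O) O] [Finite (ResidueField O)], StmtK3Sel O)
    (hK8 : Fermat.Agent.RT.Interp.StmtK8) : StmtTR :=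
  stmtTR_of_prodE (stmtProdE_of hsetup hhecke hsel hK8)

end Final

end Fermat.Agent.RT.Prod
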