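import Mathlib
import Fermat.Agent.EC.TateRes

/-!
# K-machine, PROD-hyp (helper69), part DICT

The residual representation `ρ̄₁ = (tateRep W hΔ p).residual` of the Tate module versus the Galois
action on `E[p](ℚ̄)`:

* `rtph_tmul_eq_zero_iff` : `1 ⊗ v = 0` in `k ⊗ V` iff `v ∈ 𝔪 V`;
* `rtph_res_eq_iff` : `ρ̄₁(σ) = ā • 1` iff `σ` acts on `E[p]` as the scalar `a mod p`;
* `rtph_res_eq_one_iff`, `rtph_res_eq_neg_one_iff` : the cases `a = 1`, `a = -1`.
-/

set_option autoImplicit false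

namespace Fermat.Agent.RT.Prod

open WeierstrassCurve WeierstrassCurve.Affine WeierstrassCurve.Affine.Point Fermat.Agent.EC
open scoped TensorProduct

/-- `ℚ̄` -/
local notation "Qbar" => AlgebraicClosure ℚ
/-- `G_ℚ` -/
local notation "GQ" => (AlgebraicClosure ℚ ≃ₐ[ℚ] AlgebraicClosure ℚ)

section Gen

variable {A : Type} [CommRing A] [IsLocalRing A] {V : Type} [AddCommGroup V] [Module A V]

/-- `1 ⊗ v = 0` in `k ⊗ V` iff `v ∈ 𝔪 V`. -/
theorem rtph_tmul_eq_zero_iff (v : V) :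
    (1 : IsLocalRing.ResidueField A) ⊗ₜ[A] v = 0 ↔
      v ∈ (IsLocalRing.maximalIdeal A) • (⊤ : Submodule A V) := by
  refine ⟨fun h => ?_, tateRes_tmul_eq_zero⟩
  have h' : ((1 : A ⧸ IsLocalRing.maximalIdeal A) ⊗ₜ[A] v :
      (A ⧸ IsLocalRing.maximalIdeal A) ⊗[A] V) = 0 := h
  have h1 := congrArg (TensorProduct.quotTensorEquivQuotSMul V (IsLocalRing.maximalIdeal A)) h'
  rw [LinearEquiv.map_zero] at h1
  have h2 := TensorProduct.quotTensorEquivQuotSMul_mk_tmul (M := V)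
    (IsLocalRing.maximalIdeal A) (1 : A) v
  rw [one_smul, _root_.map_one] at h2
  rw [h2, Submodule.Quotient.mk_eq_zero] at h1
  exact h1

/-- the base change of `f` to the residue field is the scalar `ā` iff `f ≡ a` modulo `𝔪 V`. -/
theorem rtph_baseChange_eq_iff (f : V →ₗ[A] V) (a : A) :
    f.baseChange (IsLocalRing.ResidueField A) = IsLocalRing.residue A a •
        (1 : Module.End (IsLocalRing.ResidueField A) (IsLocalRing.ResidueField A ⊗[A] V)) ↔
      ∀ v : V, f v - a • v ∈ (IsLocalRing.maximalIdeal A) • (⊤ : Submodule A V) := by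
  have hsm : ∀ v : V, IsLocalRing.residue A a • ((1 : IsLocalRing.ResidueField A) ⊗ₜ[A] v)
      = (1 : IsLocalRing.ResidueField A) ⊗ₜ[A] (a • v) := by
    intro v
    have e1 : (a • (1 : IsLocalRing.ResidueField A)) = IsLocalRing.residue A a := by
      rw [Algebra.smul_def, mul_one]
      rfl
    calc IsLocalRing.residue A a • ((1 : IsLocalRing.ResidueField A) ⊗ₜ[A] v)
        = (IsLocalRing.residue A a • (1 : IsLocalRing.ResidueField A)) ⊗ₜ[A] v :=
          TensorProduct.smul_tmul' _ _ _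
      _ = (IsLocalRing.residue A a) ⊗ₜ[A] v := by rw [smul_eq_mul, mul_one]
      _ = (a • (1 : IsLocalRing.ResidueField A)) ⊗ₜ[A] v := by rw [e1]
      _ = a • ((1 : IsLocalRing.ResidueField A) ⊗ₜ[A] v) := (TensorProduct.smul_tmul' _ _ _).symm
      _ = (1 : IsLocalRing.ResidueField A) ⊗ₜ[A] (a • v) := (TensorProduct.tmul_smul _ _ _).symm
  constructor
  · intro h v
    rw [← rtph_tmul_eq_zero_iff, TensorProduct.tmul_sub, sub_eq_zero, ← hsm,
      ← LinearMap.baseChange_tmul, h, LinearMap.smul_apply, Module.End.one_apply]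
  · intro h
    apply LinearMap.ext
    intro u
    obtain ⟨v, rfl⟩ := tateRes_exists_tmul u
    have h1 := (rtph_tmul_eq_zero_iff _).2 (h v)
    rw [TensorProduct.tmul_sub, sub_eq_zero] at h1
    rw [LinearMap.baseChange_tmul, h1, LinearMap.smul_apply, Module.End.one_apply, hsm]

end Gen

section Dict

variable (W : WeierstrassCurve ℚ) (hΔ : W.Δ ≠ 0) (p : ℕ) [hp : Fact p.Prime]

/-- **DICT**: `ρ̄₁(σ)` is the scalar `ā` iff `σ` acts on `E[p]` as `a mod p`. -/
theorem rtph_res_eq_iff (σ : GQ) (a : ℤ_[p]) :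
    (tateRep W hΔ p).residual.ρ σ = IsLocalRing.residue ℤ_[p] a •
        (1 : Module.End (IsLocalRing.ResidueField ℤ_[p]) (tateRep W hΔ p).residual.V) ↔
      ∀ x : Submodule.torsionBy ℤ (W⁄Qbar).Point (p : ℤ), σ • x = PadicInt.toZMod a • x := by
  have key : ∀ v : Fin 2 → ℤ_[p],
      (tateRho W hΔ p σ v - a • v ∈
          (IsLocalRing.maximalIdeal ℤ_[p]) • (⊤ : Submodule ℤ_[p] (Fin 2 → ℤ_[p])) ↔
        σ • tateResLev W hΔ p v = PadicInt.toZMod a • tateResLev W hΔ p v) := by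
    intro v
    rw [← tateResLev_eq_zero_iff, map_sub, tateResLev_rho, tateResLev_smul, sub_eq_zero]
  have h0 := rtph_baseChange_eq_iff (tateRho W hΔ p σ) a
  refine Iff.trans ?_ (h0.trans ⟨fun h x => ?_, fun h v => (key v).2 (h _)⟩)
  · exact Iff.rfl
  · obtain ⟨v, rfl⟩ := tateResLev_surjective W hΔ p x
    exact (key v).1 (h v)

/-- **DICT**, `a = 1`. -/
theorem rtph_res_eq_one_iff (σ : GQ) :
    (tateRep W hΔ p).residual.ρ σ = 1 ↔
      ∀ x : Submodule.torsionBy ℤ (W⁄Qbar).Point (p : ℤ), σ • x = x := by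
  have h := rtph_res_eq_iff W hΔ p σ 1
  rw [map_one, one_smul] at h
  rw [h]
  simp only [map_one, one_smul]

/-- **DICT**, `a = -1`. -/
theorem rtph_res_eq_neg_one_iff (σ : GQ) :
    (tateRep W hΔ p).residual.ρ σ = -1 ↔
      ∀ x : Submodule.torsionBy ℤ (W⁄Qbar).Point (p : ℤ), σ • x = -x := by
  have h := rtph_res_eq_iff W hΔ p σ (-1)
  rw [map_neg, map_one, neg_smul, one_smul] at h
  rw [h]
  simp only [map_neg, map_one, neg_smul, one_smul]

end Dict

end Fermat.Agent.RT.Prod
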