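import Mathlib
import Fermat.Agent.RT.Prod.HypDict
import Fermat.Agent.RIB.MP.AuxTwo
import Fermat.Agent.RIB.Plan
import Fermat.Agent.S05
import Fermat.Agent.S04.FreyInt
import Fermat.Agent.TW.S.ConjPlaces
import Fermat.Agent.RT.K1.TameGenFinal
import Fermat.Agent.RT.PlanK3

/-!
# K-machine, PROD-hyp (helper69), part FREY: ramification of the residual Frey representation

`P` a Frey package, `ρ̄₁ = (tateRepInt P.freyCurveInt _ P.p).residual` (over the residue field of
`ℤ_p`):

* `rtph_frey_one_iff`, `rtph_frey_neg_one_iff` : `ρ̄₁(σ) = ±1` iff `σ` acts as `±1` on `E[p]`;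
* `rtph_frey_unram` : `ρ̄₁` is unramified at the odd primes `q ≠ p` (S05);
* `rtph_frey_ram2`  : `ρ̄₁` is RAMIFIED at `2` (helper85's `ribmp_aux_ramified_two`);
* `rtph_frey_hmin`  : the field `hmin` of `TWHyp` for `Smin = {2, p}`;
* `rtph_frey_triv`  : at a trivial prime `r` (`RIB.IsTrivialPrime`), every element of every
  decomposition group over `r` acts as `±1` (LOC-gen + conjugacy of the places over `r`).
-/

set_option autoImplicit false

namespace Fermat.Agent.RT.Prod

open WeierstrassCurve WeierstrassCurve.Affine WeierstrassCurve.Affine.Point Fermat.Agent.EC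
open Fermat.Agent.S04 ExtCitation
open scoped Pointwise

/-- `ℚ̄` -/
local notation "Qbar" => AlgebraicClosure ℚ
/-- `G_ℚ` -/
local notation "GQ" => (AlgebraicClosure ℚ ≃ₐ[ℚ] AlgebraicClosure ℚ)

/-- transport of a statement on `E[p]` along an equality of curves -/
theorem rtph_transport {E E' : WeierstrassCurve ℚ} (h : E = E') (p : ℕ) (σ : GQ) (c : ℤ) :
    (∀ x : Submodule.torsionBy ℤ (E⁄Qbar).Point (p : ℤ), σ • x = c • x) ↔
      ∀ x : Submodule.torsionBy ℤ (E'⁄Qbar).Point (p : ℤ), σ • x = c • x := by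
  subst h
  rfl

section Frey

variable (P : FreyPackage) [hpF : Fact P.p.Prime]

/-- the residual representation of the Frey curve (over the residue field of `ℤ_p`) -/
noncomputable abbrev rtphRho : ResidualGaloisRep (IsLocalRing.ResidueField ℤ_[P.p]) :=
  (tateRepInt P.freyCurveInt (freyCurveInt_Δ_ne_zero P) P.p).residual

theorem rtph_frey_one_iff (σ : GQ) :
    (rtphRho P).ρ σ = 1 ↔
      ∀ x : Submodule.torsionBy ℤ (P.freyCurve⁄Qbar).Point (P.p : ℤ), σ • x = x := by
  have h := rtph_res_eq_one_iff (P.freyCurveInt.map (Int.castRingHom ℚ))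
    (tate_map_Δ_ne_zero _ (freyCurveInt_Δ_ne_zero P)) P.p σ
  have h' := rtph_transport (freyCurveInt_map P) P.p σ 1
  simp only [one_smul] at h'
  exact h.trans h'

theorem rtph_frey_neg_one_iff (σ : GQ) :
    (rtphRho P).ρ σ = -1 ↔
      ∀ x : Submodule.torsionBy ℤ (P.freyCurve⁄Qbar).Point (P.p : ℤ), σ • x = -x := by
  have h := rtph_res_eq_neg_one_iff (P.freyCurveInt.map (Int.castRingHom ℚ))
    (tate_map_Δ_ne_zero _ (freyCurveInt_Δ_ne_zero P)) P.p σ
  have h' := rtph_transport (freyCurveInt_map P) P.p σ (-1)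
  simp only [neg_smul, one_smul] at h'
  exact h.trans h'

/-- `ρ̄₁` is unramified at the odd primes `q ≠ p`. -/
theorem rtph_frey_unram {q : ℕ} (hq : q.Prime) (hq2 : q ≠ 2) (hqp : q ≠ P.p) :
    (rtphRho P).IsUnramifiedAt q := by
  intro A hA σ hσ
  rw [rtph_frey_one_iff]
  exact fun x => Fermat.Agent.S05.result P hq hq2 hqp A hA σ hσ x

/-- `ρ̄₁` is ramified at `2`. -/
theorem rtph_frey_ram2 : ¬ (rtphRho P).IsUnramifiedAt 2 := by
  intro h
  obtain ⟨A, hA⟩ := Fermat.Agent.Common.exists_liesOverPrime 2 Nat.prime_two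
  obtain ⟨σ, hσ, x, hx⟩ := Fermat.Agent.RIB.MP.ribmp_aux_ramified_two P A hA
  exact hx ((rtph_frey_one_iff P σ).1 (h A hA σ hσ) x)

/-- the field `hmin` of `TWHyp` for `Smin = {2, p}`. -/
theorem rtph_frey_hmin (q : ℕ) (hq : q.Prime) (hqp : q ≠ P.p) :
    q ∈ ({2, P.p} : Finset ℕ) ↔ ¬ (rtphRho P).IsUnramifiedAt q := by
  constructor
  · intro h
    rw [Finset.mem_insert, Finset.mem_singleton] at h
    rcases h with rfl | h
    · exact rtph_frey_ram2 P
    · exact absurd h hqp
  · intro h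
    by_contra hq2
    rw [Finset.mem_insert, Finset.mem_singleton, not_or] at hq2
    exact h (rtph_frey_unram P hq hq2.1 hqp)

/-- conjugates of elements of a decomposition group -/
theorem rtph_conj_mem_decomp (A : ValuationSubring Qbar) (g σ : GQ)
    (hσ : σ ∈ A.decompositionSubgroup ℚ) : g * σ * g⁻¹ ∈ (g • A).decompositionSubgroup ℚ := by
  have h1 : σ • A = A := hσ
  show (g * σ * g⁻¹) • (g • A) = g • A
  rw [mul_smul, mul_smul, inv_smul_smul, h1]

/-- At a trivial prime, every element of every decomposition group acts as `±1`. -/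
theorem rtph_frey_triv {r : ℕ} (hr : Fermat.Agent.RIB.IsTrivialPrime P r) (hr2 : r ≠ 2)
    (A : ValuationSubring Qbar) (hA : A.LiesOverPrime r) (σ : GQ)
    (hσ : σ ∈ A.decompositionSubgroup ℚ) :
    (rtphRho P).ρ σ = 1 ∨ (rtphRho P).ρ σ = -1 := by
  obtain ⟨hrp, hrne, -, ε, hε, hfrob⟩ := hr
  have : Fact r.Prime := ⟨hrp⟩
  have hlies := Fermat.Agent.TW.L.lfrobex_liesOverPrime r
  obtain ⟨σ₀, hσ₀, φ, hφ, huniv⟩ := Fermat.Agent.RT.K1.stmtLocGen r P.p hrne
  have hunr := rtph_frey_unram P hrp hr2 hrne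
  have htame : Fermat.Agent.RT.K1.IsTameP r P.p (rtphRho P).ρ :=
    ⟨(rtphRho P).factorsThroughFiniteLevel, fun τ hτ =>
      ⟨0, by rw [pow_zero, pow_one]; exact hunr _ hlies τ hτ⟩⟩
  obtain ⟨-, hD, -⟩ := huniv _ (rtphRho P).ρ htame
  have hσ₀1 : (rtphRho P).ρ σ₀ = 1 := hunr _ hlies σ₀ hσ₀
  have hφε : (rtphRho P).ρ φ = 1 ∨ (rtphRho P).ρ φ = -1 := by
    rcases hε with rfl | rfl
    · left
      rw [rtph_frey_one_iff]
      intro x
      have := hfrob _ hlies φ hφ x
      rwa [one_smul] at this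
    · right
      rw [rtph_frey_neg_one_iff]
      intro x
      have := hfrob _ hlies φ hφ x
      rwa [neg_smul, one_smul] at this
  obtain ⟨g, hg⟩ := Fermat.Agent.TW.S.sconjp_exists_smul_eq r hrp A (padicPlace r) hA hlies
  have hτ : g * σ * g⁻¹ ∈ (padicPlace r).decompositionSubgroup ℚ := by
    have := rtph_conj_mem_decomp A g σ hσ
    rwa [hg] at this
  obtain ⟨m, n, hmn⟩ := hD _ hτ
  rw [hσ₀1, one_pow, one_mul] at hmn
  have hpm : (rtphRho P).ρ (g * σ * g⁻¹) = 1 ∨ (rtphRho P).ρ (g * σ * g⁻¹) = -1 := by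
    rw [hmn]
    rcases hφε with h | h
    · left; rw [h, one_pow]
    · rw [h]
      rcases neg_one_pow_eq_or
          (Module.End (IsLocalRing.ResidueField ℤ_[P.p]) (rtphRho P).V) n with h' | h'
      · left; exact h'
      · right; exact h'
  have hσeq : (rtphRho P).ρ σ
      = (rtphRho P).ρ g⁻¹ * (rtphRho P).ρ (g * σ * g⁻¹) * (rtphRho P).ρ g := by
    rw [← map_mul, ← map_mul]
    congr 1
    group
  have hinv : (rtphRho P).ρ g⁻¹ * (rtphRho P).ρ g = 1 := by
    rw [← map_mul, inv_mul_cancel, map_one]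
  rcases hpm with h | h
  · left
    rw [hσeq, h, mul_one, hinv]
  · right
    rw [hσeq, h, mul_neg, mul_one, neg_mul, hinv]

end Frey

end Fermat.Agent.RT.Prod
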