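/-
K-machine (row 37), PROD-hyp, piece WIRE (helper63; split by helper69, contract of helper97's
`StmtProdHyp`).

Model: `W : WeierstrassCurve ℤ`, `Δ ≠ 0`, `p` an odd prime,
`ρ̄₁ := (EC.tateRepInt W hΔ p).residual : ResidualGaloisRep (ResidueField ℤ_[p])`,
`ι : ResidueField ℤ_[p] →+* K` a ring homomorphism to a field, `ρbar := ρ̄₁.baseChangeAlong ι`.

General dictionary (any `ρ : ResidualGaloisRep k`, `ι : k →+* K`):
* `rtphw_one_iff`, `rtphw_neg_one_iff`, `rtphw_eq_iff`, `rtphw_isUnramifiedAt_iff`   (w6);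
* `rtphw_charpoly`, `rtphw_det`, `rtphw_trace`, `rtphw_isOdd`;
* `rtphw_hdet_baseChangeAlong`, `rtphw_hdet_residual`, `rtphw_hsplit_baseChangeAlong`.

For the Tate module:
* `rtphw_habs` (w1), `rtphw_hdet` (w2), `rtphw_hsplit` (w3), `rtphw_hTW` (w4), `rtphw_hbar` (w5);
* `rtphw_exists_iota` : a ring homomorphism `ResidueField ℤ_[p] →+* ResidueField 𝒪` exists as soon
  as `p ∈ 𝔪_𝒪`;
* `rtphw_twHyp` : the hypotheses `TWHyp 𝒪 p ρbar S Smin` of the Taylor–Wiles machine.
-/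
import Mathlib
import Fermat.Agent.TW.Plan
import Fermat.Agent.TW.BC
import Fermat.Agent.EC.Big.Final
import Fermat.Agent.EC.TateFrobAll

set_option autoImplicit false
set_option linter.style.haveILetI false

namespace Fermat.Agent.RT.Prod

open Polynomial IsLocalRing
open scoped TensorProduct

/-- `G_ℚ` -/
local notation "GQ" => (AlgebraicClosure ℚ ≃ₐ[ℚ] AlgebraicClosure ℚ)

section Aux

variable {k K : Type} [Field k] [Field K] [Algebra k K]
variable {V : Type} [AddCommGroup V] [Module k V] [Module.Finite k V]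

/-- base change along a field extension is injective on endomorphisms -/
theorem rtphw_aux_baseChange_injective {f g : V →ₗ[k] V}
    (h : f.baseChange K = g.baseChange K) : f = g := by
  classical
  let b := Module.finBasis k V
  apply (LinearMap.toMatrix b b).injective
  have h1 := congrArg (LinearMap.toMatrix (Algebra.TensorProduct.basis K b)
    (Algebra.TensorProduct.basis K b)) h
  rw [LinearMap.toMatrix_baseChange, LinearMap.toMatrix_baseChange] at h1
  exact Matrix.map_injective (algebraMap k K).injective h1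

theorem rtphw_aux_eq_one_iff (f : V →ₗ[k] V) :
    f.baseChange K = (1 : Module.End K (K ⊗[k] V)) ↔ f = (1 : Module.End k V) := by
  constructor
  · intro h
    apply rtphw_aux_baseChange_injective (K := K)
    rw [h]
    exact (LinearMap.baseChange_one (R := k) (A := K) (M := V)).symm
  · rintro rfl
    exact LinearMap.baseChange_one (R := k) (A := K) (M := V)

theorem rtphw_aux_eq_neg_one_iff (f : V →ₗ[k] V) :
    f.baseChange K = (-1 : Module.End K (K ⊗[k] V)) ↔ f = (-1 : Module.End k V) := by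
  have h1 : ((-1 : Module.End k V) : V →ₗ[k] V).baseChange K
      = (-1 : Module.End K (K ⊗[k] V)) := by
    rw [LinearMap.baseChange_neg]
    congr 1
    exact LinearMap.baseChange_one (R := k) (A := K) (M := V)
  constructor
  · intro h
    apply rtphw_aux_baseChange_injective (K := K)
    rw [h, h1]
  · rintro rfl
    exact h1

end Aux

section Rep

variable {k K : Type} [Field k] [Field K] (ι : k →+* K) (ρ : ResidualGaloisRep k)

/-- **(w6)** the base-change dictionary: `ρbar(σ) = 1 ↔ ρ(σ) = 1`. -/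
theorem rtphw_one_iff (σ : GQ) : (ρ.baseChangeAlong ι).ρ σ = 1 ↔ ρ.ρ σ = 1 := by
  letI : Algebra k K := ι.toAlgebra
  exact rtphw_aux_eq_one_iff (K := K) (ρ.ρ σ)

/-- **(w6)** the base-change dictionary: `ρbar(σ) = -1 ↔ ρ(σ) = -1`. -/
theorem rtphw_neg_one_iff (σ : GQ) : (ρ.baseChangeAlong ι).ρ σ = -1 ↔ ρ.ρ σ = -1 := by
  letI : Algebra k K := ι.toAlgebra
  exact rtphw_aux_eq_neg_one_iff (K := K) (ρ.ρ σ)

/-- **(w6)** `ρbar(σ) = ρbar(τ) ↔ ρ(σ) = ρ(τ)`. -/
theorem rtphw_eq_iff (σ τ : GQ) :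
    (ρ.baseChangeAlong ι).ρ σ = (ρ.baseChangeAlong ι).ρ τ ↔ ρ.ρ σ = ρ.ρ τ := by
  letI : Algebra k K := ι.toAlgebra
  constructor
  · intro h
    exact rtphw_aux_baseChange_injective (K := K) h
  · intro h
    show (ρ.ρ σ).baseChange K = (ρ.ρ τ).baseChange K
    rw [h]

/-- unramifiedness transfers -/
theorem rtphw_isUnramifiedAt_iff (q : ℕ) :
    (ρ.baseChangeAlong ι).IsUnramifiedAt q ↔ ρ.IsUnramifiedAt q := by
  constructor
  · intro h A hA σ hσ
    exact (rtphw_one_iff ι ρ σ).1 (h A hA σ hσ)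
  · intro h A hA σ hσ
    exact (rtphw_one_iff ι ρ σ).2 (h A hA σ hσ)

/-- characteristic polynomials -/
theorem rtphw_charpoly (σ : GQ) :
    LinearMap.charpoly ((ρ.baseChangeAlong ι).ρ σ) = (LinearMap.charpoly (ρ.ρ σ)).map ι := by
  letI : Algebra k K := ι.toAlgebra
  exact LinearMap.charpoly_baseChange (A := K) (ρ.ρ σ)

/-- determinants -/
theorem rtphw_det (σ : GQ) :
    LinearMap.det ((ρ.baseChangeAlong ι).ρ σ) = ι (LinearMap.det (ρ.ρ σ)) := by
  letI : Algebra k K := ι.toAlgebra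
  exact LinearMap.det_baseChange (A := K) (ρ.ρ σ)

/-- traces -/
theorem rtphw_trace (σ : GQ) :
    LinearMap.trace K (ρ.baseChangeAlong ι).V ((ρ.baseChangeAlong ι).ρ σ)
      = ι (LinearMap.trace k ρ.V (ρ.ρ σ)) := by
  letI : Algebra k K := ι.toAlgebra
  exact LinearMap.trace_baseChange (ρ.ρ σ) K

/-- oddness transfers -/
theorem rtphw_isOdd (h : ρ.IsOdd) : (ρ.baseChangeAlong ι).IsOdd := by
  intro c hcc hc1
  rw [rtphw_det, h c hcc hc1, map_neg, map_one]

/-- **(w2)** the determinant condition transfers -/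
theorem rtphw_hdet_baseChangeAlong (p : ℕ)
    (h : (GaloisRepAdic.ofResidualGaloisRep ρ).DetIsCyclotomic p) :
    (GaloisRepAdic.ofResidualGaloisRep (ρ.baseChangeAlong ι)).DetIsCyclotomic p := by
  letI : Algebra k K := ι.toAlgebra
  obtain ⟨h1, h2⟩ := h
  refine ⟨?_, fun n σ a ha => ?_⟩
  · have h3 : (p : k) = 0 := by
      by_contra h0
      exact h1 (isUnit_iff_ne_zero.2 h0)
    have h4 : (p : K) = 0 := by
      rw [← map_natCast ι, h3, map_zero]
    rw [h4]
    exact Ideal.zero_mem _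
  · exact Fermat.Agent.TW.twbc_aux_det (A := k) (B := K) (V := ρ.V) (ρ.ρ σ) a (p ^ n) (h2 n σ a ha)

/-- **(w3)** `hsplit` from the splitting of quadratics over the prime field -/
theorem rtphw_hsplit_baseChangeAlong (p : ℕ) (e : k ≃+* ZMod p)
    (hK : ∀ (φ : ZMod p →+* K) (f : (ZMod p)[X]), f.Monic → f.natDegree = 2 →
      ∃ α β : K, f.map φ = (X - C α) * (X - C β)) (σ : GQ) :
    ∃ α β : K, LinearMap.charpoly ((ρ.baseChangeAlong ι).ρ σ) = (X - C α) * (X - C β) := by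
  haveI : Nontrivial (ZMod p) := e.symm.toEquiv.nontrivial
  have hm : (LinearMap.charpoly (ρ.ρ σ)).Monic := LinearMap.charpoly_monic _
  have hd : (LinearMap.charpoly (ρ.ρ σ)).natDegree = 2 := by
    rw [LinearMap.charpoly_natDegree, ρ.finrank_eq]
  obtain ⟨α, β, h⟩ := hK (ι.comp (e.symm : ZMod p →+* k))
    ((LinearMap.charpoly (ρ.ρ σ)).map (e : k →+* ZMod p)) (hm.map _)
    (by rw [hm.natDegree_map, hd])
  refine ⟨α, β, ?_⟩
  rw [rtphw_charpoly, ← h, Polynomial.map_map]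
  congr 1
  ext x
  simp

end Rep

section Residual

variable {A : Type} [CommRing A] [IsLocalRing A] (ρ : GaloisRepAdic A)

/-- the determinant condition for the residual representation -/
theorem rtphw_hdet_residual (p : ℕ) (h : ρ.DetIsCyclotomic p) :
    (GaloisRepAdic.ofResidualGaloisRep ρ.residual).DetIsCyclotomic p := by
  obtain ⟨h1, h2⟩ := h
  refine ⟨?_, fun n σ a ha => ?_⟩
  · have h4 : (p : ResidueField A) = 0 := by
      rw [← map_natCast (residue A)]
      exact (residue_eq_zero_iff _).2 h1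
    rw [h4]
    exact Ideal.zero_mem _
  · exact Fermat.Agent.TW.twbc_aux_det (A := A) (B := ResidueField A) (V := ρ.V) (ρ.ρ σ) a (p ^ n)
      (h2 n σ a ha)

/-- characteristic polynomials of the residual representation -/
theorem rtphw_charpoly_residual (σ : GQ) :
    LinearMap.charpoly (ρ.residual.ρ σ) = (LinearMap.charpoly (ρ.ρ σ)).map (residue A) :=
  LinearMap.charpoly_baseChange (A := ResidueField A) (ρ.ρ σ)

end Residual

section Tate

variable (W : WeierstrassCurve ℤ) (hΔ : W.Δ ≠ 0) (p : ℕ) [hp : Fact p.Prime]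
variable {K : Type} [Field K] (ι : ResidueField ℤ_[p] →+* K)

/-- `2 ≠ 0` in the residue field of `ℤ_p`, `p` odd -/
theorem rtphw_two_ne_zero (hp2 : p ≠ 2) : (2 : ResidueField ℤ_[p]) ≠ 0 := by
  intro h
  have h1 := congrArg (PadicInt.residueField (p := p)) h
  rw [map_ofNat, _root_.map_zero] at h1
  have h2 : ((2 : ℕ) : ZMod p) = 0 := by exact_mod_cast h1
  rw [ZMod.natCast_eq_zero_iff] at h2
  exact hp2 ((Nat.prime_dvd_prime_iff_eq hp.out Nat.prime_two).1 h2)

/-- **(w1)** `habs` -/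
theorem rtphw_habs (hp2 : p ≠ 2) (hirr : W.ModRepIsIrreducible p) :
    ((EC.tateRepInt W hΔ p).residual.baseChangeAlong ι).IsAbsolutelyIrreducible := by
  have h2 : (2 : ResidueField ℤ_[p]) ≠ 0 := rtphw_two_ne_zero p hp2
  have h2K : (2 : K) ≠ 0 := by
    intro h
    apply h2
    apply ι.injective
    rw [map_ofNat, h, map_zero]
  have hodd := EC.tateResInt_isOdd W hΔ p hirr
  have hirr1 := EC.tateResInt_isIrreducible W hΔ p hirr
  refine EC.isAbsolutelyIrreducible_of_isOdd h2K _ ?_ (rtphw_isOdd ι _ hodd)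
  letI : Algebra (ResidueField ℤ_[p]) K := ι.toAlgebra
  exact EC.baseChange_isIrreducible_of_isOdd h2 _ hirr1 hodd K

/-- **(w2)** `hdet` -/
theorem rtphw_hdet :
    (GaloisRepAdic.ofResidualGaloisRep
      ((EC.tateRepInt W hΔ p).residual.baseChangeAlong ι)).DetIsCyclotomic p :=
  rtphw_hdet_baseChangeAlong ι _ p
    (rtphw_hdet_residual _ p (EC.tateRepInt_detIsCyclotomic W hΔ p))

/-- **(w3)** `hsplit` -/
theorem rtphw_hsplit
    (hK : ∀ (φ : ZMod p →+* K) (f : (ZMod p)[X]), f.Monic → f.natDegree = 2 →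
      ∃ α β : K, f.map φ = (X - C α) * (X - C β)) (σ : GQ) :
    ∃ α β : K, LinearMap.charpoly (((EC.tateRepInt W hΔ p).residual.baseChangeAlong ι).ρ σ)
      = (X - C α) * (X - C β) :=
  rtphw_hsplit_baseChangeAlong ι _ p PadicInt.residueField hK σ

/-- **(w4)** `hTW`, from `ρ̄₁` ramified at some prime `q ≠ p` (Frey curve: `q = 2`) -/
theorem rtphw_hTW (hp2 : p ≠ 2) (hss : W.IsSemistableModel) (hirr : W.ModRepIsIrreducible p)
    {q : ℕ} (hq : q.Prime) (hqp : q ≠ p)
    (hram : ¬ (EC.tateRepInt W hΔ p).residual.IsUnramifiedAt q)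
    (K' : Type) [Field K'] [Algebra K K'] (G : Subgroup GQ) (hG : G.index = 2)
    (V : Submodule K' (((EC.tateRepInt W hΔ p).residual.baseChangeAlong ι).baseChange K').V)
    (hV : ∀ σ ∈ G, ∀ x ∈ V,
      (((EC.tateRepInt W hΔ p).residual.baseChangeAlong ι).baseChange K').ρ σ x ∈ V) :
    V = ⊥ ∨ V = ⊤ := by
  obtain ⟨σ, hσ, τ, hτ, htr⟩ :=
    EC.ecbig_tateResInt_comm_of_ramified W hΔ p hp2 hss hirr hq hqp hram G hG
  letI : Algebra (ResidueField ℤ_[p]) K := ι.toAlgebra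
  exact EC.ecbig_hTW_baseChange (EC.tateRepInt W hΔ p).residual K G hσ hτ htr K' V hV

/-- **(w5)** `hbar`: the characteristic polynomial of `ρbar(Frob_ℓ)` at a good prime `ℓ ≠ p`
(`ℓ = 2` included). -/
theorem rtphw_hbar {ℓ : ℕ} (hℓ : ℓ.Prime) (hne : ℓ ≠ p) (hgood : W.IsGoodPrimeFor ℓ)
    (A : ValuationSubring (AlgebraicClosure ℚ)) (hA : A.LiesOverPrime ℓ) (τ : GQ)
    (hτ : A.IsFrobeniusAt τ ℓ) :
    LinearMap.charpoly (((EC.tateRepInt W hΔ p).residual.baseChangeAlong ι).ρ τ) =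
      X ^ 2 - C (((W.apOfModel ℓ : ℤ) : K)) * X + C ((ℓ : K)) := by
  rw [rtphw_charpoly, rtphw_charpoly_residual,
    EC.tateRepInt_charpoly_frob_all W hΔ p hℓ hgood hne A hA τ hτ]
  simp

end Tate

section Iota

/-- a ring homomorphism `ResidueField ℤ_[p] →+* ResidueField 𝒪` exists when `p ∈ 𝔪_𝒪` -/
theorem rtphw_exists_iota (𝒪 : Type) [CommRing 𝒪] [IsLocalRing 𝒪] (p : ℕ) [hp : Fact p.Prime]
    (hp𝒪 : (p : 𝒪) ∈ maximalIdeal 𝒪) :
    Nonempty (ResidueField ℤ_[p] →+* ResidueField 𝒪) := by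
  have h0 : (p : ResidueField 𝒪) = 0 := by
    rw [← map_natCast (residue 𝒪)]
    exact (residue_eq_zero_iff _).2 hp𝒪
  haveI : CharP (ResidueField 𝒪) p := (CharP.charP_iff_prime_eq_zero hp.out).2 h0
  exact ⟨(ZMod.castHom (dvd_refl p) (ResidueField 𝒪)).comp
    (PadicInt.residueField (p := p) : ResidueField ℤ_[p] →+* ZMod p)⟩

end Iota

section Final

variable (𝒪 : Type) [CommRing 𝒪] [IsDomain 𝒪] [IsDiscreteValuationRing 𝒪]
variable (W : WeierstrassCurve ℤ) (hΔ : W.Δ ≠ 0) (p : ℕ) [hp : Fact p.Prime]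

/-- **WIRE.** The hypotheses `TWHyp` of the Taylor–Wiles machine for
`ρbar = ρ̄₁.baseChangeAlong ι`, `ρ̄₁` the residual representation of the Tate module of a
semistable curve with `E[p]` irreducible, `p` odd, ramified at some prime `q ≠ p`. -/
theorem rtphw_twHyp (hp2 : p ≠ 2) (hp𝒪 : (p : 𝒪) ∈ maximalIdeal 𝒪)
    (hK : ∀ (φ : ZMod p →+* ResidueField 𝒪) (f : (ZMod p)[X]), f.Monic → f.natDegree = 2 →
      ∃ α β : ResidueField 𝒪, f.map φ = (X - C α) * (X - C β))
    (ι : ResidueField ℤ_[p] →+* ResidueField 𝒪)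
    (hss : W.IsSemistableModel) (hirr : W.ModRepIsIrreducible p)
    {q : ℕ} (hq : q.Prime) (hqp : q ≠ p)
    (hram : ¬ (EC.tateRepInt W hΔ p).residual.IsUnramifiedAt q)
    (S Smin : Finset ℕ) (hpSmin : p ∈ Smin) (hSmin : Smin ⊆ S) (hS : ∀ q ∈ S, q.Prime)
    (hmin : ∀ q : ℕ, q.Prime → q ≠ p →
      (q ∈ Smin ↔ ¬ (EC.tateRepInt W hΔ p).residual.IsUnramifiedAt q)) :
    TW.TWHyp 𝒪 p ((EC.tateRepInt W hΔ p).residual.baseChangeAlong ι) S Smin where
  hp2 := hp2
  hp𝒪 := hp𝒪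
  habs := rtphw_habs W hΔ p ι hp2 hirr
  hdet := rtphw_hdet W hΔ p ι
  hsplit := rtphw_hsplit W hΔ p ι hK
  hTW := rtphw_hTW W hΔ p ι hp2 hss hirr hq hqp hram
  hpSmin := hpSmin
  hSmin := hSmin
  hS := hS
  hmin := fun q hq' hqp' => by
    rw [rtphw_isUnramifiedAt_iff]
    exact hmin q hq' hqp'

end Final

end Fermat.Agent.RT.Prod
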