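/-
K-machine, PROD, piece KSETUP (helper97): the situation `KSetup P N q` of
`RT/Prod/FinalPlan.lean` exists.

* `StmtProdHyp` : the contract of PROD-hyp (helper69): over every coefficient ring `O` as
  delivered by K1-O2 (complete discrete valuation ring, `p ∈ 𝔪`, residue field of order `p²`, in
  which the monic quadratic polynomials over `𝔽_p` split) there is the residual representation
  `ρbar` of the Frey curve with `TWHyp`, `IsTrivSet` and the characteristic polynomials of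
  Frobenius.
* `rtps_stmtKSetup : StmtProdHyp → K1.StmtLocGen → StmtKSetup` :
  `O = k1o2Ring p` (K1-O2), `ζ`, `λ`; `ι = ` the odd primes of `N`; `σ i, φ i` by LOC-gen;
  `s i = ± √(r i)` (Hensel), the sign being that of `ρbar (φ i)`.
-/
import Fermat.Agent.RT.Prod.FinalPlan
import Fermat.Agent.RT.K1.Coeff2
import Fermat.Agent.TW.L.FrobExists

set_option autoImplicit false
set_option linter.unusedSectionVars false
set_option linter.unusedVariables false
set_option linter.style.haveILetI false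

noncomputable section

namespace Fermat.Agent.RT.Prod

open IsLocalRing Fermat.Agent.TW Fermat.Agent.RT Fermat.Agent.RT.K1 ExtCitation Polynomial
open WeierstrassCurve WeierstrassCurve.Affine WeierstrassCurve.Affine.Point

/-- **PROD-hyp** (helper69), as a contract: in the situation of `RIB.StmtTR`, over every
coefficient ring `O` of the kind delivered by K1-O2, there are the residual representation
`ρbar` of the Frey curve over `k = ResidueField O` and an integral model `W` with the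
hypotheses of K3 (`TWHyp`, `IsTrivSet` for `Smin = {2, p}` and `T` = the odd primes of `N`),
the characteristic polynomials of the Frobenius elements, and unipotent inertia at `2`. -/
def StmtProdHyp : Prop :=
  ∀ (P : FreyPackage) (N q : ℕ), P.IsConductorLevel N → ¬ P.p ∣ N → q.Prime → q ≠ 2 →
    q ∣ N → GaloisRepIsIrreducible (K := AlgebraicClosure ℚ) ℚ P.freyCurve P.p →
    P.ModularRepOfLevel N →
    (∀ r : ℕ, r.Prime → r ≠ 2 → r ∣ N → Fermat.Agent.RIB.IsTrivialPrime P r) →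
    ∀ (O : Type) [CommRing O] [IsDomain O] [IsDiscreteValuationRing O]
      [IsAdicComplete (maximalIdeal O) O] [Finite (ResidueField O)] [CharZero O],
      (P.p : O) ∈ maximalIdeal O → Nat.card (ResidueField O) = P.p ^ 2 →
      (∀ (φ : ZMod P.p →+* ResidueField O) (f : (ZMod P.p)[X]), f.Monic → f.natDegree = 2 →
        ∃ α β : ResidueField O, f.map φ = (X - C α) * (X - C β)) →
      ∀ T : Finset ℕ, (∀ ℓ : ℕ, ℓ ∈ T ↔ ℓ.Prime ∧ ℓ ≠ 2 ∧ ℓ ∣ N) →
        ∃ (ρbar : ResidualGaloisRep (ResidueField O)) (W : WeierstrassCurve ℤ),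
          TWHyp O P.p ρbar ({2, P.p} ∪ T) {2, P.p} ∧ IsTrivSet P.p ρbar {2, P.p} T ∧
          W.IsIntegralModelOf P.freyCurve ∧
          (∀ ℓ : ℕ, ℓ.Prime → ℓ ≠ P.p → W.IsGoodPrimeFor ℓ →
            ∀ 𝔄 : ValuationSubring (AlgebraicClosure ℚ), 𝔄.LiesOverPrime ℓ →
              ∀ τ : RtpaG, 𝔄.IsFrobeniusAt τ ℓ →
                LinearMap.charpoly (ρbar.ρ τ) =
                  X ^ 2 - C (((W.apOfModel ℓ : ℤ) : ResidueField O)) * X +
                    C ((ℓ : ResidueField O))) ∧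
          ∀ 𝔄 : ValuationSubring (AlgebraicClosure ℚ), 𝔄.LiesOverPrime 2 →
            ∀ s ∈ 𝔄.inertiaSubgroupIn ℚ, LinearMap.charpoly (ρbar.ρ s) = (X - 1) ^ 2

/-- the odd primes of `N` -/
def rtpsT (N : ℕ) : Finset ℕ := N.primeFactors.filter fun ℓ => ℓ ≠ 2

theorem rtps_mem_T {N : ℕ} (hN : 0 < N) (ℓ : ℕ) :
    ℓ ∈ rtpsT N ↔ ℓ.Prime ∧ ℓ ≠ 2 ∧ ℓ ∣ N := by
  rw [rtpsT, Finset.mem_filter, Nat.mem_primeFactors]
  constructor
  · rintro ⟨⟨h1, h2, -⟩, h3⟩
    exact ⟨h1, h3, h2⟩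
  · rintro ⟨h1, h3, h2⟩
    exact ⟨⟨h1, h2, hN.ne'⟩, h3⟩

theorem rtps_image_val (T : Finset ℕ) :
    (Finset.univ : Finset T).image (fun i : T => (i : ℕ)) = T := by
  ext ℓ
  simp

/-- on a trivial prime, the residual representation is `±1` at the Frobenius element of
LOC-gen -/
theorem rtps_sign {k : Type} [Field k] {p : ℕ} {ρbar : ResidualGaloisRep k} {Smin T : Finset ℕ}
    (hT : IsTrivSet p ρbar Smin T) {r : ℕ} [Fact r.Prime] (hr : r ∈ T) {φ : RtpaG}
    (hφ : (padicPlace r).IsFrobeniusAt φ r) : ρbar.ρ φ = 1 ∨ ρbar.ρ φ = -1 :=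
  (hT r hr).2.2.2 (padicPlace r) (Fermat.Agent.TW.L.lfrobex_liesOverPrime r) φ
    hφ.mem_decompositionSubgroup

theorem rtps_int_dvd {p r : ℕ} (hr : 1 ≤ r) (h : p ∣ r - 1) : (p : ℤ) ∣ (r : ℤ) - 1 := by
  have h1 : ((r - 1 : ℕ) : ℤ) = (r : ℤ) - 1 := by
    rw [Nat.cast_sub hr, Nat.cast_one]
  rw [← h1]
  exact Int.natCast_dvd_natCast.2 h

/-- **KSETUP.** -/
theorem rtps_stmtKSetup (hH : StmtProdHyp) (hL : K1.StmtLocGen) : StmtKSetup := by
  intro P N q hN hpN hq hq2 hqN hirr hmod htriv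
  haveI : Fact P.p.Prime := ⟨P.pp⟩
  haveI hp2 : Fact (P.p ≠ 2) := ⟨by have := P.hp5; omega⟩
  -- the residual representation
  obtain ⟨ρbar, W, hyp, hT, hW, hbar, hunip2⟩ := hH P N q hN hpN hq hq2 hqN hirr hmod htriv
    (k1o2Ring P.p) (k1o2_p_mem P.p) (k1o2_card_residueField P.p) (k1o2_residue_split P.p)
    (rtpsT N) (rtps_mem_T hN.pos)
  -- the trivial primes
  have hprime : ∀ i : rtpsT N, (i : ℕ).Prime := fun i => ((rtps_mem_T hN.pos _).1 i.2).1
  have hne : ∀ i : rtpsT N, (i : ℕ) ≠ P.p := by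
    intro i h
    exact hpN (h ▸ ((rtps_mem_T hN.pos _).1 i.2).2.2)
  -- LOC-gen
  have hloc : ∀ i : rtpsT N, ∃ σ φ : RtpaG,
      ∀ [Fact (i : ℕ).Prime], IsLocGenAt P.p (i : ℕ) σ φ := by
    intro i
    haveI : Fact (i : ℕ).Prime := ⟨hprime i⟩
    obtain ⟨σ, φ, h⟩ := exists_isLocGenAt hL P.p (i : ℕ) (hne i)
    exact ⟨σ, φ, fun {_} => h⟩
  choose σ φ hσφ using hloc
  -- the square roots
  have hsq : ∀ i : rtpsT N, ∃ s : k1o2Ring P.p, s ^ 2 = ((i : ℕ) : k1o2Ring P.p) ∧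
      ((ρbar.ρ (φ i) = 1 ∧ s - 1 ∈ maximalIdeal (k1o2Ring P.p)) ∨
        (ρbar.ρ (φ i) = -1 ∧ s + 1 ∈ maximalIdeal (k1o2Ring P.p))) := by
    intro i
    haveI : Fact (i : ℕ).Prime := ⟨hprime i⟩
    have hi := (rtps_mem_T hN.pos _).1 i.2
    have htr := hT (i : ℕ) i.2
    have hdvd : (P.p : ℤ) ∣ ((i : ℕ) : ℤ) - 1 := rtps_int_dvd (hprime i).one_le htr.2.2.1
    obtain ⟨-, -, s, t, hs2, hst⟩ := k1o2_exists_sqrt_nat P.p (i : ℕ) hdvd (hprime i).ne_one
    have hmem : k1o2Lam P.p * t ∈ maximalIdeal (k1o2Ring P.p) := by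
      rw [k1o2_maximalIdeal_eq]
      exact Ideal.mul_mem_right _ _ (Ideal.mem_span_singleton_self _)
    rcases rtps_sign hT i.2 (hσφ i).frob with h1 | h1
    · refine ⟨s, hs2, Or.inl ⟨h1, ?_⟩⟩
      rw [hst, add_sub_cancel_left]
      exact hmem
    · refine ⟨-s, by rw [neg_pow_two, hs2], Or.inr ⟨h1, ?_⟩⟩
      rw [hst]
      have : -(1 + k1o2Lam P.p * t) + 1 = -(k1o2Lam P.p * t) := by ring
      rw [this]
      exact (Ideal.neg_mem_iff _).2 hmem
  choose s hs2 hs using hsq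
  have himg := rtps_image_val (rtpsT N)
  exact ⟨{
    O := k1o2Ring P.p
    lam := k1o2Lam P.p
    hlam := k1o2_maximalIdeal_eq P.p
    h2 := k1o2_isUnit_two P.p
    ζ := k1o2Zeta P.p
    hζ := k1o2_zeta_primitive P.p
    ρbar := ρbar
    Smin := {2, P.p}
    hSmin := rfl
    ι := rtpsT N
    r := fun i => (i : ℕ)
    r_inj := Subtype.val_injective
    hr := fun ℓ => by rw [himg]; exact rtps_mem_T hN.pos ℓ
    hyp := by rw [himg]; exact hyp
    hT := by rw [himg]; exact hT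
    σ := σ
    φ := φ
    hloc := fun i => hσφ i
    s := s
    hs2 := hs2
    hs := hs
    W := W
    hW := hW
    hbar := hbar
    hunip2 := hunip2 }⟩

end Fermat.Agent.RT.Prod

end
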