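import Mathlib
import Fermat.Agent.RT.Prod.HypFrey
import Fermat.Agent.RT.Prod.HypWire
import Fermat.Agent.RT.Prod.Setup
import Fermat.Agent.RED.UnipTwoTate

/-!
# K-machine, PROD-hyp (helper69 + helper63): the final statement

`stmtProdHyp : StmtProdHyp` (the contract of `RT/Prod/Setup.lean`, helper97): for a Frey package in
the situation of `RIB.StmtTR` and a coefficient ring `O` with residue field of `p²` elements,
`ρbar = ρ̄₁.baseChangeAlong ι`, `ρ̄₁ = (tateRepInt P.freyCurveInt _ p).residual`, satisfies `TWHyp`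
(for `Smin = {2, p}`, `S = Smin ∪ T`), `IsTrivSet` and has the Frobenius characteristic
polynomials of `W = P.freyCurveInt`.

Inputs: WIRE (`RT/Prod/HypWire.lean`, helper63), DICT + FREY (`HypDict.lean`, `HypFrey.lean`),
ramification at `2` (`RIB/MP/AuxTwo.lean`, helper85), S05, LOC-gen (`K1.stmtLocGen`),
E-BIG (helper77).
-/

set_option autoImplicit false

namespace Fermat.Agent.RT.Prod

open IsLocalRing Fermat.Agent.TW Fermat.Agent.RT Fermat.Agent.EC Fermat.Agent.S04 Polynomial

/-- the Frey `ρbar` is unipotent on the inertia groups at `2` (helper97, for HK-RES (R2)) -/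
theorem rtph_unip2 (P : FreyPackage) [hpF : Fact P.p.Prime] {K : Type} [Field K]
    (ι : ResidueField ℤ_[P.p] →+* K)
    (A : ValuationSubring (AlgebraicClosure ℚ)) (hA : A.LiesOverPrime 2)
    (s : AlgebraicClosure ℚ ≃ₐ[ℚ] AlgebraicClosure ℚ) (hs : s ∈ A.inertiaSubgroupIn ℚ) :
    LinearMap.charpoly (((rtphRho P).baseChangeAlong ι).ρ s) = (X - 1) ^ 2 := by
  have hp2 : P.p ≠ 2 := by have := P.hp5; omega
  have h1 := Fermat.Agent.RED.tateRepInt_isUnipotentOnInertiaAt_of_semistable_all P.freyCurveInt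
    (freyCurveInt_Δ_ne_zero P) (freyCurveInt_isSemistableModel P) P.p hp2 Nat.prime_two
    (Ne.symm hp2) A hA s hs
  have h2 : LinearMap.charpoly ((rtphRho P).ρ s) = (X - 1) ^ 2 := by
    have h3 := rtphw_charpoly_residual (tateRepInt P.freyCurveInt (freyCurveInt_Δ_ne_zero P) P.p) s
    rw [h1] at h3
    simpa using h3
  rw [rtphw_charpoly, h2]
  simp

/-- **PROD-hyp.** -/
theorem stmtProdHyp : StmtProdHyp := by
  intro P N q hN hpN hq hq2 hqN hirr hmod htriv O _ _ _ _ _ _ hpO hcard hsplit T hT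
  have hpF : Fact P.p.Prime := ⟨P.pp⟩
  have hp2 : P.p ≠ 2 := by have := P.hp5; omega
  obtain ⟨ι⟩ := rtphw_exists_iota O P.p hpO
  have hirr' : P.freyCurveInt.ModRepIsIrreducible P.p := by
    unfold WeierstrassCurve.ModRepIsIrreducible
    rw [freyCurveInt_map]
    exact hirr
  refine ⟨(rtphRho P).baseChangeAlong ι, P.freyCurveInt, ?_, ?_, ?_, ?_, ?_⟩
  · -- TWHyp
    refine rtphw_twHyp O P.freyCurveInt (freyCurveInt_Δ_ne_zero P) P.p hp2 hpO hsplit ι
      (freyCurveInt_isSemistableModel P) hirr' Nat.prime_two (Ne.symm hp2) (rtph_frey_ram2 P)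
      _ _ ?_ Finset.subset_union_left ?_ (rtph_frey_hmin P)
    · exact Finset.mem_insert_of_mem (Finset.mem_singleton_self _)
    · intro ℓ hℓ
      rw [Finset.mem_union, Finset.mem_insert, Finset.mem_singleton] at hℓ
      rcases hℓ with (rfl | rfl) | hℓ
      · exact Nat.prime_two
      · exact P.pp
      · exact ((hT ℓ).1 hℓ).1
  · -- IsTrivSet
    intro r hr
    obtain ⟨hrp, hr2, hrN⟩ := (hT r).1 hr
    have htr := htriv r hrp hr2 hrN
    refine ⟨hrp, ?_, htr.2.2.1, ?_⟩
    · rw [Finset.mem_insert, Finset.mem_singleton, not_or]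
      exact ⟨hr2, htr.2.1⟩
    · intro A hA σ hσ
      show ((rtphRho P).baseChangeAlong ι).ρ σ = 1 ∨ ((rtphRho P).baseChangeAlong ι).ρ σ = -1
      rw [rtphw_one_iff, rtphw_neg_one_iff]
      exact rtph_frey_triv P htr hr2 A hA σ hσ
  · -- integral model
    exact ⟨1, by rw [one_smul, freyCurveInt_map]⟩
  · -- Frobenius
    intro ℓ hℓ hne hgood A hA τ hτ
    exact rtphw_hbar P.freyCurveInt (freyCurveInt_Δ_ne_zero P) P.p ι hℓ hne hgood A hA τ hτ
  · -- unipotent inertia at 2 (helper97, for HK-RES (R2))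
    intro A hA s hs
    exact rtph_unip2 P ι A hA s hs

end Fermat.Agent.RT.Prod
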