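/-
K-machine, PROD, KSETUP closed (helper97): `stmtKSetup : StmtKSetup`, from
`rtps_stmtKSetup` (RT/Prod/Setup.lean), `stmtProdHyp` (helper69, RT/Prod/Hyp.lean) and
`K1.stmtLocGen` (helper65 + helper57, RT/K1/TameGenFinal.lean).
-/
import Fermat.Agent.RT.Prod.Setup
import Fermat.Agent.RT.Prod.Hyp
import Fermat.Agent.RT.K1.TameGenFinal

set_option autoImplicit false

namespace Fermat.Agent.RT.Prod

/-- **KSETUP**: the situation of the K-machine exists (unconditional). -/
theorem stmtKSetup : StmtKSetup :=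
  rtps_stmtKSetup stmtProdHyp Fermat.Agent.RT.K1.stmtLocGen

end Fermat.Agent.RT.Prod
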