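import Fermat.Agent.RT.Prod.Pre

/-!
# K-machine, PROD-asm, algebraic core: `TWPre → TWDatum`

* `rtprod_side`  : one action `π` of `A` gives a `TWSide` over `A ⧸ ker π`;
* `rtprod_datum` : `TWPre → TWDatum` (with `T¹ = A ⧸ ker π1`, `T^χ = A ⧸ ker πχ`).
-/

set_option autoImplicit false
set_option linter.style.haveILetI false

namespace Fermat.Agent.RT.Prod

open MvPowerSeries IsLocalRing Fermat.Agent.RT

section Side

variable {O : Type*} [CommRing O] {ι τ : Type*} {A : Type*} [CommRing A] [Algebra O A]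
  {Sn : Type*} [CommRing Sn] [Algebra O Sn] {d : ℕ}

/-- **One side.** -/
theorem rtprod_side (π : A →ₐ[O] Matrix (Fin d) (Fin d) Sn) (t s : ι → O)
    (Sig Phi : ι → Matrix (Fin 2) (Fin 2) A) (x : τ → A)
    (htr : ∀ i, π (Sig i).trace = algebraMap O _ (2 * t i))
    (hdet_sig : ∀ i, (Sig i).det = 1)
    (hdet_phi : ∀ i, (Phi i).det = algebraMap O A (s i ^ 2))
    (hnil_t : ∀ i, IsNilpotent (algebraMap O (RtprodQ π) (t i) - 1))
    (hnil_sig : ∀ i a b, IsNilpotent ((Sig i - 1) a b))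
    (hnil_phi : ∀ i a b,
      IsNilpotent ((Phi i - algebraMap O A (s i) • (1 : Matrix (Fin 2) (Fin 2) A)) a b))
    (hnil_x : ∀ k, IsNilpotent (x k))
    (hgen : ∀ c : Sn, ∃ u ∈ Algebra.adjoin O (rttwEntries Sig ∪ rttwEntries Phi ∪ Set.range x),
      π u = algebraMap Sn (Matrix (Fin d) (Fin d) Sn) c) :
    TWSide t s (rtprodJ π) (rtprodMat π Sig) (rtprodMat π Phi) (rtprodX π x) := by
  refine ⟨?_, ?_, ?_, ?_, ?_, ?_, ?_⟩
  · intro i
    apply rtprodJ_injective π
    rw [rtprodMat_trace, rtprodJ_mk, htr, AlgHom.commutes]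
  · intro i
    rw [rtprodMat_det, hdet_sig, map_one]
  · intro i
    rw [rtprodMat_det, hdet_phi]
    rfl
  · intro i a b
    have h1 : IsNilpotent (Ideal.Quotient.mk (RingHom.ker (π : A →+* Matrix (Fin d) (Fin d) Sn))
        ((Sig i - 1) a b)) := (hnil_sig i a b).map _
    by_cases hab : a = b
    · subst hab
      have e : (rtprodMat π Sig i - algebraMap O (RtprodQ π) (t i) •
          (1 : Matrix (Fin 2) (Fin 2) (RtprodQ π))) a a =
          Ideal.Quotient.mk _ ((Sig i - 1) a a) - (algebraMap O (RtprodQ π) (t i) - 1) := by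
        rw [Matrix.sub_apply, Matrix.smul_apply, Matrix.one_apply_eq, smul_eq_mul, mul_one,
          rtprodMat_apply, Matrix.sub_apply, Matrix.one_apply_eq, map_sub, map_one]
        ring
      rw [e]
      exact (Commute.all _ _).isNilpotent_sub h1 (hnil_t i)
    · have e : (rtprodMat π Sig i - algebraMap O (RtprodQ π) (t i) •
          (1 : Matrix (Fin 2) (Fin 2) (RtprodQ π))) a b =
          Ideal.Quotient.mk _ ((Sig i - 1) a b) := by
        rw [Matrix.sub_apply, Matrix.smul_apply, Matrix.one_apply_ne hab, smul_zero, sub_zero,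
          rtprodMat_apply, Matrix.sub_apply, Matrix.one_apply_ne hab, sub_zero]
      rw [e]
      exact h1
  · intro i a b
    have h1 : IsNilpotent (Ideal.Quotient.mk (RingHom.ker (π : A →+* Matrix (Fin d) (Fin d) Sn))
        ((Phi i - algebraMap O A (s i) • (1 : Matrix (Fin 2) (Fin 2) A)) a b)) :=
      (hnil_phi i a b).map _
    have e : (rtprodMat π Phi i - algebraMap O (RtprodQ π) (s i) •
        (1 : Matrix (Fin 2) (Fin 2) (RtprodQ π))) a b =
        Ideal.Quotient.mk _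
          ((Phi i - algebraMap O A (s i) • (1 : Matrix (Fin 2) (Fin 2) A)) a b) := by
      by_cases hab : a = b
      · subst hab
        rw [Matrix.sub_apply, Matrix.smul_apply, Matrix.one_apply_eq, smul_eq_mul, mul_one,
          rtprodMat_apply, Matrix.sub_apply, Matrix.smul_apply, Matrix.one_apply_eq, smul_eq_mul,
          mul_one, map_sub]
        rfl
      · rw [Matrix.sub_apply, Matrix.smul_apply, Matrix.one_apply_ne hab, smul_zero, sub_zero,
          rtprodMat_apply, Matrix.sub_apply, Matrix.smul_apply, Matrix.one_apply_ne hab,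
          smul_zero, sub_zero]
    rw [e]
    exact h1
  · intro k
    exact (hnil_x k).map _
  · intro c
    obtain ⟨u, hu, hπ⟩ := hgen c
    exact ⟨Ideal.Quotient.mk _ u, rtprod_mk_mem_adjoin π Sig Phi x hu, by rw [rtprodJ_mk, hπ]⟩

end Side

section Datum

variable {O : Type*} [CommRing O] [IsDomain O] [IsLocalRing O] {ι τ : Type*}

omit [IsDomain O] in
/-- `λ ^ n` acts as `0` on `(S ⧸ 𝔪 ^ n)^d`. -/
theorem rtprod_lam_pow_eq_zero {lam : O} (hlam : lam ∈ maximalIdeal O) (m d n : ℕ) :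
    algebraMap O (Matrix (Fin d) (Fin d) (RttwS O m ⧸ maximalIdeal (RttwS O m) ^ n))
      (lam ^ n) = 0 := by
  have h0 : algebraMap O (RttwS O m ⧸ maximalIdeal (RttwS O m) ^ n) (lam ^ n) = 0 := by
    have e : algebraMap O (RttwS O m ⧸ maximalIdeal (RttwS O m) ^ n) (lam ^ n) =
        Ideal.Quotient.mk _ ((C lam : RttwS O m) ^ n) := by
      rw [← map_pow]; rfl
    rw [e, Ideal.Quotient.eq_zero_iff_mem]
    refine Ideal.pow_mem_pow ?_ n
    rw [IsLocalRing.mem_maximalIdeal, mem_nonunits_iff, MvPowerSeries.isUnit_iff_constantCoeff,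
      MvPowerSeries.constantCoeff_C]
    exact hlam
  ext a b
  rw [Matrix.algebraMap_matrix_apply, h0]
  simp

/-- **PROD-asm, algebraic core.**  `q i = r i` in `O`, `p ∣ r i − 1`,
`ζ_i = tχ i + δ i` a `p`-th root of unity with `ζ_i ≠ ζ_i⁻¹ = tχ i − δ i`, `tχ i ≡ 1 mod λ`. -/
theorem rtprod_datum (p : ℕ) (r : ι → ℕ) (q s tχ δ : ι → O) (lam : O)
    (hlam : lam ∈ maximalIdeal O)
    (hq : ∀ i, q i = (r i : O)) (hr : ∀ i, p ∣ r i - 1) (hr1 : ∀ i, 1 ≤ r i)
    (htδ : ∀ i, tχ i ^ 2 - δ i ^ 2 = 1) (hζ : ∀ i, (tχ i + δ i) ^ p = 1)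
    (hδ0 : ∀ i, 2 * δ i ≠ 0) (htχ : ∀ i, ∃ c, tχ i = 1 + lam * c)
    (m d : ℕ) {T0 : Type*} [CommRing T0] [Algebra O T0]
    (j0 : T0 →ₐ[O] Matrix (Fin d) (Fin d) O)
    (Sig0 Phi0 : ι → Matrix (Fin 2) (Fin 2) T0) (n : ℕ)
    {A : Type*} [CommRing A] [Algebra O A]
    (π1 πχ : A →ₐ[O] Matrix (Fin d) (Fin d) (RttwS O m ⧸ maximalIdeal (RttwS O m) ^ n))
    (Sig Phi : ι → Matrix (Fin 2) (Fin 2) A) (x : τ → A)
    (h : TWPre r s tχ lam m d j0 Sig0 Phi0 n π1 πχ Sig Phi x) :
    TWDatum q s tχ lam m d j0 Sig0 Phi0 n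
      (rtprodJ π1) (rtprodMat π1 Sig) (rtprodMat π1 Phi) (rtprodX π1 x)
      (rtprodJ πχ) (rtprodMat πχ Sig) (rtprodMat πχ Phi) (rtprodX πχ x) := by
  have hs1 : TWSide (fun _ => (1 : O)) s (rtprodJ π1) (rtprodMat π1 Sig) (rtprodMat π1 Phi)
      (rtprodX π1 x) := by
    refine rtprod_side π1 _ s Sig Phi x (fun i => ?_) h.det_sig h.det_phi (fun i => ?_)
      h.nil_sig h.nil_phi h.nil_x h.gen1
    · rw [h.tr1, mul_one, map_ofNat]
    · rw [map_one, sub_self]; exact IsNilpotent.zero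
  have hsχ : TWSide tχ s (rtprodJ πχ) (rtprodMat πχ Sig) (rtprodMat πχ Phi)
      (rtprodX πχ x) := by
    refine rtprod_side πχ _ s Sig Phi x h.trχ h.det_sig h.det_phi (fun i => ?_)
      h.nil_sig h.nil_phi h.nil_x h.genχ
    obtain ⟨c, hc⟩ := htχ i
    have hl : IsNilpotent (algebraMap O (RtprodQ πχ) lam) := by
      refine ⟨n, ?_⟩
      have e0 : rtprodJ πχ (algebraMap O (RtprodQ πχ) lam ^ n) = rtprodJ πχ 0 := by
        rw [← map_pow, AlgHom.commutes, map_zero]
        exact rtprod_lam_pow_eq_zero hlam m d n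
      exact rtprodJ_injective πχ e0
    have e : algebraMap O (RtprodQ πχ) (tχ i) - 1 =
        algebraMap O (RtprodQ πχ) lam * algebraMap O (RtprodQ πχ) c := by
      rw [hc, map_add, map_one, map_mul]; ring
    rw [e]
    exact (Commute.all _ _).isNilpotent_mul_right hl
  refine ⟨hs1, hsχ, ?_, ?_, ?_, ?_, ?_, ?_, ?_, ?_⟩
  · -- rel1
    intro i
    have htr : (rtprodMat π1 Sig i).trace = 2 := by
      have := hs1.tr_sig i
      rwa [mul_one, map_ofNat] at this
    have hc : rtprodMat π1 Phi i * rtprodMat π1 Sig i =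
        rtprodMat π1 Sig i ^ r i * rtprodMat π1 Phi i := by
      rw [rtprodMat_eq, rtprodMat_eq, ← map_mul, h.conj i, map_mul, map_pow]
    have := rtprod_rel1 _ _ htr (hs1.det_sig i) (r i) hc
    rw [this, hq i, map_natCast]
  · -- relχ
    intro i
    have hc : rtprodMat πχ Phi i * rtprodMat πχ Sig i =
        rtprodMat πχ Sig i ^ r i * rtprodMat πχ Phi i := by
      rw [rtprodMat_eq, rtprodMat_eq, ← map_mul, h.conj i, map_mul, map_pow]
    refine rtprod_relchi (tχ i + δ i) (tχ i - δ i) p (r i) (hζ i) ?_ ?_ (hr i) (hr1 i) _ _ ?_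
      (hsχ.det_sig i) hc
    · linear_combination htδ i
    · intro e
      apply hδ0 i
      linear_combination e
    · rw [hsχ.tr_sig i]
      congr 1
      ring
  · intro i a b
    exact h.cong (Sig i a b)
  · intro i a b
    exact h.cong (Phi i a b)
  · intro k
    exact h.cong (x k)
  · intro i a b
    exact h.base_sig i a b
  · intro i a b
    exact h.base_phi i a b
  · intro u
    obtain ⟨a, rfl⟩ := Ideal.Quotient.mk_surjective u
    exact h.base_T0 a

end Datum

end Fermat.Agent.RT.Prod
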