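/-
K-machine, HECKE-PACK (helper70): the contract `RT.StmtHkPack` (`RT/Hecke/PlanFinal.lean`),
from `rtha_pack_std` (`RT/Prod/HaPack.lean`).
-/
import Fermat.Agent.RT.Prod.HaPack
import Fermat.Agent.RT.Hecke.PlanFinal

set_option autoImplicit false
set_option linter.style.haveILetI false

namespace Fermat.Agent.RT.Prod

open IsLocalRing Fermat.Agent.TW Fermat.Agent.RT ExtCitation

/-- **HECKE-PACK** (unconditional). -/
theorem stmtHkPack : Fermat.Agent.RT.StmtHkPack := by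
  intro P N q _ Y h d n Q T0 _ _ j0 Sig0 Phi0 A₀ _ _ _ ιA ρ b φ1 φχ H
  haveI : Fact P.p.Prime := ⟨P.pp⟩
  exact rtha_pack_std P.p Y.lam Y.ρbar Y.hyp.habs Y.Smin Q Y.r Y.r_inj Y.σ Y.φ Y.tχ h d n j0
    Sig0 Phi0 ιA ρ b φ1 φχ H

end Fermat.Agent.RT.Prod
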