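import Fermat.Agent.RT.PlanTW
import Fermat.Agent.RT.Prod.Rel

/-!
# K-machine, PROD-asm, algebraic core: ONE ring with two actions gives a Taylor–Wiles datum

`TWPre` is what the arithmetic side (HECKE + K3 + LOC-gen) has to deliver at level `n`:
ONE commutative `O`-algebra `A` (the image of the framed Hecke ring in `T¹ × T^χ`) with its two
actions `π1`, `πχ` on `(S ⧸ 𝔪 ^ n)^d`, the framed matrices `Σ_i`, `Φ_i ∈ M₂(A)` with
`Φ Σ = Σ ^ r Φ`, and the further generators `x`.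

`rtprod_datum : TWPre → TWDatum` with `T¹ = A ⧸ ker π1`, `T^χ = A ⧸ ker πχ`; the relations
`rel1`, `relχ` are derived (`RT/Prod/Rel.lean`).
-/

set_option autoImplicit false
set_option linter.style.haveILetI false

namespace Fermat.Agent.RT.Prod

open MvPowerSeries IsLocalRing Fermat.Agent.RT

section Pre

variable {O : Type*} [CommRing O] [IsLocalRing O] {ι τ : Type*}

/-- **The algebraic datum at level `n`**: one ring `A`, two actions.
`r i` is the `i`-th trivial prime, `s i` the chosen square root of its image in `O`,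
`tχ i = (ζ_i + ζ_i⁻¹)/2`. -/
structure TWPre (r : ι → ℕ) (s tχ : ι → O) (lam : O) (m d : ℕ)
    {T0 : Type*} [CommRing T0] [Algebra O T0] (j0 : T0 →ₐ[O] Matrix (Fin d) (Fin d) O)
    (Sig0 Phi0 : ι → Matrix (Fin 2) (Fin 2) T0) (n : ℕ)
    {A : Type*} [CommRing A] [Algebra O A]
    (π1 πχ : A →ₐ[O] Matrix (Fin d) (Fin d) (RttwS O m ⧸ maximalIdeal (RttwS O m) ^ n))
    (Sig Phi : ι → Matrix (Fin 2) (Fin 2) A) (x : τ → A) : Prop where
  tr1 : ∀ i, π1 (Sig i).trace = 2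
  trχ : ∀ i, πχ (Sig i).trace = algebraMap O _ (2 * tχ i)
  det_sig : ∀ i, (Sig i).det = 1
  det_phi : ∀ i, (Phi i).det = algebraMap O A (s i ^ 2)
  nil_sig : ∀ i a b, IsNilpotent ((Sig i - 1) a b)
  nil_phi : ∀ i a b,
    IsNilpotent ((Phi i - algebraMap O A (s i) • (1 : Matrix (Fin 2) (Fin 2) A)) a b)
  nil_x : ∀ k, IsNilpotent (x k)
  conj : ∀ i, Phi i * Sig i = Sig i ^ r i * Phi i
  gen1 : ∀ c : RttwS O m ⧸ maximalIdeal (RttwS O m) ^ n,
    ∃ u ∈ Algebra.adjoin O (rttwEntries Sig ∪ rttwEntries Phi ∪ Set.range x),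
      π1 u = algebraMap _ (Matrix (Fin d) (Fin d) (RttwS O m ⧸ maximalIdeal (RttwS O m) ^ n)) c
  genχ : ∀ c : RttwS O m ⧸ maximalIdeal (RttwS O m) ^ n,
    ∃ u ∈ Algebra.adjoin O (rttwEntries Sig ∪ rttwEntries Phi ∪ Set.range x),
      πχ u = algebraMap _ (Matrix (Fin d) (Fin d) (RttwS O m ⧸ maximalIdeal (RttwS O m) ^ n)) c
  cong : ∀ u : A,
    (π1 u).map (Ideal.Quotient.factor
        (le_sup_right : maximalIdeal (RttwS O m) ^ n ≤
          rttwLam m lam ⊔ maximalIdeal (RttwS O m) ^ n)) =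
      (πχ u).map (Ideal.Quotient.factor
        (le_sup_right : maximalIdeal (RttwS O m) ^ n ≤
          rttwLam m lam ⊔ maximalIdeal (RttwS O m) ^ n))
  base_sig : ∀ i a b,
    (π1 (Sig i a b)).map (Ideal.Quotient.factor
        (le_sup_right : maximalIdeal (RttwS O m) ^ n ≤
          rttwAug O m ⊔ maximalIdeal (RttwS O m) ^ n)) =
      rttwBaseRed m d n (j0 (Sig0 i a b))
  base_phi : ∀ i a b,
    (π1 (Phi i a b)).map (Ideal.Quotient.factor
        (le_sup_right : maximalIdeal (RttwS O m) ^ n ≤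
          rttwAug O m ⊔ maximalIdeal (RttwS O m) ^ n)) =
      rttwBaseRed m d n (j0 (Phi0 i a b))
  base_T0 : ∀ u : A, ∃ t0 : T0,
    (π1 u).map (Ideal.Quotient.factor
        (le_sup_right : maximalIdeal (RttwS O m) ^ n ≤
          rttwAug O m ⊔ maximalIdeal (RttwS O m) ^ n)) =
      rttwBaseRed m d n (j0 t0)

end Pre

section Quot

variable {O : Type*} [CommRing O] {A : Type*} [CommRing A] [Algebra O A]
  {M : Type*} [Ring M] [Algebra O M]

/-- The quotient of `A` acting faithfully. -/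
abbrev RtprodQ (π : A →ₐ[O] M) : Type _ := A ⧸ RingHom.ker (π : A →+* M)

/-- The action of the quotient. -/
noncomputable def rtprodJ (π : A →ₐ[O] M) : RtprodQ π →ₐ[O] M :=
  Ideal.Quotient.liftₐ (RingHom.ker (π : A →+* M)) π fun _ ha => ha

@[simp] theorem rtprodJ_mk (π : A →ₐ[O] M) (a : A) :
    rtprodJ π (Ideal.Quotient.mk _ a) = π a := rfl

theorem rtprodJ_injective (π : A →ₐ[O] M) : Function.Injective (rtprodJ π) := by
  rw [injective_iff_map_eq_zero]
  intro u hu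
  obtain ⟨a, rfl⟩ := Ideal.Quotient.mk_surjective u
  rw [rtprodJ_mk] at hu
  exact Ideal.Quotient.eq_zero_iff_mem.mpr hu

/-- The image of a family of matrices in the quotient. -/
noncomputable def rtprodMat {ι : Type*} (π : A →ₐ[O] M)
    (S : ι → Matrix (Fin 2) (Fin 2) A) (i : ι) : Matrix (Fin 2) (Fin 2) (RtprodQ π) :=
  (S i).map (Ideal.Quotient.mk (RingHom.ker (π : A →+* M)))

theorem rtprodMat_apply {ι : Type*} (π : A →ₐ[O] M) (S : ι → Matrix (Fin 2) (Fin 2) A) (i : ι)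
    (a b : Fin 2) : rtprodMat π S i a b = Ideal.Quotient.mk _ (S i a b) := rfl

theorem rtprodMat_eq {ι : Type*} (π : A →ₐ[O] M) (S : ι → Matrix (Fin 2) (Fin 2) A) (i : ι) :
    rtprodMat π S i = (Ideal.Quotient.mk (RingHom.ker (π : A →+* M))).mapMatrix (S i) := rfl

theorem rtprodMat_trace {ι : Type*} (π : A →ₐ[O] M) (S : ι → Matrix (Fin 2) (Fin 2) A)
    (i : ι) : (rtprodMat π S i).trace = Ideal.Quotient.mk _ (S i).trace := by
  rw [Matrix.trace_fin_two, Matrix.trace_fin_two, map_add]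
  rfl

theorem rtprodMat_det {ι : Type*} (π : A →ₐ[O] M) (S : ι → Matrix (Fin 2) (Fin 2) A)
    (i : ι) : (rtprodMat π S i).det = Ideal.Quotient.mk _ (S i).det := by
  rw [Matrix.det_fin_two, Matrix.det_fin_two, map_sub, map_mul, map_mul]
  rfl

/-- The image of a family of elements in the quotient. -/
noncomputable def rtprodX {τ : Type*} (π : A →ₐ[O] M) (x : τ → A) (k : τ) : RtprodQ π :=
  Ideal.Quotient.mk (RingHom.ker (π : A →+* M)) (x k)

theorem rtprodX_apply {τ : Type*} (π : A →ₐ[O] M) (x : τ → A) (k : τ) :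
    rtprodX π x k = Ideal.Quotient.mk _ (x k) := rfl

/-- The image of the generated subalgebra. -/
theorem rtprod_mk_mem_adjoin {ι τ : Type*} (π : A →ₐ[O] M)
    (Sig Phi : ι → Matrix (Fin 2) (Fin 2) A) (x : τ → A) {u : A}
    (hu : u ∈ Algebra.adjoin O (rttwEntries Sig ∪ rttwEntries Phi ∪ Set.range x)) :
    Ideal.Quotient.mk (RingHom.ker (π : A →+* M)) u ∈
      Algebra.adjoin O (rttwEntries (rtprodMat π Sig) ∪ rttwEntries (rtprodMat π Phi) ∪
        Set.range (rtprodX π x)) := by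
  have h1 : (Ideal.Quotient.mkₐ O (RingHom.ker (π : A →+* M))) u ∈
      (Algebra.adjoin O (rttwEntries Sig ∪ rttwEntries Phi ∪ Set.range x)).map
        (Ideal.Quotient.mkₐ O (RingHom.ker (π : A →+* M))) :=
    Subalgebra.mem_map.mpr ⟨u, hu, rfl⟩
  rw [AlgHom.map_adjoin] at h1
  refine Algebra.adjoin_mono ?_ h1
  rintro _ ⟨y, ((⟨i, a, b, rfl⟩ | ⟨i, a, b, rfl⟩) | ⟨k, rfl⟩), rfl⟩
  · exact Or.inl (Or.inl ⟨i, a, b, rfl⟩)
  · exact Or.inl (Or.inr ⟨i, a, b, rfl⟩)
  · exact Or.inr ⟨k, rfl⟩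

end Quot

end Fermat.Agent.RT.Prod
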